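import Fermat.Agent.Curve.RR.Main
import Fermat.Agent.Curve.Basics.Degree
import Fermat.Agent.Curve.RR.Setup

/-!
# The ring of functions regular away from one place, and constant extensions of a function field

For a place `o` of a function field `F/k` (`k` algebraically closed) the functions regular away
from `o` have a basis with distinct pole orders at `o`. Over a larger field of constants the top
index is additive, so `L ⊗ F` is a domain.
-/

set_option autoImplicit false
set_option linter.unusedSectionVars false
set_option linter.style.haveILetI false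

noncomputable section

open AlgebraicCurve TensorProduct

namespace FermatAgent.AbVar.Engine

open FermatAgent.Curve FermatAgent.Curve.RR

variable {k F : Type*} [Field k] [IsAlgClosed k] [Field F] [Algebra k F] [IsFunctionField1 k F]

/-- The functions regular away from `o`. -/
def affRing (o : Place k F) : Subalgebra k F where
  carrier := {f | ∀ v : Place k F, v ≠ o → f ∈ v.toValuationSubring}
  mul_mem' hf hg v hv := mul_mem (hf v hv) (hg v hv)
  one_mem' _ _ := one_mem _
  add_mem' hf hg v hv := add_mem (hf v hv) (hg v hv)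
  zero_mem' _ _ := zero_mem _
  algebraMap_mem' a v _ := v.algebraMap_mem' a

variable (o : Place k F)

/-- A nonzero function regular away from `o` has order at most zero at `o`. -/
theorem ord_nonpos {f : F} (hf : f ∈ affRing o) (h0 : f ≠ 0) : o.ord f ≤ 0 := by
  by_contra hlt
  push Not at hlt
  have hdeg : Divisor.degree (-Finsupp.single o 1 : Divisor k F) < 0 := by
    rw [map_neg, degree_single]; norm_num
  have hmem : f ∈ riemannRochSpace (-Finsupp.single o 1 : Divisor k F) := by
    refine mem_riemannRochSpace_iff.mpr fun v => Or.inr ?_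
    rw [Finsupp.neg_apply, neg_neg]
    rcases eq_or_ne v o with rfl | hv
    · rw [Finsupp.single_eq_same]; omega
    · rw [Finsupp.single_eq_of_ne hv]; exact ord_nonneg_of_mem' v (hf v hv)
  rw [RR.riemannRochSpace_eq_bot_of_degree_neg hdeg] at hmem
  exact h0 hmem

/-- The pole orders at `o`. -/
def poleSet : Set ℕ := {n | ∃ f ∈ affRing o, f ≠ 0 ∧ o.ord f = -(n : ℤ)}

/-- A function of given pole order. -/
def bFun (i : poleSet o) : affRing o := ⟨i.2.choose, i.2.choose_spec.1⟩

theorem bFun_ne_zero (i : poleSet o) : (bFun o i : F) ≠ 0 := i.2.choose_spec.2.1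

theorem ord_bFun (i : poleSet o) : o.ord (bFun o i : F) = -((i : ℕ) : ℤ) := i.2.choose_spec.2.2

theorem mem_poleSet_of_ge {n : ℕ} (hn : 2 * genusFF k F ≤ n) (hn0 : 0 < n) : n ∈ poleSet o := by
  obtain ⟨f, h0, ho, hf⟩ := exists_single_pole o hn hn0
  exact ⟨f, fun v hv => (mem_iff_ord_nonneg' v).mpr (hf v hv), h0, ho⟩

/-- A combination of the `bFun` with all indices below `n` has order above `-n`. -/
theorem ord_linearCombination (c : poleSet o →₀ k) (hc : c ≠ 0) :
    (Finsupp.linearCombination k (fun i => (bFun o i : F)) c) ≠ 0 ∧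
      o.ord (Finsupp.linearCombination k (fun i => (bFun o i : F)) c) =
        -(((c.support.max' (Finsupp.support_nonempty_iff.mpr hc) : poleSet o) : ℕ) : ℤ) := by
  classical
  induction h : c.support.card using Nat.strong_induction_on generalizing c with
  | _ n ih =>
    set i := c.support.max' (Finsupp.support_nonempty_iff.mpr hc) with hi
    have hic : c i ≠ 0 := Finsupp.mem_support_iff.mp (Finset.max'_mem _ _)
    have hb0 : c i • (bFun o i : F) ≠ 0 := smul_ne_zero hic (bFun_ne_zero o i)
    have hbo : o.ord (c i • (bFun o i : F)) = -((i : ℕ) : ℤ) := by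
      rw [ord_smul_const o hic, ord_bFun]
    have hsum : Finsupp.linearCombination k (fun i => (bFun o i : F)) c =
        c i • (bFun o i : F) + Finsupp.linearCombination k (fun i => (bFun o i : F)) (c.erase i) := by
      conv_lhs => rw [← Finsupp.single_add_erase i c]
      rw [map_add, Finsupp.linearCombination_single]
    rw [hsum]
    by_cases he : c.erase i = 0
    · rw [he, map_zero, add_zero]
      exact ⟨hb0, hbo⟩
    obtain ⟨h0, ho⟩ := ih (c.erase i).support.card (by
      rw [← h, Finsupp.support_erase]
      exact Finset.card_erase_lt_of_mem (Finset.max'_mem _ _)) _ he rfl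
    set j := (c.erase i).support.max' (Finsupp.support_nonempty_iff.mpr he) with hj
    have hji : j < i := by
      have hjm := Finset.max'_mem _ (Finsupp.support_nonempty_iff.mpr he)
      rw [← hj, Finsupp.support_erase, Finset.mem_erase] at hjm
      exact lt_of_le_of_ne (Finset.le_max' _ _ hjm.2) hjm.1
    have hlt : o.ord (c i • (bFun o i : F)) <
        o.ord (Finsupp.linearCombination k (fun i => (bFun o i : F)) (c.erase i)) := by
      rw [hbo, ho]
      have : ((j : ℕ) : ℤ) < ((i : ℕ) : ℤ) := by exact_mod_cast hji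
      omega
    exact ⟨add_ne_zero_of_ord_lt o hb0 (Or.inr hlt),
      by rw [ord_add_eq_left o hb0 (Or.inr hlt), hbo]⟩

theorem linearIndependent_bFun : LinearIndependent k (bFun o) := by
  refine LinearIndependent.of_comp (affRing o).val.toLinearMap ?_
  rw [linearIndependent_iff]
  intro c hc
  by_contra h
  exact (ord_linearCombination o c h).1 hc

theorem span_bFun_eq_top : Submodule.span k (Set.range (bFun o)) = ⊤ := by
  refine eq_top_iff.mpr fun f _ => ?_
  suffices key : ∀ (n : ℕ) (f : affRing o), -(n : ℤ) ≤ o.ord (f : F) →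
      f ∈ Submodule.span k (Set.range (bFun o)) from key (o.ord (f : F)).natAbs f (by omega)
  intro n
  induction n using Nat.strong_induction_on with
  | _ n ih =>
    intro f hf
    rcases eq_or_ne f 0 with rfl | h0
    · exact zero_mem _
    have hf0 : (f : F) ≠ 0 := fun h => h0 (Subtype.ext h)
    have hle := ord_nonpos o f.2 hf0
    set m := (o.ord (f : F)).natAbs with hm
    have hfm : o.ord (f : F) = -(m : ℤ) := by omega
    rcases lt_or_eq_of_le (show m ≤ n by omega) with hlt | hmn
    · exact ih m hlt f hfm.ge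
    let i : poleSet o := ⟨n, f, f.2, hf0, by rw [hfm, hmn]⟩
    have hq : o.ord ((f : F) / (bFun o i : F)) = 0 := by
      rw [ord_div o hf0 (bFun_ne_zero o i), ord_bFun, hfm, hmn]; simp [i]
    have hqm : (f : F) / (bFun o i : F) ∈ o.toValuationSubring :=
      (mem_iff_ord_nonneg' o).mpr hq.ge
    set c := valueAt o ((f : F) / (bFun o i : F)) with hc
    have hdec : f = c • bFun o i + (f - c • bFun o i) := (add_sub_cancel _ _).symm
    rw [hdec]
    refine add_mem (Submodule.smul_mem _ _ (Submodule.subset_span ⟨i, rfl⟩)) ?_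
    by_cases hr : f - c • bFun o i = 0
    · rw [hr]; exact zero_mem _
    have hrval : ((f - c • bFun o i : affRing o) : F) = (f : F) - c • (bFun o i : F) := rfl
    have hr0 : (f : F) - c • (bFun o i : F) ≠ 0 := fun h => hr (Subtype.ext h)
    have hfac : (f : F) - c • (bFun o i : F) =
        ((f : F) / (bFun o i : F) - algebraMap k F c) * (bFun o i : F) := by
      rw [sub_mul, div_mul_cancel₀ _ (bFun_ne_zero o i), Algebra.smul_def]
    have hpos : 0 < o.ord ((f : F) / (bFun o i : F) - algebraMap k F c) := by
      refine (valueAt_spec o hqm).resolve_left fun h => hr0 ?_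
      rw [hfac, ← hc] at *
      rw [sub_eq_zero.mpr h, zero_mul]
    have hord : -((n : ℤ)) < o.ord ((f - c • bFun o i : affRing o) : F) := by
      rw [hrval, hfac, o.ord_mul (fun h => hr0 (by rw [hfac, h, zero_mul])) (bFun_ne_zero o i),
        ord_bFun]
      show -(n : ℤ) < _ + -((n : ℕ) : ℤ)
      omega
    rcases Nat.eq_zero_or_pos n with hn | hn
    · have := ord_nonpos o (f - c • bFun o i).2 (by rwa [hrval])
      omega
    exact ih (n - 1) (by omega) _ (by omega)

/-- The functions regular away from `o` have a basis with distinct pole orders. -/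
def affBasis : Module.Basis (poleSet o) k (affRing o) :=
  Module.Basis.mk (linearIndependent_bFun o) (span_bFun_eq_top o).ge

@[simp]
theorem affBasis_apply (i : poleSet o) : affBasis o i = bFun o i :=
  Module.Basis.mk_apply _ _ i

theorem ord_eq_neg_max {f : affRing o} (hf : f ≠ 0) :
    o.ord (f : F) = -((((affBasis o).repr f).support.max' (Finsupp.support_nonempty_iff.mpr
      ((affBasis o).repr.map_ne_zero_iff.mpr hf)) : ℕ) : ℤ) := by
  have h := ord_linearCombination o ((affBasis o).repr f)
    ((affBasis o).repr.map_ne_zero_iff.mpr hf)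
  have e : Finsupp.linearCombination k (fun i => (bFun o i : F)) ((affBasis o).repr f) = (f : F) := by
    conv_rhs => rw [← (affBasis o).linearCombination_repr f]
    rw [show (⇑(affBasis o)) = bFun o from funext (affBasis_apply o)]
    exact (Finsupp.apply_linearCombination k (affRing o).val.toLinearMap (bFun o)
      ((affBasis o).repr f)).symm
  rw [e] at h
  exact h.2

theorem repr_le {f : affRing o} {n : ℕ} (hf : -(n : ℤ) ≤ o.ord (f : F)) {i : poleSet o}
    (hi : (affBasis o).repr f i ≠ 0) : (i : ℕ) ≤ n := by
  have h0 : f ≠ 0 := fun h => hi (by rw [h, map_zero, Finsupp.zero_apply])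
  have h1 := ord_eq_neg_max o h0
  have h2 : i ≤ ((affBasis o).repr f).support.max' _ :=
    Finset.le_max' _ i (Finsupp.mem_support_iff.mpr hi)
  have h3 : ((i : ℕ) : ℤ) ≤ ((((affBasis o).repr f).support.max' (Finsupp.support_nonempty_iff.mpr
      ((affBasis o).repr.map_ne_zero_iff.mpr h0)) : ℕ) : ℤ) := by exact_mod_cast h2
  omega

theorem add_mem_poleSet (i j : poleSet o) : (i : ℕ) + j ∈ poleSet o :=
  ⟨(bFun o i * bFun o j : affRing o), (bFun o i * bFun o j).2,
    mul_ne_zero (bFun_ne_zero o i) (bFun_ne_zero o j), by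
      rw [Subalgebra.coe_mul, o.ord_mul (bFun_ne_zero o i) (bFun_ne_zero o j), ord_bFun, ord_bFun]
      push_cast; ring⟩

theorem repr_mul_top (i j : poleSet o) :
    (affBasis o).repr (bFun o i * bFun o j) ⟨_, add_mem_poleSet o i j⟩ ≠ 0 := by
  have h0 : bFun o i * bFun o j ≠ 0 := fun h =>
    mul_ne_zero (bFun_ne_zero o i) (bFun_ne_zero o j) (congrArg Subtype.val h)
  have h1 := ord_eq_neg_max o h0
  rw [Subalgebra.coe_mul, o.ord_mul (bFun_ne_zero o i) (bFun_ne_zero o j), ord_bFun, ord_bFun] at h1
  set m := ((affBasis o).repr (bFun o i * bFun o j)).support.max' (Finsupp.support_nonempty_iff.mpr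
    ((affBasis o).repr.map_ne_zero_iff.mpr h0)) with hm
  have hm' : m = ⟨_, add_mem_poleSet o i j⟩ := Subtype.ext (by show (m : ℕ) = (i : ℕ) + j; omega)
  rw [← hm']
  exact Finsupp.mem_support_iff.mp (Finset.max'_mem _ _)

section Ext

variable (L : Type*) [Field L] [Algebra k L]

/-- The basis after extension of constants. -/
def extBasis : Module.Basis (poleSet o) L (L ⊗[k] affRing o) := (affBasis o).baseChange L

@[simp]
theorem extBasis_apply (i : poleSet o) : extBasis o L i = 1 ⊗ₜ bFun o i := by
  simp [extBasis]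

/-- The top index of an element. -/
def top {x : L ⊗[k] affRing o} (hx : x ≠ 0) : poleSet o :=
  ((extBasis o L).repr x).support.max'
    (Finsupp.support_nonempty_iff.mpr ((extBasis o L).repr.map_ne_zero_iff.mpr hx))

theorem mul_repr_top {x y : L ⊗[k] affRing o} (hx : x ≠ 0) (hy : y ≠ 0) :
    (extBasis o L).repr (x * y) ⟨_, add_mem_poleSet o (top o L hx) (top o L hy)⟩ =
      (extBasis o L).repr x (top o L hx) * (extBasis o L).repr y (top o L hy) *
        algebraMap k L ((affBasis o).repr (bFun o (top o L hx) * bFun o (top o L hy))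
          ⟨_, add_mem_poleSet o (top o L hx) (top o L hy)⟩) := by
  classical
  set b := extBasis o L
  set u := top o L hx with hu
  set w := top o L hy with hw
  set t : poleSet o := ⟨_, add_mem_poleSet o u w⟩ with ht
  have hbb : ∀ i j, b.repr (b i * b j) t = algebraMap k L ((affBasis o).repr (bFun o i * bFun o j) t) := by
    intro i j
    rw [extBasis_apply, extBasis_apply, Algebra.TensorProduct.tmul_mul_tmul, one_mul]
    simp [b, extBasis, Algebra.algebraMap_eq_smul_one]
  have hxy : x * y = (b.repr x).sum fun i c => (b.repr y).sum fun j d => (c * d) • (b i * b j) := by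
    conv_lhs => rw [← b.linearCombination_repr x, ← b.linearCombination_repr y]
    rw [Finsupp.linearCombination_apply, Finsupp.linearCombination_apply, Finsupp.sum,
      Finsupp.sum, Finset.sum_mul_sum]
    refine Finset.sum_congr rfl fun i _ => Finset.sum_congr rfl fun j _ => ?_
    rw [smul_mul_smul_comm]
  rw [hxy, map_finsuppSum, Finsupp.sum_apply, Finsupp.sum, Finset.sum_eq_single u]
  · rw [map_finsuppSum, Finsupp.sum_apply, Finsupp.sum, Finset.sum_eq_single w]
    · simp only [map_smul, Finsupp.smul_apply, smul_eq_mul, hbb]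
    · intro j hj hjw
      simp only [map_smul, Finsupp.smul_apply, smul_eq_mul, hbb]
      by_cases h : (affBasis o).repr (bFun o u * bFun o j) t = 0
      · rw [h, map_zero, mul_zero]
      exfalso
      have hjlt : (j : ℕ) < w := lt_of_le_of_ne
        (Subtype.coe_le_coe.mpr (Finset.le_max' _ j hj)) fun e => hjw (Subtype.ext e)
      have h1 := repr_le o (n := (u : ℕ) + j) (by
        rw [Subalgebra.coe_mul, o.ord_mul (bFun_ne_zero o u) (bFun_ne_zero o j), ord_bFun,
          ord_bFun]; omega) h
      simp only [ht] at h1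
      omega
    · intro h
      exact absurd (Finset.max'_mem _ _) h
  · intro i hi hiu
    rw [map_finsuppSum, Finsupp.sum_apply]
    refine Finset.sum_eq_zero fun j hj => ?_
    simp only [map_smul, Finsupp.smul_apply, smul_eq_mul, hbb]
    by_cases h : (affBasis o).repr (bFun o i * bFun o j) t = 0
    · rw [h, map_zero, mul_zero]
    exfalso
    have hilt : (i : ℕ) < u := lt_of_le_of_ne
      (Subtype.coe_le_coe.mpr (Finset.le_max' _ i hi)) fun e => hiu (Subtype.ext e)
    have hjle : (j : ℕ) ≤ w := Subtype.coe_le_coe.mpr (Finset.le_max' _ j hj)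
    have h1 := repr_le o (n := (i : ℕ) + j) (by
      rw [Subalgebra.coe_mul, o.ord_mul (bFun_ne_zero o i) (bFun_ne_zero o j), ord_bFun,
        ord_bFun]; omega) h
    simp only [ht] at h1
    omega
  · intro h
    exact absurd (Finset.max'_mem _ _) h

theorem mul_ne_zero_ext {x y : L ⊗[k] affRing o} (hx : x ≠ 0) (hy : y ≠ 0) : x * y ≠ 0 := by
  intro h
  have h1 := mul_repr_top o L hx hy
  rw [h, map_zero, Finsupp.zero_apply, eq_comm] at h1
  refine mul_ne_zero (mul_ne_zero ?_ ?_) ?_ h1
  · exact Finsupp.mem_support_iff.mp (Finset.max'_mem _ _)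
  · exact Finsupp.mem_support_iff.mp (Finset.max'_mem _ _)
  · exact (_root_.map_ne_zero _).mpr (repr_mul_top o _ _)

/-- Every function is a quotient of functions regular away from `o`. -/
theorem exists_mul_mem_affRing (f : F) : ∃ b ∈ affRing o, b ≠ 0 ∧ b * f ∈ affRing o := by
  classical
  rcases eq_or_ne f 0 with rfl | hf
  · exact ⟨1, one_mem _, one_ne_zero, by rw [mul_zero]; exact zero_mem _⟩
  set P : Divisor k F := polePart f with hP
  set M : ℕ := 2 * genusFF k F + (Divisor.degree P).natAbs with hM
  obtain ⟨b, hb, hb0, -⟩ := exists_mem_ord_eq (D := Finsupp.single o (M : ℤ) - P)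
    (by rw [map_sub, degree_single, hM]; push_cast; linarith [le_abs_self (Divisor.degree P)]) o
  have hbv : ∀ v : Place k F, v ≠ o → P v ≤ v.ord b := fun v hv => by
    have h := (mem_riemannRochSpace_iff.mp hb v).resolve_left hb0
    rw [Finsupp.sub_apply, Finsupp.single_eq_of_ne hv] at h
    omega
  refine ⟨b, fun v hv => (mem_iff_ord_nonneg' v).mpr ((polePart_nonneg f v).trans (hbv v hv)),
    hb0, fun v hv => (mem_iff_ord_nonneg' v).mpr ?_⟩
  have h1 := hbv v hv
  rw [hP, polePart_apply] at h1
  rw [v.ord_mul hb0 hf]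
  omega

variable (k F)

theorem isDomain_tensor : IsDomain (L ⊗[k] F) := by
  classical
  obtain ⟨o⟩ : Nonempty (Place k F) := RRSetting.nonempty_place
  let j : L ⊗[k] affRing o →ₐ[L] L ⊗[k] F :=
    Algebra.TensorProduct.map (AlgHom.id L L) (affRing o).val
  have hj : Function.Injective j :=
    Module.Flat.lTensor_preserves_injective_linearMap (M := L) (affRing o).val.toLinearMap
      Subtype.val_injective
  haveI : Nontrivial (L ⊗[k] F) := by
    refine ⟨⟨1, 0, fun h => ?_⟩⟩
    exact one_ne_zero (Algebra.TensorProduct.includeRight_injective (A := L) (B := F)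
      (algebraMap k L).injective (h.trans (map_zero _).symm) : (1 : F) = 0)
  have hclear : ∀ x : L ⊗[k] F, ∃ b : affRing o, (b : F) ≠ 0 ∧
      ((1 : L) ⊗ₜ[k] (b : F)) * x ∈ Set.range j := by
    intro x
    induction x using TensorProduct.induction_on with
    | zero => exact ⟨1, one_ne_zero, 0, by rw [map_zero, mul_zero]⟩
    | tmul c f =>
      obtain ⟨b, hb, hb0, hbf⟩ := exists_mul_mem_affRing o f
      exact ⟨⟨b, hb⟩, hb0, c ⊗ₜ ⟨b * f, hbf⟩, by simp [j, Algebra.TensorProduct.tmul_mul_tmul]⟩
    | add x y hx hy =>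
      obtain ⟨b, hb, u, hu⟩ := hx
      obtain ⟨b', hb', u', hu'⟩ := hy
      refine ⟨b * b', mul_ne_zero hb hb', (1 ⊗ₜ b') * u + (1 ⊗ₜ b) * u', ?_⟩
      rw [map_add, map_mul, map_mul, hu, hu', mul_add, ← mul_assoc, ← mul_assoc]
      simp [j, mul_comm (b : F)]
  have hunit : ∀ b : affRing o, (b : F) ≠ 0 → IsUnit ((1 : L) ⊗ₜ[k] (b : F)) := fun b hb =>
    (isUnit_iff_ne_zero.mpr hb).map (Algebra.TensorProduct.includeRight (R := k) (A := L) (B := F))
  haveI : NoZeroDivisors (L ⊗[k] F) := ⟨fun {x y} hxy => by
    obtain ⟨b, hb, u, hu⟩ := hclear x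
    obtain ⟨b', hb', u', hu'⟩ := hclear y
    have h0 : u * u' = 0 := hj (by rw [map_mul, hu, hu', map_zero, mul_mul_mul_comm, hxy, mul_zero])
    rcases eq_or_ne u 0 with h | h
    · exact Or.inl ((hunit b hb).mul_right_eq_zero.mp (by rw [← hu, h, map_zero]))
    · rcases eq_or_ne u' 0 with h' | h'
      · exact Or.inr ((hunit b' hb').mul_right_eq_zero.mp (by rw [← hu', h', map_zero]))
      · exact absurd h0 (mul_ne_zero_ext o L h h')⟩
  exact NoZeroDivisors.to_isDomain _

end Ext

end FermatAgent.AbVar.Engine
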