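import Fermat.Agent.AbVar.Engine.Ext

/-!
# Constant places of the extended function field

Over each place `o` of `F` lies exactly one place of `ExtField k L F`, and it is unramified;
every other place is trivial on `F`. Consequently the genus does not grow.
-/

set_option autoImplicit false
set_option linter.unusedSectionVars false
set_option linter.style.haveILetI false

noncomputable section

open AlgebraicCurve TensorProduct

namespace FermatAgent.AbVar.Engine

open FermatAgent.Curve FermatAgent.Curve.RR

section Sum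

variable {K E : Type*} [Field K] [Field E] [Algebra K E] [IsAlgClosed K] [IsFunctionField1 K E]
  (v : Place K E) {ι : Type*}

theorem lt_ord_sum (s : Finset ι) (g : ι → E) (m : ℤ)
    (h : ∀ j ∈ s, g j = 0 ∨ m < v.ord (g j)) : ∑ j ∈ s, g j = 0 ∨ m < v.ord (∑ j ∈ s, g j) := by
  classical
  induction s using Finset.induction_on with
  | empty => exact Or.inl Finset.sum_empty
  | insert a s ha ih =>
    have hs := ih fun j hj => h j (Finset.mem_insert_of_mem hj)
    rw [Finset.sum_insert ha]
    rcases h a (Finset.mem_insert_self a s) with h0 | h1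
    · rw [h0, zero_add]; exact hs
    rcases hs with h2 | h2
    · rw [h2, add_zero]; exact Or.inr h1
    by_cases hz : g a + ∑ j ∈ s, g j = 0
    · exact Or.inl hz
    · exact Or.inr (lt_of_lt_of_le (lt_min h1 h2) (min_le_ord_add v hz))

theorem ord_sum_eq (s : Finset ι) (g : ι → E) {i : ι} (hi : i ∈ s) (hg : g i ≠ 0)
    (h : ∀ j ∈ s, j ≠ i → g j = 0 ∨ v.ord (g i) < v.ord (g j)) :
    ∑ j ∈ s, g j ≠ 0 ∧ v.ord (∑ j ∈ s, g j) = v.ord (g i) := by
  classical
  rw [← Finset.add_sum_erase s g hi]
  have h1 := lt_ord_sum v (s.erase i) g (v.ord (g i)) fun j hj =>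
    h j (Finset.mem_of_mem_erase hj) (Finset.ne_of_mem_erase hj)
  exact ⟨add_ne_zero_of_ord_lt v hg h1, ord_add_eq_left v hg h1⟩

end Sum

variable {k L F : Type*} [Field k] [IsAlgClosed k] [Field L] [IsAlgClosed L] [Algebra k L]
  [Field F] [Algebra k F] [IsFunctionField1 k F]

theorem incF_ne_zero {f : F} (hf : f ≠ 0) : incF k L F f ≠ 0 := (_root_.map_ne_zero _).mpr hf

variable (k L F) in
/-- Functions regular away from `o` with constants extended, inside the extension. -/
def inclAff (o : Place k F) : L ⊗[k] affRing o →ₐ[L] ExtField k L F :=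
  (toExt k L F).comp (Algebra.TensorProduct.map (AlgHom.id L L) (affRing o).val)

theorem inclAff_tmul (o : Place k F) (c : L) (f : affRing o) :
    inclAff k L F o (c ⊗ₜ f) = algebraMap L (ExtField k L F) c * incF k L F (f : F) :=
  toExt_tmul c (f : F)

theorem inclAff_injective (o : Place k F) : Function.Injective (inclAff k L F o) :=
  toExt_injective.comp (Module.Flat.lTensor_preserves_injective_linearMap (M := L)
    (affRing o).val.toLinearMap Subtype.val_injective)

theorem inclAff_eq_sum (o : Place k F) (y : L ⊗[k] affRing o) :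
    inclAff k L F o y = ∑ i ∈ ((extBasis o L).repr y).support,
      algebraMap L (ExtField k L F) ((extBasis o L).repr y i) * incF k L F (bFun o i : F) := by
  conv_lhs => rw [← (extBasis o L).linearCombination_repr y]
  rw [Finsupp.linearCombination_apply, Finsupp.sum, map_sum]
  refine Finset.sum_congr rfl fun i _ => ?_
  rw [map_smul, extBasis_apply, inclAff_tmul, map_one, one_mul, Algebra.smul_def]

/-- Every function is a quotient of combinations of functions regular away from `o`. -/
theorem exists_div_inclAff (o : Place k F) (f : ExtField k L F) :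
    ∃ a b : L ⊗[k] affRing o, b ≠ 0 ∧ f * inclAff k L F o b = inclAff k L F o a := by
  have hclear : ∀ x : L ⊗[k] F, ∃ b : affRing o, (b : F) ≠ 0 ∧
      incF k L F (b : F) * toExt k L F x ∈ Set.range (inclAff k L F o) := by
    intro x
    induction x using TensorProduct.induction_on with
    | zero => exact ⟨1, one_ne_zero, 0, by simp⟩
    | tmul c g =>
      obtain ⟨b, hb, hb0, hbg⟩ := exists_mul_mem_affRing o g
      refine ⟨⟨b, hb⟩, hb0, c ⊗ₜ ⟨b * g, hbg⟩, ?_⟩
      rw [inclAff_tmul, toExt_tmul, map_mul]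
      ring
    | add x y hx hy =>
      obtain ⟨b, hb, u, hu⟩ := hx
      obtain ⟨b', hb', u', hu'⟩ := hy
      refine ⟨b * b', mul_ne_zero hb hb', (1 ⊗ₜ b') * u + (1 ⊗ₜ b) * u', ?_⟩
      rw [map_add, map_mul, map_mul, hu, hu', inclAff_tmul, inclAff_tmul, Subalgebra.coe_mul,
        map_mul, map_add, map_one]
      ring
  obtain ⟨x, y, hy, rfl⟩ := exists_div f
  obtain ⟨b, hb, u, hu⟩ := hclear x
  obtain ⟨b', hb', u', hu'⟩ := hclear y
  have hy0 : toExt k L F y ≠ 0 := (map_ne_zero_iff _ toExt_injective).mpr hy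
  refine ⟨(1 ⊗ₜ b') * u, (1 ⊗ₜ b) * u', fun h => ?_, ?_⟩
  · have := congrArg (inclAff k L F o) h
    rw [map_mul, map_zero, inclAff_tmul, hu', map_one, one_mul] at this
    exact mul_ne_zero (incF_ne_zero hb) (mul_ne_zero (incF_ne_zero hb') hy0) this
  · rw [map_mul, map_mul, inclAff_tmul, inclAff_tmul, hu, hu', map_one]
    field_simp

/-- `π` lies over `o`. -/
def LiesOver (π : Place L (ExtField k L F)) (o : Place k F) : Prop :=
  ∀ f : F, incF k L F f ∈ π.toValuationSubring ↔ f ∈ o.toValuationSubring

/-- A place is trivial on `F` or lies over a place. -/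
theorem trivial_or_liesOver (π : Place L (ExtField k L F)) :
    (∀ f : F, π.ord (incF k L F f) = 0) ∨ ∃ o : Place k F, LiesOver π o := by
  refine or_iff_not_imp_left.mpr fun h => ?_
  let V : ValuationSubring F := π.toValuationSubring.comap (incF k L F).toRingHom
  have hk : ∀ a : k, algebraMap k F a ∈ V := fun a => by
    show incF k L F (algebraMap k F a) ∈ π.toValuationSubring
    rw [incF_algebraMap]; exact π.algebraMap_mem' _
  have hne : V ≠ ⊤ := fun htop => h fun f => by
    have hall : ∀ g : F, incF k L F g ∈ π.toValuationSubring := fun g => by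
      have := (htop.symm ▸ ValuationSubring.mem_top g : g ∈ V)
      exact this
    have h1 := ord_nonneg_of_mem' π (hall f)
    have h2 := ord_nonneg_of_mem' π (hall f⁻¹)
    rw [map_inv₀, π.ord_inv] at h2
    omega
  exact ⟨placeOfValuationSubring V hk hne, fun f => Iff.rfl⟩

/-- Some place lies over each place of `F`. -/
theorem exists_liesOver (o : Place k F) : ∃ π : Place L (ExtField k L F), LiesOver π o := by
  obtain ⟨x, hx0, hxo, hxv⟩ :=
    exists_single_pole o (n := 2 * genusFF k F + 1) (by omega) (by omega)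
  have hx : Transcendental k x := transcendental_of_ord_ne_zero o (by rw [hxo]; omega)
  obtain ⟨π, hπ⟩ := exists_ord_neg_of_transcendental (K := L) (F := ExtField k L F)
    (transcendental_incF (L := L) hx)
  rcases trivial_or_liesOver π with h | ⟨o', ho'⟩
  · rw [h] at hπ; exact absurd hπ (lt_irrefl _)
  refine ⟨π, ?_⟩
  have : o' = o := by
    by_contra hne
    have h1 : x ∈ o'.toValuationSubring := (mem_iff_ord_nonneg' o').mpr (hxv o' hne)
    have h2 := ord_nonneg_of_mem' π ((ho' x).mpr h1)
    omega
  exact this ▸ ho'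

theorem LiesOver.ord_incF_eq_mul {π : Place L (ExtField k L F)} {o : Place k F}
    (h : LiesOver π o) {ϖ : F} (hϖ : o.ord ϖ = 1) (f : F) :
    π.ord (incF k L F f) = π.ord (incF k L F ϖ) * o.ord f := by
  rcases eq_or_ne f 0 with rfl | hf
  · simp
  have hϖ0 : ϖ ≠ 0 := fun e => by simp [e] at hϖ
  have hunit : ∀ u : F, o.ord u = 0 → π.ord (incF k L F u) = 0 := fun u hu => by
    have h1 := ord_nonneg_of_mem' π ((h u).mpr ((mem_iff_ord_nonneg' o).mpr hu.ge))
    have h2 := ord_nonneg_of_mem' π ((h u⁻¹).mpr
      ((mem_iff_ord_nonneg' o).mpr (by rw [o.ord_inv, hu, neg_zero])))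
    rw [map_inv₀, π.ord_inv] at h2
    omega
  set u := f * (ϖ ^ o.ord f)⁻¹ with hu
  have hu0 : o.ord u = 0 := by
    rw [hu, o.ord_mul hf (inv_ne_zero (zpow_ne_zero _ hϖ0)), o.ord_inv, o.ord_zpow, hϖ]; ring
  have hfe : f = u * ϖ ^ o.ord f := by
    rw [hu, inv_mul_cancel_right₀ (zpow_ne_zero _ hϖ0)]
  conv_lhs => rw [hfe]
  rw [map_mul, π.ord_mul (incF_ne_zero (mul_ne_zero hf (inv_ne_zero (zpow_ne_zero _ hϖ0))))
    (incF_ne_zero (zpow_ne_zero _ hϖ0)), hunit u hu0, zero_add, map_zpow₀, π.ord_zpow, mul_comm]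

theorem LiesOver.ord_uniformiser_pos {π : Place L (ExtField k L F)} {o : Place k F}
    (h : LiesOver π o) {ϖ : F} (hϖ : o.ord ϖ = 1) : 0 < π.ord (incF k L F ϖ) := by
  have hn : incF k L F ϖ⁻¹ ∉ π.toValuationSubring := fun hm => by
    have := ord_nonneg_of_mem' o ((h _).mp hm)
    rw [o.ord_inv, hϖ] at this
    omega
  have := ord_neg_of_notMem π hn
  rw [map_inv₀, π.ord_inv] at this
  omega

theorem LiesOver.ord_inclAff {π : Place L (ExtField k L F)} {o : Place k F}
    (h : LiesOver π o) {ϖ : F} (hϖ : o.ord ϖ = 1) {y : L ⊗[k] affRing o} (hy : y ≠ 0) :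
    inclAff k L F o y ≠ 0 ∧ π.ord (inclAff k L F o y) =
      -(π.ord (incF k L F ϖ) * ((top o L hy : ℕ) : ℤ)) := by
  have he := h.ord_uniformiser_pos hϖ
  set r := (extBasis o L).repr y with hr
  have htop : top o L hy ∈ r.support := Finset.max'_mem _ _
  have hc : ∀ i ∈ r.support, algebraMap L (ExtField k L F) (r i) ≠ 0 := fun i hi =>
    (_root_.map_ne_zero _).mpr (Finsupp.mem_support_iff.mp hi)
  have hord : ∀ i ∈ r.support,
      π.ord (algebraMap L (ExtField k L F) (r i) * incF k L F (bFun o i : F)) =
        -(π.ord (incF k L F ϖ) * ((i : ℕ) : ℤ)) := fun i hi => by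
    rw [π.ord_mul (hc i hi) (incF_ne_zero (bFun_ne_zero o i)), ord_algebraMap_const,
      h.ord_incF_eq_mul hϖ, ord_bFun]
    ring
  have h1 := ord_sum_eq π r.support
    (fun i => algebraMap L (ExtField k L F) (r i) * incF k L F (bFun o i : F)) htop
    (mul_ne_zero (hc _ htop) (incF_ne_zero (bFun_ne_zero o _))) fun j hj hjt => Or.inr (by
      show π.ord _ < π.ord _
      rw [hord j hj, hord _ htop]
      have hlt : ((j : ℕ) : ℤ) < ((top o L hy : ℕ) : ℤ) := by
        exact_mod_cast lt_of_le_of_ne (Finset.le_max' _ j hj) hjt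
      have := mul_lt_mul_of_pos_left hlt he
      linarith)
  rw [inclAff_eq_sum, ← hr]
  exact ⟨h1.1, h1.2.trans (hord _ htop)⟩

theorem LiesOver.ord_uniformiser {π : Place L (ExtField k L F)} {o : Place k F}
    (h : LiesOver π o) {ϖ : F} (hϖ : o.ord ϖ = 1) : π.ord (incF k L F ϖ) = 1 := by
  obtain ⟨u, hu0, hu⟩ := Curve.exists_ord_eq π 1
  obtain ⟨a, b, hb, hab⟩ := exists_div_inclAff o u
  obtain ⟨hb0, hbo⟩ := h.ord_inclAff hϖ hb
  have ha : a ≠ 0 := fun e => mul_ne_zero hu0 hb0 (by rw [hab, e, map_zero])
  have h1 := congrArg π.ord hab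
  rw [π.ord_mul hu0 hb0, hu, hbo, (h.ord_inclAff hϖ ha).2] at h1
  have h2 : (1 : ℤ) = π.ord (incF k L F ϖ) *
      (((top o L hb : ℕ) : ℤ) - ((top o L ha : ℕ) : ℤ)) := by linarith
  exact Int.eq_one_of_dvd_one (h.ord_uniformiser_pos hϖ).le (Dvd.intro _ h2.symm)

theorem LiesOver.ord_incF {π : Place L (ExtField k L F)} {o : Place k F} (h : LiesOver π o)
    (f : F) : π.ord (incF k L F f) = o.ord f := by
  obtain ⟨ϖ, -, hϖ⟩ := Curve.exists_ord_eq o 1
  rw [h.ord_incF_eq_mul hϖ, h.ord_uniformiser hϖ, one_mul]

theorem LiesOver.ord_inclAff_eq {π : Place L (ExtField k L F)} {o : Place k F} (h : LiesOver π o)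
    {y : L ⊗[k] affRing o} (hy : y ≠ 0) :
    π.ord (inclAff k L F o y) = -((top o L hy : ℕ) : ℤ) := by
  obtain ⟨ϖ, -, hϖ⟩ := Curve.exists_ord_eq o 1
  rw [(h.ord_inclAff hϖ hy).2, h.ord_uniformiser hϖ, one_mul]

theorem LiesOver.unique {π π' : Place L (ExtField k L F)} {o : Place k F}
    (h : LiesOver π o) (h' : LiesOver π' o) : π = π' := by
  obtain ⟨ϖ, -, hϖ⟩ := Curve.exists_ord_eq o 1
  refine place_eq_of_ord_eq fun f => ?_
  rcases eq_or_ne f 0 with rfl | hf
  · simp
  obtain ⟨a, b, hb, hab⟩ := exists_div_inclAff o f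
  obtain ⟨hb0, -⟩ := h.ord_inclAff hϖ hb
  have ha : a ≠ 0 := fun e => mul_ne_zero hf hb0 (by rw [hab, e, map_zero])
  have h1 := congrArg π.ord hab
  have h2 := congrArg π'.ord hab
  rw [π.ord_mul hf hb0, h.ord_inclAff_eq hb, h.ord_inclAff_eq ha] at h1
  rw [π'.ord_mul hf hb0, h'.ord_inclAff_eq hb, h'.ord_inclAff_eq ha] at h2
  linarith

variable (L)

/-- The place over `o`. -/
def constPlace (o : Place k F) : Place L (ExtField k L F) :=
  (exists_liesOver (L := L) o).choose

theorem liesOver_constPlace (o : Place k F) : LiesOver (constPlace L o) o :=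
  (exists_liesOver (L := L) o).choose_spec

theorem eq_constPlace {π : Place L (ExtField k L F)} {o : Place k F} (h : LiesOver π o) :
    π = constPlace L o :=
  h.unique (liesOver_constPlace L o)

@[simp]
theorem ord_constPlace_incF (o : Place k F) (f : F) :
    (constPlace L o).ord (incF k L F f) = o.ord f :=
  (liesOver_constPlace L o).ord_incF f

theorem constPlace_injective : Function.Injective (constPlace L (k := k) (F := F)) :=
  fun o o' h => place_eq_of_ord_eq fun f => by
    rw [← ord_constPlace_incF L o, ← ord_constPlace_incF L o', h]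

theorem ord_incF_of_ne {π : Place L (ExtField k L F)} (h : ∀ o, π ≠ constPlace L o) (f : F) :
    π.ord (incF k L F f) = 0 := by
  rcases trivial_or_liesOver π with h0 | ⟨o, ho⟩
  · exact h0 f
  · exact absurd (eq_constPlace L ho) (h o)

theorem valueAt_constPlace {o : Place k F} {f : F} (hf : f ∈ o.toValuationSubring) :
    valueAt (constPlace L o) (incF k L F f) = algebraMap k L (valueAt o f) := by
  refine valueAt_eq_of _ ?_
  rw [← incF_algebraMap]
  rcases valueAt_spec o hf with h | h
  · exact Or.inl (congrArg (incF k L F) h)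
  · right
    rwa [← map_sub, ord_constPlace_incF]

variable (k F) in
/-- The genus does not grow. -/
theorem genusFF_ext_le : genusFF L (ExtField k L F) ≤ genusFF k F := by
  classical
  obtain ⟨o⟩ : Nonempty (Place k F) := RRSetting.nonempty_place
  set m := 2 * genusFF k F + 2 * genusFF L (ExtField k L F) + 1 with hm
  set π := constPlace L o
  have hfin : {i : poleSet o | (i : ℕ) ≤ m}.Finite :=
    (Set.finite_Iic m).preimage Subtype.val_injective.injOn
  set S := hfin.toFinset
  have hlow : riemannRochSpace (Finsupp.single o (m : ℤ)) ≤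
      Submodule.span k ((fun i : poleSet o => (bFun o i : F)) '' (S : Set (poleSet o))) := by
    intro f hf
    rcases eq_or_ne f 0 with rfl | hf0
    · exact zero_mem _
    have hmem : f ∈ affRing o := fun v hv => (mem_iff_ord_nonneg' v).mpr (by
      have h := (mem_riemannRochSpace_iff.mp hf v).resolve_left hf0
      rw [Finsupp.single_eq_of_ne hv] at h
      omega)
    have hom : -(m : ℤ) ≤ o.ord f := by
      have h := (mem_riemannRochSpace_iff.mp hf o).resolve_left hf0
      rwa [Finsupp.single_eq_same] at h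
    have e : f = (affRing o).val (⟨f, hmem⟩ : affRing o) := rfl
    rw [e, ← (affBasis o).linearCombination_repr ⟨f, hmem⟩, Finsupp.linearCombination_apply,
      Finsupp.sum, map_sum]
    refine Submodule.sum_mem _ fun i hi => ?_
    rw [map_smul, affBasis_apply]
    exact Submodule.smul_mem _ _ (Submodule.subset_span ⟨i, hfin.mem_toFinset.mpr
      (repr_le o (f := ⟨f, hmem⟩) hom (Finsupp.mem_support_iff.mp hi)), rfl⟩)
  have h1 : ell (Finsupp.single o (m : ℤ)) ≤ S.card := by
    haveI : FiniteDimensional k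
        (Submodule.span k ((fun i : poleSet o => (bFun o i : F)) '' (S : Set (poleSet o)))) :=
      FiniteDimensional.span_of_finite k (S.finite_toSet.image _)
    refine (Submodule.finrank_mono hlow).trans ?_
    rw [← Finset.coe_image]
    exact (finrank_span_finset_le_card _).trans Finset.card_image_le
  have hmem2 : ∀ i : S, incF k L F (bFun o i.1 : F) ∈
      riemannRochSpace (Finsupp.single π (m : ℤ)) := by
    intro i
    refine mem_riemannRochSpace_iff.mpr fun v => Or.inr ?_
    rcases eq_or_ne v π with rfl | hv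
    · rw [Finsupp.single_eq_same, ord_constPlace_incF, ord_bFun]
      have : ((i.1 : ℕ)) ≤ m := hfin.mem_toFinset.mp i.2
      omega
    · rw [Finsupp.single_eq_of_ne hv, neg_zero]
      rcases trivial_or_liesOver v with h0 | ⟨q, hq⟩
      · rw [h0]
      · rw [hq.ord_incF]
        refine ord_nonneg_of_mem' q ((bFun o i.1).2 q fun e => hv ?_)
        exact eq_constPlace L (e ▸ hq)
  have h2 : S.card ≤ ell (Finsupp.single π (m : ℤ)) := by
    have hli : LinearIndependent L (fun i : S => incF k L F (bFun o i.1 : F)) := by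
      have h := ((extBasis o L).linearIndependent.map' (inclAff k L F o).toLinearMap
        (LinearMap.ker_eq_bot.mpr (inclAff_injective o))).comp (fun i : S => i.1)
        Subtype.val_injective
      have e : (fun i : S => incF k L F (bFun o i.1 : F)) =
          ((⇑(inclAff k L F o).toLinearMap ∘ ⇑(extBasis o L)) ∘ fun i : S => i.1) := by
        funext i
        simp [inclAff_tmul]
      rw [e]; exact h
    have hli' : LinearIndependent L (fun i : S =>
        (⟨_, hmem2 i⟩ : riemannRochSpace (Finsupp.single π (m : ℤ)))) :=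
      LinearIndependent.of_comp (Submodule.subtype _) hli
    haveI := finiteRRSpace (Finsupp.single π (m : ℤ))
    have := hli'.fintype_card_le_finrank
    rwa [Fintype.card_coe] at this
  have e1 := ell_eq_of_degree_ge (D := Finsupp.single o (m : ℤ))
    (by rw [degree_single, hm]; push_cast; linarith)
  have e2 := ell_eq_of_degree_ge (D := Finsupp.single π (m : ℤ))
    (by rw [degree_single, hm]; push_cast; linarith)
  rw [degree_single] at e1 e2
  omega

end FermatAgent.AbVar.Engine
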