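import Fermat.Agent.AbVar.Engine.Local

/-!
# Reduction of divisors

The divisor of a function of the Gauss ring reduces to the divisor of its reduction, and a
function of the Gauss ring without poles over `Q` lies in the local ring at `Q`.
-/

set_option autoImplicit false
set_option linter.unusedSectionVars false

noncomputable section

open AlgebraicCurve TensorProduct

namespace FermatAgent.AbVar.Engine

open FermatAgent.Curve FermatAgent.Curve.RR

variable {k L F : Type*} [Field k] [IsAlgClosed k] [Field L] [IsAlgClosed L] [Algebra k L]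
  [Field F] [Algebra k F] [IsFunctionField1 k F] (c : ConstRed k L)
  {P P' : Place L (ExtField k L F)} {Q : Place k F} {ϖ : F}

theorem mem_of_ord_eq_one (hϖ : Q.ord ϖ = 1) : ϖ ∈ Q.toValuationSubring :=
  (mem_iff_ord_nonneg' Q).mpr (by rw [hϖ]; exact zero_le_one)

theorem valueAt_of_ord_eq_one (hϖ : Q.ord ϖ = 1) : valueAt Q ϖ = 0 :=
  (valueAt_eq_zero_iff Q (mem_of_ord_eq_one hϖ)).mpr (Or.inr (by rw [hϖ]; exact zero_lt_one))

/-- A function of the local ring vanishing at `P` is a multiple of `ϖ - ϖ(P)`. -/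
theorem exists_eq_mul_dev (hP : redPlace c P = Q) (hϖ : Q.ord ϖ = 1) {h : ExtField k L F}
    (hh : h ∈ locRing c Q) (h0 : valueAt P h = 0) : ∃ b ∈ locRing c Q, h = b * dev P ϖ := by
  obtain ⟨hm, -, -⟩ := locRing_spec c hP hh
  obtain ⟨A, S, hA, hS, hS0, he⟩ := hh
  have hS' : valueAt Q (redFun c (intIncl c S)) ≠ 0 := by rwa [redFun_intIncl]
  have hinv := inv_mem_locRing c Q (intIncl_mem_locRing c Q hS) hS'
  obtain ⟨s1, -, -, -⟩ := regularAt_spec c hP hS
  have hA0 : valueAt P (intIncl c A) = 0 := by rw [← he, valueAt_mul P hm s1, h0, zero_mul]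
  obtain ⟨b, hb, hbe⟩ := exists_mul_dev c hP hϖ hA
  rw [hA0, map_zero, sub_zero] at hbe
  refine ⟨b * (intIncl c S)⁻¹, mul_mem hb hinv, ?_⟩
  rw [mul_right_comm, ← hbe, ← he,
    mul_inv_cancel_right₀ (intIncl_ne_zero c (ne_zero_of_valueAt_ne_zero hS0))]

/-- Two places over `Q` with the same value of `ϖ` give the same values on the local ring. -/
theorem valueAt_eq_of_dev (hP : redPlace c P = Q) (hP' : redPlace c P' = Q) (hϖ : Q.ord ϖ = 1)
    (h0 : valueAt P' (dev P ϖ) = 0) {h : ExtField k L F} (hh : h ∈ locRing c Q) :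
    valueAt P' h = valueAt P h := by
  obtain ⟨hm, hv, -⟩ := locRing_spec c hP hh
  have hsub : h - algebraMap L (ExtField k L F) (valueAt P h) ∈ locRing c Q :=
    sub_mem hh (algebraMap_mem_locRing c Q hv)
  obtain ⟨b, hb, hbe⟩ := exists_eq_mul_dev c hP hϖ hsub
    (by rw [valueAt_sub P hm (P.algebraMap_mem' _), valueAt_algebraMap, sub_self])
  obtain ⟨hb', -, -⟩ := locRing_spec c hP' hb
  obtain ⟨hd', -, -⟩ := locRing_spec c hP' (dev_mem_locRing c hP (mem_of_ord_eq_one hϖ))
  obtain ⟨hm', -, -⟩ := locRing_spec c hP' hh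
  have h1 := congrArg (valueAt P') hbe
  rw [valueAt_sub P' hm' (P'.algebraMap_mem' _), valueAt_algebraMap, valueAt_mul P' hb' hd', h0,
    mul_zero] at h1
  exact sub_eq_zero.mp h1

theorem ord_eq_zero_of_valueAt_ne_zero {f : ExtField k L F} (hf : f ∈ P.toValuationSubring)
    (h : valueAt P f ≠ 0) : P.ord f = 0 := by
  have h1 := ord_nonneg_of_mem' P hf
  by_contra hne
  exact h ((valueAt_eq_zero_iff P hf).mpr (Or.inr (by omega)))

/-- A function regular at `P` is a quotient in the local ring with denominator nonzero at `P`. -/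
theorem exists_frac_locRing (hP : redPlace c P = Q) (hϖ : Q.ord ϖ = 1) {f : ExtField k L F}
    (hf : f ∈ P.toValuationSubring) :
    ∃ a ∈ locRing c Q, ∃ b ∈ locRing c Q, valueAt P b ≠ 0 ∧ f * b = a := by
  suffices key : ∀ n : ℕ, ∀ a ∈ locRing c Q, ∀ b ∈ locRing c Q, b ≠ 0 → P.ord b ≤ n →
      f * b = a → ∃ a ∈ locRing c Q, ∃ b ∈ locRing c Q, valueAt P b ≠ 0 ∧ f * b = a by
    obtain ⟨A, S, hA, hS, hS0, h⟩ := exists_regular_ratio c Q f
    exact key (P.ord (intIncl c S)).natAbs _ (intIncl_mem_locRing c Q hA) _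
      (intIncl_mem_locRing c Q hS) hS0 (by omega) h
  intro n
  induction n with
  | zero =>
    intro a ha b hb hb0 hn he
    refine ⟨a, ha, b, hb, fun h0 => ?_, he⟩
    have := ((valueAt_eq_zero_iff P (locRing_spec c hP hb).1).mp h0).resolve_left hb0
    omega
  | succ n ih =>
    intro a ha b hb hb0 hn he
    by_cases h0 : valueAt P b = 0
    · obtain ⟨hbm, -, -⟩ := locRing_spec c hP hb
      have ha0 : valueAt P a = 0 := by rw [← he, valueAt_mul P hf hbm, h0, mul_zero]
      obtain ⟨a', ha', hae⟩ := exists_eq_mul_dev c hP hϖ ha ha0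
      obtain ⟨b', hb', hbe⟩ := exists_eq_mul_dev c hP hϖ hb h0
      have hd0 : dev P ϖ ≠ 0 := fun e => hb0 (by rw [hbe, e, mul_zero])
      have hb'0 : b' ≠ 0 := fun e => hb0 (by rw [hbe, e, zero_mul])
      have hdev : 0 < P.ord (dev P ϖ) := ((valueAt_eq_zero_iff P
        (locRing_spec c hP (dev_mem_locRing c hP (mem_of_ord_eq_one hϖ))).1).mp
        (valueAt_dev c hP (mem_of_ord_eq_one hϖ))).resolve_left hd0
      refine ih a' ha' b' hb' hb'0 ?_ (mul_right_cancel₀ hd0 (by rw [mul_assoc, ← hbe, he, hae]))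
      rw [hbe, P.ord_mul hb'0 hd0] at hn
      push_cast at hn
      omega
    · exact ⟨a, ha, b, hb, h0, he⟩

theorem ord_dev (hP : redPlace c P = Q) (hϖ : Q.ord ϖ = 1) :
    dev P ϖ ≠ 0 ∧ P.ord (dev P ϖ) = 1 := by
  obtain ⟨u, hu0, hu⟩ := Curve.exists_ord_eq P 1
  obtain ⟨a, ha, b, hb, hb0, he⟩ :=
    exists_frac_locRing c hP hϖ ((mem_iff_ord_nonneg' P).mpr (by rw [hu]; exact zero_le_one))
  obtain ⟨hbm, -, -⟩ := locRing_spec c hP hb
  have hb0' : b ≠ 0 := ne_zero_of_valueAt_ne_zero hb0
  have hao : P.ord a = 1 := by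
    rw [← he, P.ord_mul hu0 hb0', hu, ord_eq_zero_of_valueAt_ne_zero hbm hb0, add_zero]
  obtain ⟨a', ha', hae⟩ := exists_eq_mul_dev c hP hϖ ha
    ((valueAt_eq_zero_iff P (locRing_spec c hP ha).1).mpr (Or.inr (by rw [hao]; exact zero_lt_one)))
  have hd0 : dev P ϖ ≠ 0 := fun e => by rw [hae, e, mul_zero] at hao; simp at hao
  have ha'0 : a' ≠ 0 := fun e => by rw [hae, e, zero_mul] at hao; simp at hao
  have hdev : 0 < P.ord (dev P ϖ) := ((valueAt_eq_zero_iff P
    (locRing_spec c hP (dev_mem_locRing c hP (mem_of_ord_eq_one hϖ))).1).mp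
    (valueAt_dev c hP (mem_of_ord_eq_one hϖ))).resolve_left hd0
  refine ⟨hd0, ?_⟩
  rw [hae, P.ord_mul ha'0 hd0] at hao
  have := ord_nonneg_of_mem' P (locRing_spec c hP ha').1
  omega

theorem eq_of_valueAt_dev (hP : redPlace c P = Q) (hP' : redPlace c P' = Q) (hϖ : Q.ord ϖ = 1)
    (h0 : valueAt P' (dev P ϖ) = 0) : P' = P := by
  refine (place_eq_of_le fun f hf => ?_).symm
  obtain ⟨a, ha, b, hb, hb0, he⟩ := exists_frac_locRing c hP hϖ hf
  have hb' : valueAt P' b ≠ 0 := by rwa [valueAt_eq_of_dev c hP hP' hϖ h0 hb]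
  obtain ⟨hbm, -, -⟩ := locRing_spec c hP' hb
  rw [show f = a * b⁻¹ by
    rw [← he, mul_inv_cancel_right₀ (ne_zero_of_valueAt_ne_zero hb')]]
  exact mul_mem (locRing_spec c hP' ha).1 ((mem_iff_ord_nonneg' P').mpr (by
    rw [P'.ord_inv, ord_eq_zero_of_valueAt_ne_zero hbm hb', neg_zero]))

/-- The zeros over `Q` of a function of the local ring are at most those of its reduction. -/
theorem sum_ord_le_of_locRing {h : ExtField k L F} (hh : h ∈ locRing c Q) (h0 : redFun c h ≠ 0)
    (s : Finset (Place L (ExtField k L F))) (hs : ∀ P ∈ s, redPlace c P = Q) :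
    ∑ P ∈ s, P.ord h ≤ Q.ord (redFun c h) := by
  classical
  obtain ⟨ϖ, -, hϖ⟩ := Curve.exists_ord_eq Q 1
  induction hn : (Q.ord (redFun c h)).toNat using Nat.strong_induction_on generalizing h with
  | _ n ih =>
    have hQ0 : 0 ≤ Q.ord (redFun c h) := ord_nonneg_of_mem' Q (redFun_mem c Q hh)
    by_cases hz : ∀ P ∈ s, P.ord h ≤ 0
    · exact (Finset.sum_nonpos hz).trans hQ0
    push Not at hz
    obtain ⟨P, hPs, hPpos⟩ := hz
    obtain ⟨hm, hv, hres⟩ := locRing_spec c (hs P hPs) hh
    have hv0 : valueAt P h = 0 := (valueAt_eq_zero_iff P hm).mpr (Or.inr hPpos)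
    obtain ⟨b, hb, he⟩ := exists_eq_mul_dev c (hs P hPs) hϖ hh hv0
    obtain ⟨hd0, hd1⟩ := ord_dev c (hs P hPs) hϖ
    have hdm := dev_mem_locRing c (hs P hPs) (mem_of_ord_eq_one hϖ)
    have hred : redFun c h = redFun c b * ϖ := by
      rw [he, redFun_mul c (locRing_le_gauss c Q hb) (locRing_le_gauss c Q hdm),
        redFun_dev c (hs P hPs) (mem_of_ord_eq_one hϖ), valueAt_of_ord_eq_one hϖ, map_zero,
        sub_zero]
    have hb0 : redFun c b ≠ 0 := fun e => h0 (by rw [hred, e, zero_mul])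
    have hϖ0 : ϖ ≠ 0 := fun e => by simp [e] at hϖ
    have hordQ : Q.ord (redFun c h) = Q.ord (redFun c b) + 1 := by
      rw [hred, Q.ord_mul hb0 hϖ0, hϖ]
    have hbQ := ord_nonneg_of_mem' Q (redFun_mem c Q hb)
    have h1 := ih (Q.ord (redFun c b)).toNat (by omega) hb hb0 rfl
    have hb0' : b ≠ 0 := fun e => hb0 (by
      rw [e, ← map_zero (intIncl (F := F) c), redFun_intIncl, map_zero])
    have hdev : ∀ P' ∈ s, P'.ord (dev P ϖ) = if P' = P then 1 else 0 := by
      intro P' hP'
      split_ifs with hPP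
      · rw [hPP]; exact hd1
      · exact ord_eq_zero_of_valueAt_ne_zero (locRing_spec c (hs P' hP') hdm).1
          fun e => hPP (eq_of_valueAt_dev c (hs P hPs) (hs P' hP') hϖ e)
    rw [Finset.sum_congr rfl fun P' hP' => show P'.ord h = P'.ord b + if P' = P then 1 else 0 by
        rw [he, P'.ord_mul hb0' hd0, hdev P' hP'],
      Finset.sum_add_distrib, Finset.sum_ite_eq' s P (fun _ => (1 : ℤ)), if_pos hPs, hordQ]
    omega

theorem redPlace_constPlace (q : Place k F) : redPlace c (constPlace L q) = q := by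
  refine (place_eq_of_le fun f hf => (mem_redPlace_iff c).mpr ?_).symm
  refine ⟨(liesOver_constPlace L q f).mpr hf, ?_⟩
  rw [valueAt_constPlace L hf]
  exact c.algebraMap_mem _

/-- Over `Q` a function of `F` has only the constant zero. -/
theorem sum_ord_incF (s : Finset (Place L (ExtField k L F))) (hs : ∀ P ∈ s, redPlace c P = Q)
    (hQs : constPlace L Q ∈ s) (f : F) : ∑ P ∈ s, P.ord (incF k L F f) = Q.ord f := by
  rw [Finset.sum_eq_single_of_mem _ hQs fun P hP hne => ord_incF_of_ne L (fun q hq => hne ?_) f,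
    ord_constPlace_incF]
  have : q = Q := by rw [← hs P hP, hq, redPlace_constPlace]
  rw [hq, this]

/-- Reduction of divisors. -/
def redDiv : Divisor L (ExtField k L F) →+ Divisor k F := Finsupp.mapDomain.addMonoidHom (redPlace c)

theorem degree_redDiv (D : Divisor L (ExtField k L F)) :
    Divisor.degree (redDiv c D) = Divisor.degree D := by
  rw [degree_eq_sum, degree_eq_sum]
  exact Finsupp.sum_mapDomain_index (fun _ => rfl) fun _ _ _ => rfl

theorem eq_zero_of_nonneg_of_degree_eq_zero {K E : Type*} [Field K] [IsAlgClosed K] [Field E]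
    [Algebra K E] [IsFunctionField1 K E] {D : Divisor K E} (h0 : 0 ≤ D)
    (hd : Divisor.degree D = 0) : D = 0 := by
  rw [degree_eq_sum, Finsupp.sum,
    Finset.sum_eq_zero_iff_of_nonneg fun v _ => Finsupp.le_def.mp h0 v] at hd
  ext v
  by_cases hv : v ∈ D.support
  · exact hd v hv
  · exact Finsupp.notMem_support_iff.mp hv

theorem redDiv_divFn_intIncl {B : IntExt F c} (hB : intRed c B ≠ 0) :
    redDiv c (divFn (intIncl c B)) = divFn (intRed c B) := by
  classical
  symm
  refine sub_eq_zero.mp (eq_zero_of_nonneg_of_degree_eq_zero (Finsupp.le_def.mpr fun q => ?_)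
    (by rw [map_sub, degree_redDiv, degree_divFn, degree_divFn, sub_zero]))
  rw [Finsupp.coe_zero, Pi.zero_apply, Finsupp.sub_apply, sub_nonneg, divFn_apply]
  obtain ⟨b, hb0, hbm, hbB⟩ := exists_regularize c q B
  set s := insert (constPlace L q)
    ((divFn (intIncl c B)).support.filter fun P => redPlace c P = q)
  have hs : ∀ P ∈ s, redPlace c P = q := fun P hP => by
    rcases Finset.mem_insert.mp hP with rfl | h
    · exact redPlace_constPlace c q
    · exact (Finset.mem_filter.mp h).2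
  have hlhs : redDiv c (divFn (intIncl c B)) q = ∑ P ∈ s, P.ord (intIncl c B) := by
    show Finsupp.mapDomain (redPlace c) (divFn (intIncl c B)) q = _
    rw [Finsupp.mapDomain, Finsupp.sum_apply, Finsupp.sum]
    simp only [Finsupp.single_apply]
    rw [← Finset.sum_filter]
    refine (Finset.sum_subset (Finset.subset_insert _ _) fun P hP hPn => ?_).trans
      (Finset.sum_congr rfl fun P _ => divFn_apply _ P)
    refine Finsupp.notMem_support_iff.mp fun hsupp => hPn (Finset.mem_filter.mpr ⟨hsupp, hs P hP⟩)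
  have hle := sum_ord_le_of_locRing c (intIncl_mem_locRing c q hbB)
    (by rw [redFun_intIncl, map_mul, intRed_one_tmul]; exact mul_ne_zero hb0 hB) s hs
  rw [redFun_intIncl, map_mul, map_mul, intRed_one_tmul, intIncl_one_tmul, q.ord_mul hb0 hB,
    Finset.sum_congr rfl fun (P : Place L (ExtField k L F)) _ =>
      P.ord_mul (incF_ne_zero hb0) (intIncl_ne_zero c hB),
    Finset.sum_add_distrib, sum_ord_incF c s hs (Finset.mem_insert_self _ _)] at hle
  rw [hlhs]
  omega

/-- The divisor of a Gauss unit reduces to the divisor of its reduction. -/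
theorem redDiv_divFn {f : ExtField k L F} (hf : f ∈ gauss c) (h0 : redFun c f ≠ 0) :
    redDiv c (divFn f) = divFn (redFun c f) := by
  obtain ⟨A, S, hS, he⟩ := hf
  rw [redFun_eq c hS he] at h0 ⊢
  have hA : intRed c A ≠ 0 := fun e => h0 (by rw [e, zero_div])
  have hSi := intIncl_ne_zero c hS
  have hf0 : f ≠ 0 := fun e => intIncl_ne_zero c hA (by rw [← he, e, zero_mul])
  have h1 : divFn (K := L) (intIncl c A) = divFn f + divFn (intIncl c S) := by
    ext P
    rw [Finsupp.add_apply, divFn_apply, divFn_apply, divFn_apply, ← he, P.ord_mul hf0 hSi]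
  have h2 : divFn (K := k) (intRed c A) = divFn (intRed c A / intRed c S) + divFn (intRed c S) := by
    ext q
    rw [Finsupp.add_apply, divFn_apply, divFn_apply, divFn_apply, ord_div q hA hS]
    ring
  have h3 := congrArg (redDiv c) h1
  rw [map_add, redDiv_divFn_intIncl c hA, redDiv_divFn_intIncl c hS, h2] at h3
  exact (add_right_cancel h3).symm

/-- A zero of the reduction lifts. -/
theorem exists_zero {b : ExtField k L F} (hb : b ∈ locRing c Q) (hb0 : redFun c b ≠ 0)
    (hbQ : valueAt Q (redFun c b) = 0) :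
    ∃ P : Place L (ExtField k L F), redPlace c P = Q ∧ valueAt P b = 0 := by
  classical
  have hpos := ((valueAt_eq_zero_iff Q (redFun_mem c Q hb)).mp hbQ).resolve_left hb0
  by_contra hcon
  push Not at hcon
  have h := DFunLike.congr_fun (redDiv_divFn c (locRing_le_gauss c Q hb) hb0) Q
  change Finsupp.mapDomain (redPlace c) (divFn b) Q = _ at h
  rw [divFn_apply, Finsupp.mapDomain, Finsupp.sum_apply, Finsupp.sum, Finset.sum_eq_zero] at h
  · omega
  intro P _
  rw [Finsupp.single_apply]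
  split_ifs with hP
  · rw [divFn_apply]
    exact ord_eq_zero_of_valueAt_ne_zero (locRing_spec c hP hb).1 (hcon P hP)
  · rfl

/-- A function of the Gauss ring regular at all places over `Q` lies in the local ring. -/
theorem mem_locRing_of_regular {h : ExtField k L F} (hh : h ∈ gauss c)
    (hreg : ∀ P : Place L (ExtField k L F), redPlace c P = Q → h ∈ P.toValuationSubring) :
    h ∈ locRing c Q := by
  obtain ⟨ϖ, -, hϖ⟩ := Curve.exists_ord_eq Q 1
  suffices key : ∀ n : ℕ, ∀ a ∈ locRing c Q, ∀ b ∈ locRing c Q, redFun c b ≠ 0 →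
      Q.ord (redFun c b) = n → h * b = a → h ∈ locRing c Q by
    obtain ⟨A, S, hS, he⟩ := hh
    obtain ⟨A', S', hA', hS', hS0, he'⟩ := exists_regular_ratio_of_eq c Q hS he
    exact key (Q.ord (intRed c S')).toNat _ (intIncl_mem_locRing c Q hA') _
      (intIncl_mem_locRing c Q hS') (by rwa [redFun_intIncl]) (by
        rw [redFun_intIncl]
        exact (Int.toNat_of_nonneg (ord_nonneg_of_mem' Q (intRed_mem_of_regularAt c hS'))).symm) he'
  intro n
  induction n with
  | zero =>
    intro a ha b hb hb0 hn he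
    have hv : valueAt Q (redFun c b) ≠ 0 := fun e => by
      have := ((valueAt_eq_zero_iff Q (redFun_mem c Q hb)).mp e).resolve_left hb0
      omega
    have hbz : b ≠ 0 := fun e => hb0 (by
      rw [e, ← map_zero (intIncl (F := F) c), redFun_intIncl, map_zero])
    rw [show h = a * b⁻¹ by rw [← he, mul_inv_cancel_right₀ hbz]]
    exact mul_mem ha (inv_mem_locRing c Q hb hv)
  | succ n ih =>
    intro a ha b hb hb0 hn he
    obtain ⟨P, hP, hbP⟩ := exists_zero c hb hb0
      ((valueAt_eq_zero_iff Q (redFun_mem c Q hb)).mpr (Or.inr (by rw [hn]; push_cast; omega)))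
    have haP : valueAt P a = 0 := by
      rw [← he, valueAt_mul P (hreg P hP) (locRing_spec c hP hb).1, hbP, mul_zero]
    obtain ⟨a', ha', hae⟩ := exists_eq_mul_dev c hP hϖ ha haP
    obtain ⟨b', hb', hbe⟩ := exists_eq_mul_dev c hP hϖ hb hbP
    obtain ⟨hd0, -⟩ := ord_dev c hP hϖ
    have hred : redFun c b = redFun c b' * ϖ := by
      rw [hbe, redFun_mul c (locRing_le_gauss c Q hb')
        (locRing_le_gauss c Q (dev_mem_locRing c hP (mem_of_ord_eq_one hϖ))),
        redFun_dev c hP (mem_of_ord_eq_one hϖ), valueAt_of_ord_eq_one hϖ, map_zero, sub_zero]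
    have hb'0 : redFun c b' ≠ 0 := fun e => hb0 (by rw [hred, e, zero_mul])
    rw [hred, Q.ord_mul hb'0 (fun e => by simp [e] at hϖ), hϖ] at hn
    exact ih a' ha' b' hb' hb'0 (by push_cast at hn; omega)
      (mul_right_cancel₀ hd0 (by rw [mul_assoc, ← hbe, he, hae]))

end FermatAgent.AbVar.Engine
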