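import Fermat.Agent.AbVar.Engine.Specialise

/-!
# Descent from an algebraic closure

An equation of the cocycle over an algebraic closure of `F` gives, by the norm, one for a multiple
over `F`, so the degree vanishes.
-/

set_option autoImplicit false
set_option linter.style.haveILetI false

noncomputable section

universe u

open AlgebraicCurve TensorProduct Polynomial IntermediateField FermatAgent.AbVar.AV

namespace FermatAgent.AbVar.Engine

open FermatAgent.Curve FermatAgent.Curve.RR

variable {K : Type u} [Field K] {G : AV K}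
  {k F : Type u} [Field k] [IsAlgClosed k] [Field F] [Algebra k F] [IsFunctionField1 k F]
  [Algebra K k] [Algebra K F] [IsScalarTower K k F]
  (T : TriCocycle G) (x y z : G.Pt F)

/-- The cocycle at a place. -/
def tauAt (v : Place k F) : Fˣ := T.val (isVal_placeAlg (K := K) v) x y z

/-- An equation over an algebraic closure descends by the norm. -/
theorem exists_descent {Ω : Type u} [Field Ω] [IsAlgClosed Ω] [Algebra F Ω] [Algebra k Ω]
    [Algebra K Ω] [IsScalarTower K k Ω] [IsScalarTower k F Ω] [Algebra.IsAlgebraic F Ω] (ω : Ω)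
    (hω0 : ω ≠ 0)
    (hω : ∀ (V : Subalgebra k Ω) (hV : IsVal (V.restrictScalars K)),
      ω * (T.val hV (map ((IsScalarTower.toAlgHom k F Ω).restrictScalars K) x)
          (map ((IsScalarTower.toAlgHom k F Ω).restrictScalars K) y)
          (map ((IsScalarTower.toAlgHom k F Ω).restrictScalars K) z) : Ωˣ) ∈ V ∧
        (ω * (T.val hV (map ((IsScalarTower.toAlgHom k F Ω).restrictScalars K) x)
          (map ((IsScalarTower.toAlgHom k F Ω).restrictScalars K) y)
          (map ((IsScalarTower.toAlgHom k F Ω).restrictScalars K) z) : Ωˣ))⁻¹ ∈ V) :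
    ∃ (n : ℕ) (N : F), 0 < n ∧ N ≠ 0 ∧
      ∀ v : Place k F, n * v.ord (tauAt T x y z v : F) + v.ord N = 0 := by
  haveI : FiniteDimensional F F⟮ω⟯ :=
    adjoin.finiteDimensional (Algebra.IsAlgebraic.isAlgebraic (R := F) ω).isIntegral
  let g : F⟮ω⟯ := AdjoinSimple.gen F ω
  have hg0 : g ≠ 0 := fun e => hω0 (congrArg Subtype.val e)
  refine ⟨Module.finrank F F⟮ω⟯, Algebra.norm F g, Module.finrank_pos,
    Algebra.norm_ne_zero_iff.mpr hg0, fun v => ?_⟩
  set ι : F →ₐ[K] Ω := (IsScalarTower.toAlgHom k F Ω).restrictScalars K with hι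
  set τ : F := ((tauAt T x y z v : Fˣ) : F) with hτ
  have hτ0 : τ ≠ 0 := Units.ne_zero _
  have key : ∀ V : ValuationSubring Ω,
      (∀ a ∈ v.toValuationSubring, algebraMap F Ω a ∈ V) →
      algebraMap F Ω τ * ω ∈ V ∧ (algebraMap F Ω τ * ω)⁻¹ ∈ V := by
    intro V hv
    have hk : ∀ a : k, algebraMap k Ω a ∈ V := fun a => by
      rw [IsScalarTower.algebraMap_apply k F Ω]; exact hv _ (v.algebraMap_mem' a)
    let B : ValuationSubring F := V.comap (algebraMap F Ω)
    by_cases hB : B = ⊤
    · have hall : ∀ a : F, algebraMap F Ω a ∈ V := fun a => by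
        have : a ∈ B := hB ▸ ValuationSubring.mem_top a
        exact this
      have h : ∀ e : Ω, e ∈ V := fun e =>
        mem_valuationSubring_of_isIntegral V hall
          (Algebra.IsAlgebraic.isAlgebraic (R := F) e).isIntegral
      exact ⟨h _, h _⟩
    have hBv : placeOfValuationSubring B (fun a => by
        show algebraMap F Ω (algebraMap k F a) ∈ V
        exact hv _ (v.algebraMap_mem' a)) hB = v :=
      (place_eq_of_le fun a ha => hv a ha).symm
    have hmemv : ∀ a : F, algebraMap F Ω a ∈ V ↔ a ∈ v.toValuationSubring := fun a => by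
      rw [← hBv]; rfl
    let V' : Subalgebra k Ω := { V.toSubring.toSubsemiring with algebraMap_mem' := hk }
    have hV' : IsVal (V'.restrictScalars K) := V.mem_or_inv_mem
    haveI := hV'.isLocalRing
    haveI := (isVal_placeAlg (K := K) v).isLocalRing
    let h : placeAlg (K := K) v →ₐ[K] V'.restrictScalars K :=
      (ι.comp (placeAlg (K := K) v).val).codRestrict _ fun a => hv _ a.2
    have hh : IsLocalHom h.toRingHom := ⟨fun a ha => by
      obtain ⟨b, hb⟩ := isUnit_iff_exists_inv.mp ha
      have hb' : algebraMap F Ω (a : F) * (b : Ω) = 1 := congrArg Subtype.val hb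
      have ha0 : (a : F) ≠ 0 := fun e => by rw [e, map_zero, zero_mul] at hb'; exact zero_ne_one hb'
      have hi : (a : F)⁻¹ ∈ placeAlg (K := K) v := by
        refine (hmemv _).mp ?_
        rw [map_inv₀, inv_eq_of_mul_eq_one_right hb']
        exact b.2
      exact IsUnit.of_mul_eq_one (⟨_, hi⟩ : placeAlg (K := K) v)
        (Subtype.ext (mul_inv_cancel₀ ha0))⟩
    have hιl : IsLocalHom ι.toRingHom := ⟨fun a ha =>
      isUnit_iff_ne_zero.mpr fun e => ha.ne_zero (by rw [e, map_zero])⟩
    have e1 : ∀ P : G.Pt F,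
        map (ι.comp (placeAlg (K := K) v).val) (lift (isVal_placeAlg v) P) = map ι P := fun P => by
      rw [← AV.map_map, map_lift]
    have h1 := T.t_eq_mul_val hV' (ι.comp (placeAlg (K := K) v).val) h (fun _ => rfl)
      (e1 x) (e1 y) (e1 z)
    rw [T.t_of_isLocalHom h hh, Units.val_one, OneMemClass.coe_one, one_mul, T.t_comp,
      T.t_of_isLocalHom ι hιl, mul_one] at h1
    have h2 : ((T.val hV' (map ι x) (map ι y) (map ι z) : Ωˣ) : Ω) = algebraMap F Ω τ := h1.symm
    obtain ⟨a1, a2⟩ := hω V' hV'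
    rw [h2, mul_comm] at a1 a2
    exact ⟨a1, a2⟩
  letI : Algebra v.toValuationSubring Ω :=
    ((algebraMap F Ω).comp v.toValuationSubring.subtype).toAlgebra
  haveI : IsScalarTower v.toValuationSubring F Ω := IsScalarTower.of_algebraMap_eq fun _ => rfl
  have hint : ∀ e : Ω, (∀ V : ValuationSubring Ω,
      (∀ a ∈ v.toValuationSubring, algebraMap F Ω a ∈ V) → e ∈ V) →
      IsIntegral v.toValuationSubring e := by
    intro e he
    let R : Subring Ω := (algebraMap v.toValuationSubring Ω).range
    have h1 : e ∈ (⨅ V : {V : ValuationSubring Ω // (R : Set Ω) ⊆ V.toSubring},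
        V.1.toSubring) :=
      Subring.mem_iInf.mpr fun V => he V.1 fun a ha => V.2 ⟨⟨a, ha⟩, rfl⟩
    rw [iInf_valuationSubring_superset] at h1
    obtain ⟨P, hP, hPe⟩ := h1
    have hl : P.map (Subring.closure (R : Set Ω)).subtype ∈
        Polynomial.lifts (algebraMap v.toValuationSubring Ω) := by
      rw [Polynomial.lifts_iff_coeff_lifts]
      intro n
      have h2 : ((P.coeff n : Subring.closure (R : Set Ω)) : Ω) ∈ R :=
        Subring.closure_le.mpr le_rfl (P.coeff n).2
      rw [coeff_map]
      exact h2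
    obtain ⟨q, hq, -, hqm⟩ := Polynomial.lifts_and_degree_eq_and_monic hl (hP.map _)
    exact ⟨q, hqm, by rw [← eval_map, hq, eval_map]; exact hPe⟩
  letI : Algebra v.toValuationSubring F⟮ω⟯ :=
    ((algebraMap F F⟮ω⟯).comp v.toValuationSubring.subtype).toAlgebra
  haveI : IsScalarTower v.toValuationSubring F F⟮ω⟯ := IsScalarTower.of_algebraMap_eq fun _ => rfl
  haveI : IsScalarTower v.toValuationSubring F⟮ω⟯ Ω := IsScalarTower.of_algebraMap_eq fun _ => rfl
  set e : F⟮ω⟯ := algebraMap F F⟮ω⟯ τ * g with he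
  have hnorm : Algebra.norm F e = τ ^ Module.finrank F F⟮ω⟯ * Algebra.norm F g := by
    rw [he, map_mul, Algebra.norm_algebraMap]
  have hmem : ∀ b : F⟮ω⟯, IsIntegral v.toValuationSubring (b : Ω) →
      Algebra.norm F b ∈ v.toValuationSubring := fun b hb => by
    have hb' : IsIntegral v.toValuationSubring b :=
      (isIntegral_algHom_iff (IsScalarTower.toAlgHom v.toValuationSubring F⟮ω⟯ Ω)
        Subtype.val_injective).mp hb
    obtain ⟨r, hr⟩ := IsIntegrallyClosed.isIntegral_iff.mp
      (Algebra.isIntegral_norm (R := v.toValuationSubring) F hb')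
    exact hr ▸ r.2
  have h1 := hmem e (hint _ fun V hV => (key V hV).1)
  have h2 := hmem e⁻¹ (hint _ fun V hV => (key V hV).2)
  have he0 : e ≠ 0 := mul_ne_zero ((_root_.map_ne_zero _).mpr hτ0) hg0
  rw [← inv_eq_of_mul_eq_one_right (show Algebra.norm F e * Algebra.norm F e⁻¹ = 1 by
    rw [← map_mul, mul_inv_cancel₀ he0, map_one])] at h2
  have hN : Algebra.norm F g ≠ 0 := Algebra.norm_ne_zero_iff.mpr hg0
  have o1 := ord_nonneg_of_mem' v h1
  have o2 := ord_nonneg_of_mem' v h2
  rw [v.ord_inv] at o2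
  rw [hnorm, v.ord_mul (pow_ne_zero _ hτ0) hN, ord_pow'] at o1 o2
  omega

end FermatAgent.AbVar.Engine
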