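import Fermat.Agent.AbVar.Engine.Basis

/-!
# The function field after extending the constants

`ExtField k L F` is the fraction field of the domain `L ⊗ F`; it is a function field of one
variable over `L`.
-/

set_option autoImplicit false
set_option linter.unusedSectionVars false

noncomputable section

open AlgebraicCurve TensorProduct IntermediateField

namespace FermatAgent.AbVar.Engine

open FermatAgent.Curve FermatAgent.Curve.RR

variable (k L F : Type*) [Field k] [IsAlgClosed k] [Field L] [Algebra k L]
  [Field F] [Algebra k F] [IsFunctionField1 k F]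

instance instIsDomainTensor : IsDomain (L ⊗[k] F) := isDomain_tensor k F L

/-- The function field with constants extended to `L`. -/
abbrev ExtField : Type _ := FractionRing (L ⊗[k] F)

/-- `L ⊗ F → ExtField`. -/
def toExt : L ⊗[k] F →ₐ[L] ExtField k L F := IsScalarTower.toAlgHom L (L ⊗[k] F) _

/-- The functions of `F` inside the extension. -/
def incF : F →ₐ[k] ExtField k L F :=
  ((toExt k L F).restrictScalars k).comp Algebra.TensorProduct.includeRight

variable {k L F}

theorem toExt_injective : Function.Injective (toExt k L F) :=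
  IsFractionRing.injective (L ⊗[k] F) (ExtField k L F)

@[simp]
theorem toExt_tmul (c : L) (f : F) :
    toExt k L F (c ⊗ₜ f) = algebraMap L (ExtField k L F) c * incF k L F f := by
  have : c ⊗ₜ[k] f = algebraMap L (L ⊗[k] F) c * (1 ⊗ₜ f) := by
    rw [Algebra.TensorProduct.algebraMap_apply, Algebra.TensorProduct.tmul_mul_tmul,
      Algebra.algebraMap_self, RingHom.id_apply, mul_one, one_mul]
  rw [this, map_mul, AlgHom.commutes]
  rfl

theorem incF_algebraMap (c : k) :
    incF k L F (algebraMap k F c) = algebraMap L (ExtField k L F) (algebraMap k L c) := by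
  rw [AlgHom.commutes, ← IsScalarTower.algebraMap_apply]

theorem transcendental_incF {f : F} (hf : Transcendental k f) :
    Transcendental L (incF k L F f) := by
  rw [transcendental_iff_injective, injective_iff_map_eq_zero]
  intro p hp
  have hli : LinearIndependent L (fun i : ℕ => (1 : L) ⊗ₜ[k] (f ^ i)) :=
    Module.Flat.linearIndependent_one_tmul (by
      have h := (Polynomial.basisMonomials k).linearIndependent.map'
        (Polynomial.aeval f).toLinearMap
        (LinearMap.ker_eq_bot.mpr (transcendental_iff_injective.mp hf))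
      simpa [Function.comp_def] using h)
  rw [show incF k L F f = toExt k L F (1 ⊗ₜ f) from rfl, Polynomial.aeval_algHom_apply,
    map_eq_zero_iff _ toExt_injective, Polynomial.aeval_eq_sum_range] at hp
  refine Polynomial.ext fun i => ?_
  rw [Polynomial.coeff_zero]
  by_cases hi : i ∈ Finset.range (p.natDegree + 1)
  · exact linearIndependent_iff'.mp hli _ p.coeff (by simpa using hp) i hi
  · exact Polynomial.coeff_eq_zero_of_natDegree_lt (by simp at hi; omega)

/-- Every element is a quotient of two elements of `L ⊗ F`. -/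
theorem exists_div (f : ExtField k L F) :
    ∃ a b : L ⊗[k] F, b ≠ 0 ∧ f = toExt k L F a / toExt k L F b := by
  obtain ⟨a, b, hb, h⟩ := IsFractionRing.div_surjective (A := L ⊗[k] F) f
  exact ⟨a, b, nonZeroDivisors.ne_zero hb, h.symm⟩

/-- The image of `F` generates over `L`. -/
theorem adjoin_range_incF : adjoin L (Set.range (incF k L F)) = ⊤ := by
  refine eq_top_iff.mpr fun f _ => ?_
  have key : ∀ a : L ⊗[k] F, toExt k L F a ∈ adjoin L (Set.range (incF k L F)) := fun a => by
    induction a using TensorProduct.induction_on with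
    | zero => rw [map_zero]; exact zero_mem _
    | tmul c f =>
      rw [toExt_tmul]
      exact mul_mem (IntermediateField.algebraMap_mem _ c) (subset_adjoin L _ ⟨f, rfl⟩)
    | add x y hx hy => rw [map_add]; exact add_mem hx hy
  obtain ⟨a, b, -, rfl⟩ := exists_div f
  exact div_mem (key a) (key b)

instance instIsFunctionField1Ext : IsFunctionField1 L (ExtField k L F) := by
  classical
  obtain ⟨t, ht, hfin⟩ := IsFunctionField1.exists_finite (K := k) (F := F)
  have := hfin
  let e := Module.finBasis k⟮t⟯ F
  let x := incF k L F t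
  refine IsFunctionField1.of_adjoin (transcendental_incF ht) (Set.range fun i => incF k L F (e i))
    (Set.finite_range _) ?_ ?_
  · rintro y ⟨i, rfl⟩
    let φ : k⟮t⟯ →+* L⟮x⟯ :=
      ((incF k L F).toRingHom.comp (algebraMap k⟮t⟯ F)).codRestrict L⟮x⟯.toSubfield fun c => by
        show incF k L F (c : F) ∈ L⟮x⟯
        obtain ⟨r, s, hrs⟩ := (mem_adjoin_simple_iff k (α := t) (c : F)).mp c.2
        rw [hrs, map_div₀, ← Polynomial.aeval_algHom_apply, ← Polynomial.aeval_algHom_apply]
        exact (mem_adjoin_simple_iff L _).mpr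
          ⟨r.map (algebraMap k L), s.map (algebraMap k L),
            by rw [Polynomial.aeval_map_algebraMap, Polynomial.aeval_map_algebraMap]⟩
    obtain ⟨p, hp, hp0⟩ := IsIntegral.of_finite k⟮t⟯ (e i)
    refine IsIntegral.isAlgebraic ⟨p.map φ, hp.map φ, ?_⟩
    rw [Polynomial.eval₂_map,
      show (algebraMap L⟮x⟯ (ExtField k L F)).comp φ =
        (incF k L F).toRingHom.comp (algebraMap k⟮t⟯ F) from rfl]
    exact (Polynomial.hom_eval₂ p _ (incF k L F).toRingHom (e i)).symm.trans
      (by rw [hp0, map_zero])
  · refine eq_top_iff.mpr ((adjoin_range_incF (k := k) (L := L) (F := F)).ge.trans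
      (adjoin_le_iff.mpr ?_))
    rintro _ ⟨f, rfl⟩
    set E := adjoin L (insert x (Set.range fun i => incF k L F (e i)))
    have hEx : x ∈ E := subset_adjoin L _ (Set.mem_insert _ _)
    rw [← e.sum_repr f, map_sum]
    refine sum_mem fun i _ => ?_
    rw [Algebra.smul_def, map_mul]
    refine mul_mem ?_ (subset_adjoin L _ (Set.mem_insert_of_mem _ ⟨i, rfl⟩))
    obtain ⟨r, s, hrs⟩ := (mem_adjoin_simple_iff k (α := t) ((e.repr f i : k⟮t⟯) : F)).mp (e.repr f i).2
    rw [show (algebraMap k⟮t⟯ F (e.repr f i)) = ((e.repr f i : k⟮t⟯) : F) from rfl, hrs, map_div₀,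
      ← Polynomial.aeval_algHom_apply, ← Polynomial.aeval_algHom_apply,
      ← Polynomial.aeval_map_algebraMap L x r, ← Polynomial.aeval_map_algebraMap L x s]
    exact (adjoin_simple_le_iff.mpr hEx) ((mem_adjoin_simple_iff L _).mpr ⟨_, _, rfl⟩)

end FermatAgent.AbVar.Engine
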