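import Mathlib
import Fermat.Agent.AbVar.Basic

/-!
# Extending homomorphisms to valuation subalgebras

A homomorphism from a subalgebra of a field to an algebraically closed field extends to a local
homomorphism on a valuation subalgebra.
-/

set_option autoImplicit false
set_option linter.style.haveILetI false

noncomputable section

universe u

open Polynomial FermatAgent.AbVar.AV

namespace FermatAgent.AbVar.Engine

variable {k M Ω : Type u} [Field k] [Field M] [Algebra k M] [Field Ω] [Algebra k Ω]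
  [IsAlgClosed Ω]

/-- The graph of a homomorphism on a subalgebra. -/
def Functional (Γ : Subalgebra k (M × Ω)) : Prop := ∀ p ∈ Γ, p.1 = 0 → p.2 = 0

/-- Local homomorphisms on valuation subalgebras extending a given one. -/
theorem exists_extension (R : Subalgebra k M) (ψ : R →ₐ[k] Ω) :
    ∃ (V : Subalgebra k M) (hle : R ≤ V) (φ : V →ₐ[k] Ω), IsVal V ∧
      IsLocalHom φ.toRingHom ∧ ∀ r : R, φ ⟨(r : M), hle r.2⟩ = ψ r := by
  classical
  set Γ₀ : Subalgebra k (M × Ω) := (R.val.prod ψ).range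
  have h₀ : Functional Γ₀ := by
    rintro p ⟨r, rfl⟩ h
    show ψ r = 0
    rw [show r = 0 from Subtype.ext h, map_zero]
  obtain ⟨Γ, hΓ₀, hmax⟩ := zorn_le_nonempty₀ {Γ : Subalgebra k (M × Ω) | Functional Γ}
    (fun C hC hchain Γ' hΓ' => ⟨sSup C, by
      haveI : Nonempty C := ⟨⟨Γ', hΓ'⟩⟩
      intro p hp
      rw [sSup_eq_iSup'] at hp
      obtain ⟨⟨Γ'', hΓ''⟩, hp⟩ :=
        Set.mem_iUnion.mp ((Subalgebra.coe_iSup_of_directed hchain.directed).subset hp)
      exact hC hΓ'' p hp, fun _ hz => le_sSup hz⟩) Γ₀ h₀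
  have hF : Functional Γ := hmax.1
  set A : Subalgebra k M := Γ.map (AlgHom.fst k M Ω)
  have hmemA : ∀ a : A, ∃ b, ((a : M), b) ∈ Γ := fun a => by
    obtain ⟨p, hp, hpa⟩ := a.2
    exact ⟨p.2, by rw [← hpa]; exact hp⟩
  have huniq : ∀ (a : M) (b b' : Ω), (a, b) ∈ Γ → (a, b') ∈ Γ → b = b' := fun a b b' h h' =>
    sub_eq_zero.mp (hF ((a, b) - (a, b')) (sub_mem h h') (sub_self a))
  choose g hg using hmemA
  let φ : A →ₐ[k] Ω :=
    { toFun := g
      map_one' := huniq _ _ _ (hg 1) (by exact one_mem Γ)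
      map_mul' := fun a b => huniq _ _ _ (hg (a * b)) (by exact mul_mem (hg a) (hg b))
      map_zero' := huniq _ _ _ (hg 0) (by exact zero_mem Γ)
      map_add' := fun a b => huniq _ _ _ (hg (a + b)) (by exact add_mem (hg a) (hg b))
      commutes' := fun c => huniq _ _ _ (hg (algebraMap k A c)) (by exact Γ.algebraMap_mem c) }
  have hin : ∀ Γ' : Subalgebra k (M × Ω), Functional Γ' → Γ ≤ Γ' → Γ' ≤ Γ := fun Γ' h' hle =>
    hmax.2 h' hle
  have hinv : ∀ a : A, φ a ≠ 0 → (a : M)⁻¹ ∈ A := by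
    intro a ha
    have ha0 : (a : M) ≠ 0 := fun e => ha (by rw [show a = 0 from Subtype.ext e, map_zero])
    refine ⟨((a : M)⁻¹, (g a)⁻¹), hin (Algebra.adjoin k (insert ((a : M)⁻¹, (g a)⁻¹) (Γ : Set (M × Ω))))
      ?_ (fun x hx => Algebra.subset_adjoin (Set.mem_insert_of_mem _ hx))
      (Algebra.subset_adjoin (Set.mem_insert _ _)), rfl⟩
    intro p hp h1
    suffices hp' : ∃ n : ℕ, p * ((a : M), g a) ^ n ∈ Γ by
      obtain ⟨n, hn⟩ := hp'
      have h2 := hF _ hn (by rw [Prod.fst_mul, h1, zero_mul])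
      rw [Prod.snd_mul, Prod.pow_snd, mul_eq_zero] at h2
      exact h2.resolve_right (pow_ne_zero _ ha)
    clear h1
    induction hp using Algebra.adjoin_induction with
    | mem x hx =>
      rcases hx with rfl | hx
      · refine ⟨1, ?_⟩
        rw [pow_one, Prod.mk_mul_mk, inv_mul_cancel₀ ha0, inv_mul_cancel₀ (show g a ≠ 0 from ha)]
        exact one_mem Γ
      · exact ⟨0, by rw [pow_zero, mul_one]; exact hx⟩
    | algebraMap c => exact ⟨0, by rw [pow_zero, mul_one]; exact Γ.algebraMap_mem c⟩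
    | add x y _ _ hx hy =>
      obtain ⟨n, hn⟩ := hx
      obtain ⟨m, hm⟩ := hy
      refine ⟨n + m, ?_⟩
      have e : (x + y) * ((a : M), g a) ^ (n + m) =
          x * ((a : M), g a) ^ n * ((a : M), g a) ^ m + y * ((a : M), g a) ^ m * ((a : M), g a) ^ n := by
        rw [pow_add]; ring
      rw [e]
      exact add_mem (mul_mem hn (pow_mem (hg a) m)) (mul_mem hm (pow_mem (hg a) n))
    | mul x y _ _ hx hy =>
      obtain ⟨n, hn⟩ := hx
      obtain ⟨m, hm⟩ := hy
      refine ⟨n + m, ?_⟩
      have e : x * y * ((a : M), g a) ^ (n + m) =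
          x * ((a : M), g a) ^ n * (y * ((a : M), g a) ^ m) := by
        rw [pow_add]; ring
      rw [e]
      exact mul_mem hn hm
  haveI : IsLocalRing A := by
    refine IsLocalRing.of_isUnit_or_isUnit_one_sub_self fun a => ?_
    have key : ∀ b : A, φ b ≠ 0 → IsUnit b := fun b hb => IsUnit.of_mul_eq_one ⟨_, hinv b hb⟩
      (Subtype.ext (mul_inv_cancel₀ fun e => hb (by rw [show b = 0 from Subtype.ext e, map_zero])))
    by_cases h : φ a = 0
    · exact Or.inr (key _ (by rw [map_sub, map_one, h, sub_zero]; exact one_ne_zero))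
    · exact Or.inl (key _ h)
  obtain ⟨B, hB⟩ := ({ toSubring := A.toSubring, isLocalRing := this } :
    LocalSubring M).exists_le_valuationSubring
  have hAB : ∀ a : A, (a : M) ∈ B := fun a => hB.1 a.2
  have hloc : ∀ a : A, (a : M) ∈ B.nonunits → φ a = 0 := by
    intro a ha
    by_contra h
    rw [ValuationSubring.mem_nonunits_iff] at ha
    have h1 : B.valuation (a : M)⁻¹ ≤ 1 :=
      (B.valuation_le_one_iff _).mpr (hAB ⟨_, hinv a h⟩)
    rw [map_inv₀] at h1
    have h0 : B.valuation (a : M) ≠ 0 := (Valuation.ne_zero_iff _).mpr fun e => h (by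
      rw [show a = 0 from Subtype.ext e, map_zero])
    exact (not_lt.mpr ((inv_le_one₀ (zero_lt_iff.mpr h0)).mp h1)) ha
  have hBA : ∀ y : M, y ∈ B → y ∈ A := by
    intro y hy
    let ι : A →+* B := { toFun := fun a => ⟨(a : M), hAB a⟩
                         map_one' := rfl
                         map_mul' := fun _ _ => rfl
                         map_zero' := rfl
                         map_add' := fun _ _ => rfl }
    let π : B →+* IsLocalRing.ResidueField B := IsLocalRing.residue B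
    have hker : ∀ a : A, φ a = 0 → π (ι a) = 0 := fun a ha => by
      refine (IsLocalRing.residue_eq_zero_iff _).mpr fun hu => ?_
      have hua : IsUnit (⟨(a : M), a.2⟩ : A.toSubring) := (hB.2).1 _ hu
      exact (show IsUnit a from hua).map φ |>.ne_zero ha
    let E : Subfield Ω :=
      { φ.range.toSubring with
        inv_mem' := by
          rintro _ ⟨a, rfl⟩
          by_cases h : φ a = 0
          · refine ⟨0, ?_⟩
            show φ 0 = (φ a)⁻¹
            rw [map_zero, h, inv_zero]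
          refine ⟨⟨_, hinv a h⟩, eq_inv_of_mul_eq_one_right ?_⟩
          show φ a * φ ⟨(a : M)⁻¹, _⟩ = 1
          rw [← map_mul, ← map_one φ]
          exact congrArg φ (Subtype.ext (mul_inv_cancel₀ fun e => h (by
            rw [show a = 0 from Subtype.ext e, map_zero]))) }
    let eφ : A →+* E := φ.toRingHom.codRestrict E fun a => ⟨a, rfl⟩
    have heφ : Function.Surjective eφ := fun e => by
      obtain ⟨a, ha⟩ := e.2
      exact ⟨a, Subtype.ext ha⟩
    let j : E →+* IsLocalRing.ResidueField B := RingHom.liftOfSurjective eφ heφ ⟨π.comp ι,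
      fun a ha => hker a (congrArg Subtype.val (RingHom.mem_ker.mp ha))⟩
    have hj : ∀ a : A, j (eφ a) = π (ι a) := fun a =>
      RingHom.liftOfRightInverse_comp_apply _ _ _ _ a
    letI : Algebra E (IsLocalRing.ResidueField B) := j.toAlgebra
    obtain ⟨r, hr⟩ : ∃ r : Ω, ∀ P : E[X], Polynomial.aeval (π ⟨y, hy⟩) P = 0 →
        Polynomial.aeval r P = 0 := by
      by_cases hm : minpoly E (π ⟨y, hy⟩) = 0
      · refine ⟨0, fun P hP => ?_⟩
        by_cases hP0 : P = 0
        · rw [hP0, map_zero]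
        · exact absurd hm (minpoly.ne_zero
            (isAlgebraic_iff_isIntegral.mp (⟨P, hP0, hP⟩ : IsAlgebraic E (π ⟨y, hy⟩))))
      · have hint : IsIntegral E (π ⟨y, hy⟩) := by
          by_contra h; exact hm (minpoly.eq_zero h)
        obtain ⟨r, hr⟩ := IsAlgClosed.exists_aeval_eq_zero Ω (minpoly E (π ⟨y, hy⟩))
          (ne_of_gt (minpoly.degree_pos hint))
        refine ⟨r, fun P hP => ?_⟩
        obtain ⟨q, rfl⟩ := minpoly.dvd E _ hP
        rw [map_mul, hr, zero_mul]
    have key : Algebra.adjoin k (insert (y, r) (Γ : Set (M × Ω))) ≤ Γ := by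
      refine hin _ (fun p hp h1 => ?_) fun x hx => Algebra.subset_adjoin (Set.mem_insert_of_mem _ hx)
      suffices h : ∃ P : A[X], p.1 = P.eval₂ A.val.toRingHom y ∧ p.2 = P.eval₂ φ.toRingHom r by
        obtain ⟨P, hP1, hP2⟩ := h
        have h3 : Polynomial.aeval (π ⟨y, hy⟩) (P.map eφ) = 0 := by
          rw [aeval_def, eval₂_map, show (algebraMap E (IsLocalRing.ResidueField B)).comp eφ =
            π.comp ι from RingHom.ext hj, ← hom_eval₂, show P.eval₂ ι ⟨y, hy⟩ = 0 from
              Subtype.ext ?_, map_zero]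
          show B.subtype (P.eval₂ ι ⟨y, hy⟩) = 0
          rw [hom_eval₂, show B.subtype.comp ι = A.val.toRingHom from rfl]
          exact hP1.symm.trans h1
        have h4 := hr _ h3
        rw [aeval_def, eval₂_map] at h4
        rw [hP2]
        exact h4
      clear h1
      induction hp using Algebra.adjoin_induction with
      | mem x hx =>
        rcases hx with rfl | hx
        · exact ⟨X, by rw [eval₂_X], by rw [eval₂_X]⟩
        · obtain ⟨a, b⟩ := x
          have ha : a ∈ A := ⟨(a, b), hx, rfl⟩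
          exact ⟨C ⟨a, ha⟩, by rw [eval₂_C]; rfl, by
            rw [eval₂_C]; exact huniq _ _ _ hx (hg ⟨a, ha⟩)⟩
      | algebraMap c => exact ⟨C (algebraMap k A c), by rw [eval₂_C]; rfl, by
          rw [eval₂_C]; exact (φ.commutes c).symm⟩
      | add x z _ _ hx hz =>
        obtain ⟨P, hP1, hP2⟩ := hx
        obtain ⟨R, hR1, hR2⟩ := hz
        exact ⟨P + R, by rw [eval₂_add, Prod.fst_add, hP1, hR1],
          by rw [eval₂_add, Prod.snd_add, hP2, hR2]⟩
      | mul x z _ _ hx hz =>
        obtain ⟨P, hP1, hP2⟩ := hx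
        obtain ⟨R, hR1, hR2⟩ := hz
        exact ⟨P * R, by rw [eval₂_mul, Prod.fst_mul, hP1, hR1],
          by rw [eval₂_mul, Prod.snd_mul, hP2, hR2]⟩
    exact ⟨(y, r), key (Algebra.subset_adjoin (Set.mem_insert _ _)), rfl⟩
  have hRA : R ≤ A := fun x hx => ⟨(x, ψ ⟨x, hx⟩), hΓ₀ ⟨⟨x, hx⟩, rfl⟩, rfl⟩
  refine ⟨A, hRA, φ, fun x => ?_, ⟨fun a ha => ?_⟩, fun r => huniq _ _ _ (hg _) (hΓ₀ ⟨r, rfl⟩)⟩
  · exact (B.mem_or_inv_mem x).imp (hBA x) (hBA _)
  · exact IsUnit.of_mul_eq_one ⟨_, hinv a ha.ne_zero⟩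
      (Subtype.ext (mul_inv_cancel₀ fun e => ha.ne_zero (by
        show φ a = 0
        rw [show a = 0 from Subtype.ext e, map_zero])))

end FermatAgent.AbVar.Engine
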