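import Fermat.Agent.AbVar.Engine.Ext

/-!
# Reduction of places and functions under a valuation of the constants

A constant reduction is a valuation ring of `L` over `k` with residue field `k`. A place of the
extended function field reduces to the place of `F` cut out by the reduced values.
-/

set_option autoImplicit false

noncomputable section

open AlgebraicCurve TensorProduct

namespace FermatAgent.AbVar.Engine

open FermatAgent.Curve FermatAgent.Curve.RR

/-- A valuation ring of `L` over `k` with residue field `k`. -/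
structure ConstRed (k L : Type*) [Field k] [Field L] [Algebra k L] where
  /-- The valuation ring. -/
  ring : ValuationSubring L
  algebraMap_mem : ∀ a : k, algebraMap k L a ∈ ring
  exists_sub : ∀ x ∈ ring, ∃ a : k, x - algebraMap k L a ∈ ring.nonunits

namespace ConstRed

variable {k L : Type*} [Field k] [Field L] [Algebra k L] (c : ConstRed k L)

theorem algebraMap_eq_zero_of_mem_nonunits {a : k} (h : algebraMap k L a ∈ c.ring.nonunits) :
    a = 0 := by
  by_contra ha
  rw [ValuationSubring.mem_nonunits_iff] at h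
  have h1 : c.ring.valuation (algebraMap k L a⁻¹) ≤ 1 :=
    (c.ring.valuation_le_one_iff _).mpr (c.algebraMap_mem _)
  have h2 : c.ring.valuation (algebraMap k L a) * c.ring.valuation (algebraMap k L a⁻¹) = 1 := by
    rw [← map_mul, ← map_mul, mul_inv_cancel₀ ha, map_one, map_one]
  exact (mul_lt_one_of_lt_of_le h h1).ne h2

theorem existsUnique_res {x : L} (hx : x ∈ c.ring) :
    ∃! a : k, x - algebraMap k L a ∈ c.ring.nonunits := by
  obtain ⟨a, ha⟩ := c.exists_sub x hx
  refine ⟨a, ha, fun b hb => ?_⟩
  refine sub_eq_zero.mp (c.algebraMap_eq_zero_of_mem_nonunits ?_)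
  rw [ValuationSubring.mem_nonunits_iff] at ha hb ⊢
  have : algebraMap k L (b - a) = (x - algebraMap k L a) - (x - algebraMap k L b) := by
    rw [map_sub]; ring
  rw [this]
  exact lt_of_le_of_lt (Valuation.map_sub _ _ _) (max_lt ha hb)

/-- The residue, zero outside the ring. -/
def res (x : L) : k :=
  letI := Classical.propDecidable
  if h : x ∈ c.ring then (c.existsUnique_res h).choose else 0

theorem res_spec {x : L} (hx : x ∈ c.ring) : x - algebraMap k L (c.res x) ∈ c.ring.nonunits := by
  rw [res, dif_pos hx]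
  exact (c.existsUnique_res hx).choose_spec.1

theorem res_eq {x : L} (hx : x ∈ c.ring) {a : k}
    (ha : x - algebraMap k L a ∈ c.ring.nonunits) : c.res x = a :=
  (c.existsUnique_res hx).unique (c.res_spec hx) ha

@[simp]
theorem res_algebraMap (a : k) : c.res (algebraMap k L a) = a :=
  c.res_eq (c.algebraMap_mem a) (by
    rw [sub_self, ValuationSubring.mem_nonunits_iff, map_zero]; exact zero_lt_one)

theorem res_add {x y : L} (hx : x ∈ c.ring) (hy : y ∈ c.ring) :
    c.res (x + y) = c.res x + c.res y := by
  refine c.res_eq (add_mem hx hy) ?_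
  have h1 := c.res_spec hx
  have h2 := c.res_spec hy
  rw [ValuationSubring.mem_nonunits_iff] at h1 h2 ⊢
  rw [map_add, add_sub_add_comm]
  exact lt_of_le_of_lt (Valuation.map_add _ _ _) (max_lt h1 h2)

theorem res_mul {x y : L} (hx : x ∈ c.ring) (hy : y ∈ c.ring) :
    c.res (x * y) = c.res x * c.res y := by
  refine c.res_eq (mul_mem hx hy) ?_
  have h1 := c.res_spec hx
  have h2 := c.res_spec hy
  rw [ValuationSubring.mem_nonunits_iff] at h1 h2 ⊢
  have e : x * y - algebraMap k L (c.res x * c.res y) =
      (x - algebraMap k L (c.res x)) * y + algebraMap k L (c.res x) * (y - algebraMap k L (c.res y)) := by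
    rw [map_mul]; ring
  rw [e]
  refine lt_of_le_of_lt (Valuation.map_add _ _ _) (max_lt ?_ ?_)
  · rw [map_mul]
    exact mul_lt_one_of_lt_of_le h1 ((c.ring.valuation_le_one_iff _).mpr hy)
  · rw [map_mul, mul_comm]
    exact mul_lt_one_of_lt_of_le h2 ((c.ring.valuation_le_one_iff _).mpr (c.algebraMap_mem _))

theorem res_eq_zero_iff {x : L} (hx : x ∈ c.ring) : c.res x = 0 ↔ x ∈ c.ring.nonunits := by
  refine ⟨fun h => ?_, fun h => c.res_eq hx (by rwa [map_zero, sub_zero])⟩
  have := c.res_spec hx
  rwa [h, map_zero, sub_zero] at this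

/-- The valuation ring as a subalgebra. -/
def alg : Subalgebra k L where
  carrier := c.ring
  mul_mem' := mul_mem
  one_mem' := one_mem c.ring
  add_mem' := add_mem
  zero_mem' := zero_mem c.ring
  algebraMap_mem' := c.algebraMap_mem

/-- The residue map. -/
def resHom : c.alg →ₐ[k] k where
  toFun x := c.res (x : L)
  map_one' := by
    show c.res (1 : L) = 1
    rw [← map_one (algebraMap k L), c.res_algebraMap]
  map_mul' x y := c.res_mul x.2 y.2
  map_zero' := by
    show c.res (0 : L) = 0
    rw [← map_zero (algebraMap k L), c.res_algebraMap]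
  map_add' x y := c.res_add x.2 y.2
  commutes' a := c.res_algebraMap a

theorem res_ne_zero_iff_inv_mem {x : L} (hx : x ∈ c.ring) :
    c.res x ≠ 0 ↔ x ≠ 0 ∧ x⁻¹ ∈ c.ring := by
  rw [Ne, c.res_eq_zero_iff hx, ValuationSubring.mem_nonunits_iff, not_lt]
  refine ⟨fun h => ⟨fun h0 => by simp [h0] at h, ?_⟩, fun ⟨h0, h⟩ => ?_⟩
  · rw [← ValuationSubring.valuation_le_one_iff, map_inv₀]
    exact inv_le_one_of_one_le₀ h
  · rw [← ValuationSubring.valuation_le_one_iff, map_inv₀] at h
    exact (inv_le_one₀ (zero_lt_iff.mpr ((Valuation.ne_zero_iff _).mpr h0))).mp h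

theorem inv_mem_of_notMem {x : L} (hx : x ∉ c.ring) : x⁻¹ ∈ c.ring :=
  (c.ring.mem_or_inv_mem x).resolve_left hx

end ConstRed

variable {k L F : Type*} [Field k] [IsAlgClosed k] [Field L] [IsAlgClosed L] [Algebra k L]
  [Field F] [Algebra k F] [IsFunctionField1 k F] (c : ConstRed k L)

/-- The functions with a finite integral value at `P`. -/
def redValRing (P : Place L (ExtField k L F)) : ValuationSubring F where
  carrier := {f | incF k L F f ∈ P.toValuationSubring ∧ valueAt P (incF k L F f) ∈ c.ring}
  mul_mem' := fun {f g} hf hg => ⟨by rw [map_mul]; exact mul_mem hf.1 hg.1, by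
    rw [map_mul, valueAt_mul P hf.1 hg.1]; exact mul_mem hf.2 hg.2⟩
  one_mem' := ⟨by rw [map_one]; exact one_mem _, by
    rw [map_one, ← map_one (algebraMap L (ExtField k L F)), valueAt_algebraMap]; exact one_mem _⟩
  add_mem' := fun {f g} hf hg => ⟨by rw [map_add]; exact add_mem hf.1 hg.1, by
    rw [map_add, valueAt_add P hf.1 hg.1]; exact add_mem hf.2 hg.2⟩
  zero_mem' := ⟨by rw [map_zero]; exact zero_mem _, by
    rw [map_zero, ← map_zero (algebraMap L (ExtField k L F)), valueAt_algebraMap]
    exact zero_mem _⟩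
  neg_mem' := fun {f} hf => by
    refine ⟨by rw [map_neg]; exact neg_mem hf.1, ?_⟩
    rw [map_neg, ← zero_sub, valueAt_sub P (zero_mem _) hf.1,
      ← map_zero (algebraMap L (ExtField k L F)), valueAt_algebraMap, zero_sub]
    exact neg_mem hf.2
  mem_or_inv_mem' := fun f => by
    by_cases h0 : f = 0
    · subst h0
      refine Or.inl ⟨by rw [map_zero]; exact zero_mem _, ?_⟩
      rw [map_zero, ← map_zero (algebraMap L (ExtField k L F)), valueAt_algebraMap]
      exact zero_mem _
    have hf0 : incF k L F f ≠ 0 := (_root_.map_ne_zero _).mpr h0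
    by_cases hP : incF k L F f ∈ P.toValuationSubring
    · by_cases hv : valueAt P (incF k L F f) ∈ c.ring
      · exact Or.inl ⟨hP, hv⟩
      have hv0 : valueAt P (incF k L F f) ≠ 0 := fun h => hv (h ▸ zero_mem _)
      have hord : P.ord (incF k L F f) = 0 := by
        have h1 := ord_nonneg_of_mem' P hP
        by_contra hne
        exact hv0 ((valueAt_eq_zero_iff P hP).mpr (Or.inr (by omega)))
      refine Or.inr ⟨?_, ?_⟩
      · rw [map_inv₀]
        exact (mem_iff_ord_nonneg' P).mpr (by rw [P.ord_inv, hord, neg_zero])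
      · rw [map_inv₀, valueAt_inv P hord]
        exact c.inv_mem_of_notMem hv
    · have hlt := ord_neg_of_notMem P hP
      have hmem : incF k L F f⁻¹ ∈ P.toValuationSubring := by
        rw [map_inv₀]
        exact (mem_iff_ord_nonneg' P).mpr (by rw [P.ord_inv]; omega)
      refine Or.inr ⟨hmem, ?_⟩
      rw [(valueAt_eq_zero_iff P hmem).mpr (Or.inr (by rw [map_inv₀, P.ord_inv]; omega))]
      exact zero_mem _

theorem mem_redValRing {P : Place L (ExtField k L F)} {f : F} :
    f ∈ redValRing c P ↔
      incF k L F f ∈ P.toValuationSubring ∧ valueAt P (incF k L F f) ∈ c.ring := Iff.rfl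

theorem algebraMap_mem_redValRing (P : Place L (ExtField k L F)) (a : k) :
    algebraMap k F a ∈ redValRing c P := by
  rw [mem_redValRing, incF_algebraMap, valueAt_algebraMap]
  exact ⟨P.algebraMap_mem' _, c.algebraMap_mem a⟩

theorem redValRing_ne_top (P : Place L (ExtField k L F)) : redValRing c P ≠ ⊤ := by
  intro h
  have hall : ∀ f : F, f ∈ redValRing c P := fun f => h ▸ ValuationSubring.mem_top f
  obtain ⟨f, hf, -⟩ := IsFunctionField1.exists_finite (K := k) (F := F)
  obtain ⟨hP, hv⟩ := hall f
  set a := c.res (valueAt P (incF k L F f))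
  have hne : f - algebraMap k F a ≠ 0 := fun h0 =>
    transcendental_iff_notMem_range.mp hf ⟨a, (sub_eq_zero.mp h0).symm⟩
  have h1 := hall (f - algebraMap k F a)
  have hval : valueAt P (incF k L F (f - algebraMap k F a)) =
      valueAt P (incF k L F f) - algebraMap k L a := by
    rw [map_sub, incF_algebraMap, valueAt_sub P hP (P.algebraMap_mem' _), valueAt_algebraMap]
  obtain ⟨h2P, h2v⟩ := hall (f - algebraMap k F a)⁻¹
  have hmul : valueAt P (incF k L F (f - algebraMap k F a)) *
      valueAt P (incF k L F (f - algebraMap k F a)⁻¹) = 1 := by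
    rw [← valueAt_mul P h1.1 h2P, ← map_mul, mul_inv_cancel₀ hne, map_one,
      ← map_one (algebraMap L (ExtField k L F)), valueAt_algebraMap]
  have h3 : c.res (valueAt P (incF k L F (f - algebraMap k F a))) = 0 := by
    rw [c.res_eq_zero_iff h1.2, hval]; exact c.res_spec hv
  have h4 := congrArg c.res hmul
  rw [c.res_mul h1.2 h2v, h3, zero_mul, ← map_one (algebraMap k L), c.res_algebraMap] at h4
  exact zero_ne_one h4

/-- The reduction of a place. -/
def redPlace (P : Place L (ExtField k L F)) : Place k F :=
  placeOfValuationSubring (redValRing c P) (algebraMap_mem_redValRing c P) (redValRing_ne_top c P)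

theorem mem_redPlace_iff {P : Place L (ExtField k L F)} {f : F} :
    f ∈ (redPlace c P).toValuationSubring ↔
      incF k L F f ∈ P.toValuationSubring ∧ valueAt P (incF k L F f) ∈ c.ring := Iff.rfl

theorem valueAt_redPlace {P : Place L (ExtField k L F)} {f : F}
    (hf : f ∈ (redPlace c P).toValuationSubring) :
    valueAt (redPlace c P) f = c.res (valueAt P (incF k L F f)) := by
  obtain ⟨hP, hv⟩ := (mem_redPlace_iff c).mp hf
  set a := c.res (valueAt P (incF k L F f))
  refine valueAt_eq_of _ (or_iff_not_imp_left.mpr fun hne => ?_)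
  set d := f - algebraMap k F a with hd
  have hd0 : d ≠ 0 := sub_ne_zero.mpr hne
  have hdm : d ∈ (redPlace c P).toValuationSubring :=
    sub_mem hf ((redPlace c P).algebraMap_mem' a)
  refine lt_of_le_of_ne (ord_nonneg_of_mem' _ hdm) fun h0 => ?_
  have hinv : d⁻¹ ∈ (redPlace c P).toValuationSubring :=
    (mem_iff_ord_nonneg' _).mpr (by rw [Place.ord_inv, ← h0, neg_zero])
  obtain ⟨h1, h2⟩ := (mem_redPlace_iff c).mp hdm
  obtain ⟨h3, h4⟩ := (mem_redPlace_iff c).mp hinv
  have h5 : c.res (valueAt P (incF k L F d)) = 0 := by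
    rw [c.res_eq_zero_iff h2, hd, map_sub, incF_algebraMap,
      valueAt_sub P hP (P.algebraMap_mem' _), valueAt_algebraMap]
    exact c.res_spec hv
  have h6 : valueAt P (incF k L F d) * valueAt P (incF k L F d⁻¹) = 1 := by
    rw [← valueAt_mul P h1 h3, ← map_mul, mul_inv_cancel₀ hd0, map_one,
      ← map_one (algebraMap L (ExtField k L F)), valueAt_algebraMap]
  have h7 := congrArg c.res h6
  rw [c.res_mul h2 h4, h5, zero_mul, ← map_one (algebraMap k L), c.res_algebraMap] at h7
  exact zero_ne_one h7

end FermatAgent.AbVar.Engine
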