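import Fermat.Agent.AbVar.Engine.ConstPlace
import Fermat.Agent.AbVar.Engine.Red
import Mathlib.RingTheory.Nakayama

/-!
# Integral functions, the Gauss ring and the local rings of the special fibre

For a reduction `c` of the constants: functions `A / S` with `A, S` integral and `S` of nonzero
reduction form the Gauss ring, which reduces to `F`; those with `A, S` regular at a place `Q` of
`F` and `S` nonzero at `Q` form the local ring at `Q`. At a place `P` reducing to `Q` the kernel
of evaluation in the local ring is generated by `π - π(P)` for any uniformiser `π` at `Q`.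
-/

set_option autoImplicit false
set_option linter.unusedSectionVars false
set_option linter.style.haveILetI false

noncomputable section

open AlgebraicCurve TensorProduct

namespace FermatAgent.AbVar.Engine

open FermatAgent.Curve FermatAgent.Curve.RR

variable {k L F : Type*} [Field k] [IsAlgClosed k] [Field L] [IsAlgClosed L] [Algebra k L]
  [Field F] [Algebra k F] [IsFunctionField1 k F] (c : ConstRed k L)

/-- The valuation ring of a place as a subalgebra. -/
def valAlg (Q : Place k F) : Subalgebra k F where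
  carrier := Q.toValuationSubring
  mul_mem' := mul_mem
  one_mem' := one_mem Q.toValuationSubring
  add_mem' := add_mem
  zero_mem' := zero_mem Q.toValuationSubring
  algebraMap_mem' := Q.algebraMap_mem'

variable (F) in
/-- Functions with integral constants. -/
abbrev IntExt : Type _ := c.alg ⊗[k] F

/-- Integral functions inside the extension. -/
def intIncl : IntExt F c →ₐ[k] ExtField k L F :=
  ((toExt k L F).restrictScalars k).comp (Algebra.TensorProduct.map c.alg.val (AlgHom.id k F))

/-- Reduction of integral functions. -/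
def intRed : IntExt F c →ₐ[k] F :=
  (Algebra.TensorProduct.lid k F).toAlgHom.comp
    (Algebra.TensorProduct.map c.resHom (AlgHom.id k F))

theorem intIncl_tmul (x : c.alg) (f : F) :
    intIncl c (x ⊗ₜ f) = algebraMap L (ExtField k L F) (x : L) * incF k L F f :=
  toExt_tmul (x : L) f

theorem intRed_tmul (x : c.alg) (f : F) :
    intRed c (x ⊗ₜ f) = c.res (x : L) • f := by
  show Algebra.TensorProduct.lid k F (c.resHom x ⊗ₜ f) = _
  rw [Algebra.TensorProduct.lid_tmul]
  rfl

theorem intIncl_injective : Function.Injective (intIncl (F := F) c) :=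
  toExt_injective.comp
    (Module.Flat.rTensor_preserves_injective_linearMap (M := F) c.alg.val.toLinearMap
      Subtype.val_injective)

/-- Integral functions regular at `Q`. -/
def regularAt (Q : Place k F) : Subalgebra k (IntExt F c) :=
  (Algebra.TensorProduct.map (AlgHom.id k c.alg) (valAlg Q).val).range

theorem tmul_mem_regularAt {Q : Place k F} (x : c.alg) {f : F} (hf : f ∈ Q.toValuationSubring) :
    x ⊗ₜ f ∈ regularAt c Q :=
  ⟨x ⊗ₜ (⟨f, hf⟩ : valAlg Q), rfl⟩

/-- At a place reducing to `Q` the value of a regular integral function reduces to the value of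
its reduction. -/
theorem regularAt_spec {P : Place L (ExtField k L F)} {Q : Place k F} (hP : redPlace c P = Q)
    {A : IntExt F c} (hA : A ∈ regularAt c Q) :
    intIncl c A ∈ P.toValuationSubring ∧ valueAt P (intIncl c A) ∈ c.ring ∧
      intRed c A ∈ Q.toValuationSubring ∧
      c.res (valueAt P (intIncl c A)) = valueAt Q (intRed c A) := by
  subst hP
  obtain ⟨y, rfl⟩ := hA
  induction y using TensorProduct.induction_on with
  | zero =>
    simp only [map_zero]
    refine ⟨zero_mem _, ?_, zero_mem _, ?_⟩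
    · rw [← map_zero (algebraMap L (ExtField k L F)), valueAt_algebraMap]; exact zero_mem _
    · rw [← map_zero (algebraMap L (ExtField k L F)), valueAt_algebraMap,
        ← map_zero (algebraMap k F), valueAt_algebraMap, ← map_zero (algebraMap k L),
        c.res_algebraMap]
  | tmul x f =>
    have hf : (f : F) ∈ (redPlace c P).toValuationSubring := f.2
    obtain ⟨h1, h2⟩ := (mem_redPlace_iff c).mp hf
    change intIncl c (x ⊗ₜ (f : F)) ∈ P.toValuationSubring ∧
      valueAt P (intIncl c (x ⊗ₜ (f : F))) ∈ c.ring ∧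
      intRed c (x ⊗ₜ (f : F)) ∈ (redPlace c P).toValuationSubring ∧
      c.res (valueAt P (intIncl c (x ⊗ₜ (f : F)))) =
        valueAt (redPlace c P) (intRed c (x ⊗ₜ (f : F)))
    rw [intIncl_tmul, intRed_tmul, Algebra.smul_def,
      valueAt_mul P (P.algebraMap_mem' _) h1, valueAt_algebraMap]
    refine ⟨mul_mem (P.algebraMap_mem' _) h1, mul_mem x.2 h2,
      mul_mem ((redPlace c P).algebraMap_mem' _) hf, ?_⟩
    rw [valueAt_mul _ ((redPlace c P).algebraMap_mem' _) hf, valueAt_algebraMap,
      valueAt_redPlace c hf, c.res_mul x.2 h2]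
  | add y z hy hz =>
    obtain ⟨a1, a2, a3, a4⟩ := hy
    obtain ⟨b1, b2, b3, b4⟩ := hz
    simp only [map_add] at *
    refine ⟨add_mem a1 b1, ?_, add_mem a3 b3, ?_⟩
    · rw [valueAt_add P a1 b1]; exact add_mem a2 b2
    · rw [valueAt_add P a1 b1, valueAt_add _ a3 b3, c.res_add a2 b2, a4, b4]

theorem intRed_mem_of_regularAt {Q : Place k F} {A : IntExt F c} (hA : A ∈ regularAt c Q) :
    intRed c A ∈ Q.toValuationSubring := by
  obtain ⟨y, rfl⟩ := hA
  induction y using TensorProduct.induction_on with
  | zero => simp only [map_zero]; exact zero_mem _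
  | tmul x f =>
    change intRed c (x ⊗ₜ (f : F)) ∈ _
    rw [intRed_tmul, Algebra.smul_def]
    exact mul_mem (Q.algebraMap_mem' _) f.2
  | add y z hy hz => simp only [map_add] at *; exact add_mem hy hz

theorem intRed_one_tmul (f : F) : intRed c ((1 : c.alg) ⊗ₜ f) = f := by
  rw [intRed_tmul, OneMemClass.coe_one, ← map_one (algebraMap k L), c.res_algebraMap, one_smul]

theorem intIncl_one_tmul (f : F) : intIncl c ((1 : c.alg) ⊗ₜ f) = incF k L F f := by
  rw [intIncl_tmul, OneMemClass.coe_one, map_one, one_mul]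

/-- An element of `L ⊗ F` becomes integral with nonzero reduction after scaling. -/
theorem exists_scale {y : L ⊗[k] F} (hy : y ≠ 0) : ∃ d : L, d ≠ 0 ∧ ∃ A : IntExt F c,
    intRed c A ≠ 0 ∧ algebraMap L (ExtField k L F) d * toExt k L F y = intIncl c A := by
  classical
  let b := Module.Basis.ofVectorSpace k F
  set r := (b.baseChange L).repr y with hr
  have hne : r.support.Nonempty := Finsupp.support_nonempty_iff.mpr
    ((b.baseChange L).repr.map_ne_zero_iff.mpr hy)
  obtain ⟨j, hj, hmax⟩ := r.support.exists_max_image (fun i => c.ring.valuation (r i)) hne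
  have hj0 : r j ≠ 0 := Finsupp.mem_support_iff.mp hj
  have hmem : ∀ i, r i * (r j)⁻¹ ∈ c.ring := fun i => by
    rw [← ValuationSubring.valuation_le_one_iff, map_mul, map_inv₀]
    refine (mul_inv_le_iff₀ (zero_lt_iff.mpr ((Valuation.ne_zero_iff _).mpr hj0))).mpr ?_
    rw [one_mul]
    by_cases hi : i ∈ r.support
    · exact hmax i hi
    · rw [Finsupp.notMem_support_iff.mp hi, map_zero]; exact zero_le
  refine ⟨(r j)⁻¹, inv_ne_zero hj0,
    ∑ i ∈ r.support, (⟨_, hmem i⟩ : c.alg) ⊗ₜ b i, fun h => ?_, ?_⟩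
  · rw [map_sum] at h
    simp only [intRed_tmul] at h
    have := linearIndependent_iff'.mp b.linearIndependent r.support _ h j hj
    rw [mul_inv_cancel₀ hj0, ← map_one (algebraMap k L), c.res_algebraMap] at this
    exact one_ne_zero this
  · conv_lhs => rw [← (b.baseChange L).linearCombination_repr y]
    rw [Finsupp.linearCombination_apply, Finsupp.sum, map_sum, map_sum, Finset.mul_sum]
    refine Finset.sum_congr rfl fun i _ => ?_
    rw [map_smul, Module.Basis.baseChange_apply, toExt_tmul, map_one, one_mul, intIncl_tmul,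
      Algebra.smul_def, map_mul, ← hr]
    ring

/-- An integral function becomes regular at `Q` after multiplication by a function. -/
theorem exists_regularize (Q : Place k F) (A : IntExt F c) : ∃ b : F, b ≠ 0 ∧
    b ∈ Q.toValuationSubring ∧ (1 : c.alg) ⊗ₜ b * A ∈ regularAt c Q := by
  induction A using TensorProduct.induction_on with
  | zero => exact ⟨1, one_ne_zero, one_mem _, by rw [mul_zero]; exact zero_mem _⟩
  | tmul x f =>
    by_cases hf : f ∈ Q.toValuationSubring
    · refine ⟨1, one_ne_zero, one_mem _, ?_⟩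
      rw [Algebra.TensorProduct.tmul_mul_tmul, one_mul, one_mul]
      exact tmul_mem_regularAt c x hf
    · have hf0 : f ≠ 0 := fun h => hf (h ▸ zero_mem _)
      refine ⟨f⁻¹, inv_ne_zero hf0, (Q.toValuationSubring.mem_or_inv_mem f).resolve_left hf, ?_⟩
      rw [Algebra.TensorProduct.tmul_mul_tmul, one_mul, inv_mul_cancel₀ hf0]
      exact tmul_mem_regularAt c x (one_mem _)
  | add A B hA hB =>
    obtain ⟨a, ha0, ha, hA⟩ := hA
    obtain ⟨b, hb0, hb, hB⟩ := hB
    refine ⟨a * b, mul_ne_zero ha0 hb0, mul_mem ha hb, ?_⟩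
    have e : (1 : c.alg) ⊗ₜ[k] (a * b) * (A + B) =
        (1 : c.alg) ⊗ₜ[k] b * ((1 : c.alg) ⊗ₜ[k] a * A) +
          (1 : c.alg) ⊗ₜ[k] a * ((1 : c.alg) ⊗ₜ[k] b * B) := by
      have : (1 : c.alg) ⊗ₜ[k] (a * b) = (1 : c.alg) ⊗ₜ[k] a * (1 : c.alg) ⊗ₜ[k] b := by
        rw [Algebra.TensorProduct.tmul_mul_tmul, one_mul]
      rw [this]; ring
    rw [e]
    exact add_mem (mul_mem (tmul_mem_regularAt c 1 hb) hA)
      (mul_mem (tmul_mem_regularAt c 1 ha) hB)

theorem regularAt_mul_one_tmul {Q : Place k F} {A : IntExt F c} (hA : A ∈ regularAt c Q) {f : F}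
    (hf : f ∈ Q.toValuationSubring) : (1 : c.alg) ⊗ₜ f * A ∈ regularAt c Q :=
  mul_mem (tmul_mem_regularAt c 1 hf) hA

/-- A quotient of integral functions, regularised at `Q`. -/
theorem exists_regular_ratio_of_eq (Q : Place k F) {f : ExtField k L F} {A S : IntExt F c}
    (hS : intRed c S ≠ 0) (h : f * intIncl c S = intIncl c A) :
    ∃ A' S' : IntExt F c, A' ∈ regularAt c Q ∧ S' ∈ regularAt c Q ∧ intRed c S' ≠ 0 ∧
      f * intIncl c S' = intIncl c A' := by
  obtain ⟨u, hu0, hu, hAu⟩ := exists_regularize c Q A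
  obtain ⟨v, hv0, hv, hSv⟩ := exists_regularize c Q S
  refine ⟨(1 : c.alg) ⊗ₜ v * ((1 : c.alg) ⊗ₜ u * A), (1 : c.alg) ⊗ₜ u * ((1 : c.alg) ⊗ₜ v * S),
    regularAt_mul_one_tmul c hAu hv, regularAt_mul_one_tmul c hSv hu, ?_, ?_⟩
  · rw [map_mul, map_mul, intRed_one_tmul, intRed_one_tmul]
    exact mul_ne_zero hu0 (mul_ne_zero hv0 hS)
  · simp only [map_mul, intIncl_one_tmul, ← h]
    ring

theorem intIncl_ne_zero {A : IntExt F c} (hA : intRed c A ≠ 0) : intIncl c A ≠ 0 := fun h =>
  hA (by rw [intIncl_injective c (h.trans (map_zero _).symm), map_zero])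

/-- Finitely many functions generate the functions regular away from `o`. -/
theorem exists_finset_adjoin_eq_top (o : Place k F) :
    ∃ s : Finset (affRing o), Algebra.adjoin k (s : Set (affRing o)) = ⊤ := by
  classical
  set N := 2 * genusFF k F + 1
  have hN : N ∈ poleSet o := mem_poleSet_of_ge o (by omega) (by omega)
  have hfin : {i : poleSet o | (i : ℕ) ≤ 2 * N}.Finite :=
    (Set.finite_Iic (2 * N)).preimage Subtype.val_injective.injOn
  refine ⟨hfin.toFinset.image (bFun o), ?_⟩
  set T := Algebra.adjoin k ((hfin.toFinset.image (bFun o) : Finset (affRing o)) : Set (affRing o))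
  have key : ∀ n, ∀ i : poleSet o, (i : ℕ) = n → bFun o i ∈ T := by
    intro n
    induction n using Nat.strong_induction_on with
    | _ n ih =>
      intro i hi
      by_cases hle : n ≤ 2 * N
      · exact Algebra.subset_adjoin (Finset.mem_image_of_mem _
          (hfin.mem_toFinset.mpr (show (i : ℕ) ≤ 2 * N by omega)))
      push Not at hle
      have hj : n - N ∈ poleSet o := mem_poleSet_of_ge o (by omega) (by omega)
      set j : poleSet o := ⟨n - N, hj⟩ with hjdef
      have hjv : (j : ℕ) = n - N := rfl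
      set m : poleSet o := ⟨N, hN⟩
      have hprod : bFun o j * bFun o m ∈ T := by
        refine mul_mem (ih _ (by omega) j rfl) (Algebra.subset_adjoin (Finset.mem_image_of_mem _
          (hfin.mem_toFinset.mpr (show (m : ℕ) ≤ 2 * N from ?_))))
        show N ≤ 2 * N
        omega
      have htop : (affBasis o).repr (bFun o j * bFun o m) i ≠ 0 := by
        have h := repr_mul_top o j m
        rwa [show (⟨_, add_mem_poleSet o j m⟩ : poleSet o) = i from
          Subtype.ext (show (n - N) + N = (i : ℕ) by omega)] at h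
      set r := (affBasis o).repr (bFun o j * bFun o m)
      have hsum : bFun o j * bFun o m =
          r i • bFun o i + Finsupp.linearCombination k (bFun o) (r.erase i) := by
        have e : Finsupp.linearCombination k (bFun o) r = bFun o j * bFun o m := by
          have h := (affBasis o).linearCombination_repr (bFun o j * bFun o m)
          rw [show (⇑(affBasis o)) = bFun o from funext (affBasis_apply o)] at h
          exact h
        conv_lhs => rw [← e, ← Finsupp.single_add_erase i r]
        rw [map_add, Finsupp.linearCombination_single]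
      have hrest : Finsupp.linearCombination k (bFun o) (r.erase i) ∈ T := by
        rw [Finsupp.linearCombination_apply]
        refine Submodule.sum_mem (Subalgebra.toSubmodule T) fun l hl => T.smul_mem (ih l ?_ l rfl) _
        rw [Finsupp.support_erase, Finset.mem_erase, Finsupp.mem_support_iff] at hl
        have h1 := repr_le o (n := n) (by
          rw [Subalgebra.coe_mul, o.ord_mul (bFun_ne_zero o j) (bFun_ne_zero o m), ord_bFun,
            ord_bFun]
          show -(n : ℤ) ≤ -((n - N : ℕ) : ℤ) + -((N : ℕ) : ℤ)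
          omega) hl.2
        exact lt_of_le_of_ne h1 fun e => hl.1 (Subtype.ext (e.trans hi.symm))
      have : r i • bFun o i ∈ T := by
        have h := T.sub_mem hprod hrest
        rwa [hsum, add_sub_cancel_right] at h
      simpa [smul_smul, inv_mul_cancel₀ htop] using T.smul_mem this (r i)⁻¹
  refine eq_top_iff.mpr fun f _ => ?_
  rw [← (affBasis o).linearCombination_repr f, Finsupp.linearCombination_apply]
  exact Submodule.sum_mem (Subalgebra.toSubmodule T) fun l _ => T.smul_mem
    (by rw [affBasis_apply]; exact key _ l rfl) _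

/-- A function regular at `Q` is a quotient of functions regular away from `o` with denominator
nonzero at `Q`. -/
theorem exists_affRing_frac {o Q : Place k F} (hQ : Q ≠ o) {f : F}
    (hf : f ∈ Q.toValuationSubring) :
    ∃ a b : affRing o, (b : F) ≠ 0 ∧ Q.ord (b : F) = 0 ∧ (b : F) * f = a := by
  classical
  rcases eq_or_ne f 0 with rfl | hf0
  · exact ⟨0, 1, one_ne_zero, by simp, by simp⟩
  set P : Divisor k F := polePart f with hP
  set M : ℕ := 2 * genusFF k F + (Divisor.degree P).natAbs with hM
  obtain ⟨b, hb, hb0, hbQ⟩ := exists_mem_ord_eq (D := Finsupp.single o (M : ℤ) - P)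
    (by rw [map_sub, degree_single, hM]; push_cast; linarith [le_abs_self (Divisor.degree P)]) Q
  have hPQ : P Q = 0 := by
    rw [hP, polePart_apply]; have := ord_nonneg_of_mem' Q hf; omega
  rw [Finsupp.sub_apply, Finsupp.single_eq_of_ne hQ, hPQ] at hbQ
  have hbv : ∀ v : Place k F, v ≠ o → P v ≤ v.ord b := fun v hv => by
    have h := (mem_riemannRochSpace_iff.mp hb v).resolve_left hb0
    rw [Finsupp.sub_apply, Finsupp.single_eq_of_ne hv] at h
    omega
  refine ⟨⟨b * f, fun v hv => (mem_iff_ord_nonneg' v).mpr ?_⟩,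
    ⟨b, fun v hv => (mem_iff_ord_nonneg' v).mpr ((polePart_nonneg f v).trans (hbv v hv))⟩, hb0,
    by simpa using hbQ, rfl⟩
  have h1 := hbv v hv
  rw [hP, polePart_apply] at h1
  rw [v.ord_mul hb0 hf0]
  omega

/-! ### The Gauss ring -/

/-- Quotients of integral functions with denominator of nonzero reduction. -/
def gauss : Subalgebra k (ExtField k L F) where
  carrier := {f | ∃ A S : IntExt F c, intRed c S ≠ 0 ∧ f * intIncl c S = intIncl c A}
  mul_mem' := by
    rintro f g ⟨A, S, hS, hf⟩ ⟨B, T, hT, hg⟩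
    exact ⟨A * B, S * T, by rw [map_mul]; exact mul_ne_zero hS hT,
      by rw [map_mul, map_mul, ← hf, ← hg]; ring⟩
  add_mem' := by
    rintro f g ⟨A, S, hS, hf⟩ ⟨B, T, hT, hg⟩
    exact ⟨A * T + B * S, S * T, by rw [map_mul]; exact mul_ne_zero hS hT,
      by rw [map_add, map_mul, map_mul, map_mul, ← hf, ← hg]; ring⟩
  algebraMap_mem' a := ⟨algebraMap k _ a, 1, by rw [map_one]; exact one_ne_zero,
    by rw [map_one, mul_one, AlgHom.commutes]⟩

theorem intIncl_mem_gauss (A : IntExt F c) : intIncl c A ∈ gauss c :=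
  ⟨A, 1, by rw [map_one]; exact one_ne_zero, by rw [map_one, mul_one]⟩

theorem incF_mem_gauss (f : F) : incF k L F f ∈ gauss c :=
  intIncl_one_tmul c f ▸ intIncl_mem_gauss c _

theorem algebraMap_mem_gauss {x : L} (hx : x ∈ c.ring) :
    algebraMap L (ExtField k L F) x ∈ gauss c := by
  simpa [intIncl_tmul] using intIncl_mem_gauss c ((⟨x, hx⟩ : c.alg) ⊗ₜ (1 : F))

/-- Reduction on the Gauss ring, zero outside. -/
def redFun (f : ExtField k L F) : F :=
  letI := Classical.propDecidable
  if h : f ∈ gauss c then intRed c h.choose / intRed c h.choose_spec.choose else 0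

theorem redFun_eq {f : ExtField k L F} {A S : IntExt F c} (hS : intRed c S ≠ 0)
    (h : f * intIncl c S = intIncl c A) : redFun c f = intRed c A / intRed c S := by
  have hf : f ∈ gauss c := ⟨A, S, hS, h⟩
  rw [redFun, dif_pos hf]
  obtain ⟨hS', h'⟩ := hf.choose_spec.choose_spec
  set A' := hf.choose
  set S' := hf.choose_spec.choose
  have e : A' * S = A * S' := intIncl_injective c (by rw [map_mul, map_mul, ← h, ← h']; ring)
  rw [div_eq_div_iff hS' hS, ← map_mul, ← map_mul, e]

theorem redFun_intIncl (A : IntExt F c) : redFun c (intIncl c A) = intRed c A := by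
  rw [redFun_eq c (A := A) (S := 1) (by rw [map_one]; exact one_ne_zero) (by rw [map_one, mul_one]),
    map_one, div_one]

theorem redFun_incF (f : F) : redFun c (incF k L F f) = f := by
  rw [← intIncl_one_tmul c f, redFun_intIncl, intRed_one_tmul]

theorem redFun_algebraMap {x : L} (hx : x ∈ c.ring) :
    redFun c (algebraMap L (ExtField k L F) x) = algebraMap k F (c.res x) := by
  have e : algebraMap L (ExtField k L F) x = intIncl c ((⟨x, hx⟩ : c.alg) ⊗ₜ (1 : F)) := by
    rw [intIncl_tmul, map_one, mul_one]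
  rw [e, redFun_intIncl, intRed_tmul, Algebra.smul_def, mul_one]

/-- Reduction on the Gauss ring. -/
def gaussRed : gauss (F := F) c →ₐ[k] F where
  toFun f := redFun c (f : ExtField k L F)
  map_one' := by
    show redFun c (1 : ExtField k L F) = 1
    rw [← map_one (intIncl (F := F) c), redFun_intIncl, map_one]
  map_mul' := by
    rintro ⟨f, A, S, hS, hf⟩ ⟨g, B, T, hT, hg⟩
    show redFun c (f * g) = redFun c f * redFun c g
    rw [redFun_eq c (A := A * B) (S := S * T) (by rw [map_mul]; exact mul_ne_zero hS hT)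
      (by rw [map_mul, map_mul, ← hf, ← hg]; ring), redFun_eq c hS hf, redFun_eq c hT hg, map_mul,
      map_mul, div_mul_div_comm]
  map_zero' := by
    show redFun c (0 : ExtField k L F) = 0
    rw [← map_zero (intIncl (F := F) c), redFun_intIncl, map_zero]
  map_add' := by
    rintro ⟨f, A, S, hS, hf⟩ ⟨g, B, T, hT, hg⟩
    show redFun c (f + g) = redFun c f + redFun c g
    rw [redFun_eq c (A := A * T + B * S) (S := S * T) (by rw [map_mul]; exact mul_ne_zero hS hT)
      (by rw [map_add, map_mul, map_mul, map_mul, ← hf, ← hg]; ring), redFun_eq c hS hf,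
      redFun_eq c hT hg, map_add, map_mul, map_mul, map_mul, div_add_div _ _ hS hT,
      mul_comm (intRed c B) (intRed c S)]
  commutes' a := by
    show redFun c (algebraMap k (ExtField k L F) a) = algebraMap k F a
    rw [← (intIncl (F := F) c).commutes a, redFun_intIncl, AlgHom.commutes]

theorem redFun_mul {f g : ExtField k L F} (hf : f ∈ gauss c) (hg : g ∈ gauss c) :
    redFun c (f * g) = redFun c f * redFun c g :=
  map_mul (gaussRed c) ⟨f, hf⟩ ⟨g, hg⟩

theorem redFun_sub {f g : ExtField k L F} (hf : f ∈ gauss c) (hg : g ∈ gauss c) :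
    redFun c (f - g) = redFun c f - redFun c g :=
  map_sub (gaussRed c) ⟨f, hf⟩ ⟨g, hg⟩

theorem inv_mem_gauss {f : ExtField k L F} (hf : f ∈ gauss c) (h0 : redFun c f ≠ 0) :
    f⁻¹ ∈ gauss c := by
  obtain ⟨A, S, hS, h⟩ := hf
  rw [redFun_eq c hS h] at h0
  have hA : intRed c A ≠ 0 := fun e => h0 (by rw [e, zero_div])
  have hf0 : f ≠ 0 := fun e => intIncl_ne_zero c hA (by rw [← h, e, zero_mul])
  exact ⟨S, A, hA, by rw [← h, ← mul_assoc, inv_mul_cancel₀ hf0, one_mul]⟩

instance isLocalRing_gauss : IsLocalRing (gauss (F := F) c) := by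
  refine IsLocalRing.of_isUnit_or_isUnit_one_sub_self fun f => ?_
  have key : ∀ g : gauss (F := F) c, gaussRed c g ≠ 0 → IsUnit g := fun g hg =>
    IsUnit.of_mul_eq_one ⟨_, inv_mem_gauss c g.2 hg⟩ (Subtype.ext (mul_inv_cancel₀ fun e => hg (by
      rw [show g = 0 from Subtype.ext e, map_zero])))
  by_cases h : gaussRed c f = 0
  · exact Or.inr (key _ (by rw [map_sub, map_one, h, sub_zero]; exact one_ne_zero))
  · exact Or.inl (key _ h)

theorem isLocalHom_gaussRed : IsLocalHom (gaussRed (F := F) c).toRingHom :=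
  ⟨fun g hg => IsUnit.of_mul_eq_one ⟨_, inv_mem_gauss c g.2 hg.ne_zero⟩
    (Subtype.ext (mul_inv_cancel₀ fun e => hg.ne_zero (by
      show gaussRed c g = 0
      rw [show g = 0 from Subtype.ext e, map_zero])))⟩

/-- Every nonzero function can be scaled to a unit of the Gauss ring. -/
theorem exists_scale_gauss {f : ExtField k L F} (hf : f ≠ 0) : ∃ d : L, d ≠ 0 ∧
    algebraMap L (ExtField k L F) d * f ∈ gauss c ∧
    redFun c (algebraMap L (ExtField k L F) d * f) ≠ 0 := by
  obtain ⟨a, b, hb, rfl⟩ := exists_div f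
  have hb' : toExt k L F b ≠ 0 := (map_ne_zero_iff _ toExt_injective).mpr hb
  obtain ⟨d, hd, A, hA0, hA⟩ := exists_scale c (y := a) (fun e => hf (by rw [e]; simp))
  obtain ⟨e, he, B, hB0, hB⟩ := exists_scale c hb
  have h : algebraMap L (ExtField k L F) (d * e⁻¹) * (toExt k L F a / toExt k L F b) *
      intIncl c B = intIncl c A := by
    rw [← hA, ← hB, map_mul, map_inv₀]
    field_simp [(_root_.map_ne_zero (algebraMap L (ExtField k L F))).mpr he, hb']
  refine ⟨d * e⁻¹, mul_ne_zero hd (inv_ne_zero he), ⟨A, B, hB0, h⟩, ?_⟩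
  rw [redFun_eq c hB0 h]
  exact div_ne_zero hA0 hB0

/-- Every function is a quotient of integral functions regular at `Q`. -/
theorem exists_regular_ratio (Q : Place k F) (f : ExtField k L F) :
    ∃ A S : IntExt F c, A ∈ regularAt c Q ∧ S ∈ regularAt c Q ∧ intIncl c S ≠ 0 ∧
      f * intIncl c S = intIncl c A := by
  rcases eq_or_ne f 0 with rfl | hf
  · exact ⟨0, 1, zero_mem _, one_mem _, by rw [map_one]; exact one_ne_zero, by simp⟩
  obtain ⟨d, hd, ⟨A, S, hS, h⟩, hne⟩ := exists_scale_gauss c hf
  obtain ⟨A', S', hA', hS', hS0, h'⟩ := exists_regular_ratio_of_eq c Q hS h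
  have hd' : algebraMap L (ExtField k L F) d ≠ 0 := (_root_.map_ne_zero _).mpr hd
  by_cases hdc : d ∈ c.ring
  · refine ⟨A', (⟨d, hdc⟩ : c.alg) ⊗ₜ 1 * S', hA',
      mul_mem (tmul_mem_regularAt c _ (one_mem _)) hS', ?_, ?_⟩
    · rw [map_mul, intIncl_tmul, map_one, mul_one]
      exact mul_ne_zero hd' (intIncl_ne_zero c hS0)
    · rw [map_mul, intIncl_tmul, map_one, mul_one, ← h']; ring
  · refine ⟨(⟨d⁻¹, c.inv_mem_of_notMem hdc⟩ : c.alg) ⊗ₜ 1 * A', S',
      mul_mem (tmul_mem_regularAt c _ (one_mem _)) hA', hS', intIncl_ne_zero c hS0, ?_⟩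
    rw [map_mul, intIncl_tmul, map_one, mul_one, ← h', map_inv₀]
    field_simp

/-! ### The local ring at a place -/

variable (Q : Place k F)

/-- The local ring at the place `Q` of the special fibre. -/
def locRing : Subalgebra k (ExtField k L F) where
  carrier := {f | ∃ A S : IntExt F c, A ∈ regularAt c Q ∧
    S ∈ regularAt c Q ∧ valueAt Q (intRed c S) ≠ 0 ∧ f * intIncl c S = intIncl c A}
  mul_mem' := by
    rintro f g ⟨A, S, hA, hS, hS0, hf⟩ ⟨B, T, hB, hT, hT0, hg⟩
    refine ⟨A * B, S * T, mul_mem hA hB, mul_mem hS hT, ?_, ?_⟩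
    · rw [map_mul, valueAt_mul _ (intRed_mem_of_regularAt c hS) (intRed_mem_of_regularAt c hT)]
      exact mul_ne_zero hS0 hT0
    · rw [map_mul, map_mul, ← hf, ← hg]; ring
  add_mem' := by
    rintro f g ⟨A, S, hA, hS, hS0, hf⟩ ⟨B, T, hB, hT, hT0, hg⟩
    refine ⟨A * T + B * S, S * T, add_mem (mul_mem hA hT) (mul_mem hB hS), mul_mem hS hT, ?_, ?_⟩
    · rw [map_mul, valueAt_mul _ (intRed_mem_of_regularAt c hS) (intRed_mem_of_regularAt c hT)]
      exact mul_ne_zero hS0 hT0
    · rw [map_add, map_mul, map_mul, map_mul, ← hf, ← hg]; ring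
  algebraMap_mem' a := by
    refine ⟨algebraMap k _ a, 1, Subalgebra.algebraMap_mem _ a, one_mem _, ?_, ?_⟩
    · rw [map_one, ← map_one (algebraMap k F), valueAt_algebraMap]; exact one_ne_zero
    · rw [map_one, mul_one, AlgHom.commutes]

theorem ne_zero_of_valueAt_ne_zero {E K : Type*} [Field K] [IsAlgClosed K] [Field E] [Algebra K E]
    [IsFunctionField1 K E] {v : Place K E} {f : E} (h : valueAt v f ≠ 0) : f ≠ 0 := fun e =>
  h (by rw [e, ← map_zero (algebraMap K E), valueAt_algebraMap])

theorem valueAt_zero' {E K : Type*} [Field K] [IsAlgClosed K] [Field E] [Algebra K E]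
    [IsFunctionField1 K E] (v : Place K E) : valueAt v (0 : E) = 0 := by
  rw [← map_zero (algebraMap K E), valueAt_algebraMap]

theorem locRing_le_gauss : locRing c Q ≤ gauss c := fun _ ⟨A, S, _, _, hS0, h⟩ =>
  ⟨A, S, ne_zero_of_valueAt_ne_zero hS0, h⟩

theorem intIncl_mem_locRing {A : IntExt F c} (hA : A ∈ regularAt c Q) :
    intIncl c A ∈ locRing c Q :=
  ⟨A, 1, hA, one_mem _, by
    rw [map_one, ← map_one (algebraMap k F), valueAt_algebraMap]; exact one_ne_zero,
    by rw [map_one, mul_one]⟩

theorem incF_mem_locRing {f : F} (hf : f ∈ Q.toValuationSubring) :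
    incF k L F f ∈ locRing c Q :=
  intIncl_one_tmul c f ▸ intIncl_mem_locRing c Q (tmul_mem_regularAt c 1 hf)

theorem algebraMap_mem_locRing {x : L} (hx : x ∈ c.ring) :
    algebraMap L (ExtField k L F) x ∈ locRing c Q := by
  simpa [intIncl_tmul] using
    intIncl_mem_locRing c Q (tmul_mem_regularAt c (⟨x, hx⟩ : c.alg) (one_mem _))

theorem redFun_mem {f : ExtField k L F} (hf : f ∈ locRing c Q) :
    redFun c f ∈ Q.toValuationSubring := by
  obtain ⟨A, S, hA, hS, hS0, h⟩ := hf
  have hord : Q.ord (intRed c S) = 0 := by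
    have h1 := ord_nonneg_of_mem' Q (intRed_mem_of_regularAt c hS)
    by_contra hne
    exact hS0 ((valueAt_eq_zero_iff Q (intRed_mem_of_regularAt c hS)).mpr (Or.inr (by omega)))
  rw [redFun_eq c (ne_zero_of_valueAt_ne_zero hS0) h, div_eq_mul_inv]
  exact mul_mem (intRed_mem_of_regularAt c hA)
    ((mem_iff_ord_nonneg' Q).mpr (by rw [Q.ord_inv, hord, neg_zero]))

/-- Elements with nonzero value at `Q` are units. -/
theorem inv_mem_locRing {f : ExtField k L F} (hf : f ∈ locRing c Q)
    (hres : valueAt Q (redFun c f) ≠ 0) : f⁻¹ ∈ locRing c Q := by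
  have hm := redFun_mem c Q hf
  obtain ⟨A, S, hA, hS, hS0, h⟩ := hf
  have hS1 : intRed c S ≠ 0 := ne_zero_of_valueAt_ne_zero hS0
  have e : intRed c A = redFun c f * intRed c S := by
    rw [redFun_eq c hS1 h, div_mul_cancel₀ _ hS1]
  have hA0 : valueAt Q (intRed c A) ≠ 0 := by
    rw [e, valueAt_mul Q hm (intRed_mem_of_regularAt c hS)]
    exact mul_ne_zero hres hS0
  have hf0 : f ≠ 0 := fun e0 =>
    intIncl_ne_zero c (ne_zero_of_valueAt_ne_zero hA0) (by rw [← h, e0, zero_mul])
  exact ⟨S, A, hS, hA, hA0, by rw [← h, ← mul_assoc, inv_mul_cancel₀ hf0, one_mul]⟩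

instance isLocalRing_locRing : IsLocalRing (locRing c Q) := by
  refine IsLocalRing.of_isUnit_or_isUnit_one_sub_self fun f => ?_
  have key : ∀ g : locRing c Q, valueAt Q (redFun c (g : ExtField k L F)) ≠ 0 → IsUnit g :=
    fun g hg => IsUnit.of_mul_eq_one ⟨_, inv_mem_locRing c Q g.2 hg⟩
      (Subtype.ext (mul_inv_cancel₀ fun e => hg (by
        rw [e, ← map_zero (intIncl (F := F) c), redFun_intIncl, map_zero, valueAt_zero'])))
  by_cases h : valueAt Q (redFun c (f : ExtField k L F)) = 0
  · refine Or.inr (key _ ?_)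
    rw [Subalgebra.coe_sub, Subalgebra.coe_one,
      redFun_sub c (one_mem _) (locRing_le_gauss c Q f.2), ← map_one (intIncl (F := F) c),
      redFun_intIncl, map_one, valueAt_sub Q (one_mem _) (redFun_mem c Q f.2), h, sub_zero,
      ← map_one (algebraMap k F), valueAt_algebraMap]
    exact one_ne_zero
  · exact Or.inl (key _ h)

variable {Q} {P : Place L (ExtField k L F)}

/-- Values of the local ring at a place over `Q`. -/
theorem locRing_spec (hP : redPlace c P = Q) {f : ExtField k L F} (hf : f ∈ locRing c Q) :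
    f ∈ P.toValuationSubring ∧ valueAt P f ∈ c.ring ∧
      c.res (valueAt P f) = valueAt Q (redFun c f) := by
  have hm := redFun_mem c Q hf
  obtain ⟨A, S, hA, hS, hS0, h⟩ := hf
  obtain ⟨a1, a2, -, a4⟩ := regularAt_spec c hP hA
  obtain ⟨s1, s2, s3, s4⟩ := regularAt_spec c hP hS
  have hS0' : c.res (valueAt P (intIncl c S)) ≠ 0 := s4 ▸ hS0
  have hv0 : valueAt P (intIncl c S) ≠ 0 := ((c.res_ne_zero_iff_inv_mem s2).mp hS0').1
  have hS1 : intIncl c S ≠ 0 := ne_zero_of_valueAt_ne_zero hv0
  have hord : P.ord (intIncl c S) = 0 := by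
    have h1 := ord_nonneg_of_mem' P s1
    by_contra hne
    exact hv0 ((valueAt_eq_zero_iff P s1).mpr (Or.inr (by omega)))
  have hf' : f = intIncl c A * (intIncl c S)⁻¹ := by
    rw [← h, mul_assoc, mul_inv_cancel₀ hS1, mul_one]
  have hinv : (intIncl c S)⁻¹ ∈ P.toValuationSubring :=
    (mem_iff_ord_nonneg' P).mpr (by rw [P.ord_inv, hord, neg_zero])
  have hfm : f ∈ P.toValuationSubring := hf' ▸ mul_mem a1 hinv
  have hfv : valueAt P f ∈ c.ring := by
    rw [hf', valueAt_mul P a1 hinv, valueAt_inv P hord]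
    exact mul_mem a2 ((c.res_ne_zero_iff_inv_mem s2).mp hS0').2
  refine ⟨hfm, hfv, mul_right_cancel₀ hS0 ?_⟩
  conv_lhs => rw [← s4, ← c.res_mul hfv s2, ← valueAt_mul P hfm s1, h, a4]
  have hS2 : intRed c S ≠ 0 := ne_zero_of_valueAt_ne_zero hS0
  rw [← valueAt_mul Q hm s3, redFun_eq c hS2 h, div_mul_cancel₀ _ hS2]

/-- `f ↦ f - f(P)` on functions of `F`. -/
def dev (P : Place L (ExtField k L F)) (f : F) : ExtField k L F :=
  incF k L F f - algebraMap L (ExtField k L F) (valueAt P (incF k L F f))

theorem dev_mem_locRing (hP : redPlace c P = Q) {f : F} (hf : f ∈ Q.toValuationSubring) :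
    dev P f ∈ locRing c Q :=
  sub_mem (incF_mem_locRing c Q hf)
    (algebraMap_mem_locRing c Q ((mem_redPlace_iff c).mp (hP.symm ▸ hf)).2)

theorem redFun_dev (hP : redPlace c P = Q) {f : F} (hf : f ∈ Q.toValuationSubring) :
    redFun c (dev P f) = f - algebraMap k F (valueAt Q f) := by
  subst hP
  obtain ⟨-, h2⟩ := (mem_redPlace_iff c).mp hf
  rw [dev, redFun_sub c (incF_mem_gauss c f) (algebraMap_mem_gauss c h2), redFun_incF,
    redFun_algebraMap c h2, valueAt_redPlace c hf]

theorem valueAt_dev (hP : redPlace c P = Q) {f : F} (hf : f ∈ Q.toValuationSubring) :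
    valueAt P (dev P f) = 0 := by
  obtain ⟨h1, -⟩ := (mem_redPlace_iff c).mp (hP.symm ▸ hf)
  rw [dev, valueAt_sub P h1 (P.algebraMap_mem' _), valueAt_algebraMap, sub_self]

variable (Q) in
/-- The ideal of functions vanishing at `Q`. -/
def locMax : Ideal (locRing c Q) where
  carrier := {f | valueAt Q (redFun c (f : ExtField k L F)) = 0}
  add_mem' := by
    rintro ⟨f, hf⟩ ⟨g, hg⟩ h1 h2
    show valueAt Q (redFun c (f + g)) = 0
    rw [show redFun c (f + g) = redFun c f + redFun c g from
        map_add (gaussRed c) ⟨f, locRing_le_gauss c Q hf⟩ ⟨g, locRing_le_gauss c Q hg⟩,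
      valueAt_add Q (redFun_mem c Q hf) (redFun_mem c Q hg), h1, h2, add_zero]
  zero_mem' := by
    show valueAt Q (redFun c (0 : ExtField k L F)) = 0
    rw [← map_zero (intIncl (F := F) c), redFun_intIncl, map_zero, valueAt_zero']
  smul_mem' := by
    rintro ⟨f, hf⟩ ⟨g, hg⟩ h
    show valueAt Q (redFun c (f * g)) = 0
    rw [redFun_mul c (locRing_le_gauss c Q hf) (locRing_le_gauss c Q hg),
      valueAt_mul Q (redFun_mem c Q hf) (redFun_mem c Q hg), h, mul_zero]

theorem locMax_le_jacobson : locMax c Q ≤ Ideal.jacobson ⊥ := by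
  rw [IsLocalRing.jacobson_eq_maximalIdeal ⊥ bot_ne_top]
  refine IsLocalRing.le_maximalIdeal fun h => ?_
  have h1 : (1 : locRing c Q) ∈ locMax c Q := h ▸ Submodule.mem_top
  have h2 : valueAt Q (redFun c ((1 : locRing c Q) : ExtField k L F)) = 0 := h1
  rw [Subalgebra.coe_one, ← map_one (intIncl (F := F) c), redFun_intIncl, map_one,
    ← map_one (algebraMap k F), valueAt_algebraMap] at h2
  exact one_ne_zero h2

set_option synthInstance.maxHeartbeats 200000 in
/-- **Division**: the kernel of evaluation at `P` is generated by `π - π(P)`. -/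
theorem exists_mul_dev (hP : redPlace c P = Q) {π : F} (hπ : Q.ord π = 1) {A : IntExt F c}
    (hA : A ∈ regularAt c Q) :
    ∃ b ∈ locRing c Q,
      intIncl c A - algebraMap L (ExtField k L F) (valueAt P (intIncl c A)) = b * dev P π := by
  classical
  have hπ0 : π ≠ 0 := fun e => by simp [e] at hπ
  subst hP
  set Q := redPlace c P with hQdef
  set B := locRing c Q
  haveI : Infinite k := IsAlgClosed.instInfinite
  obtain ⟨o, ho⟩ : ∃ o : Place k F, o ≠ Q := by
    haveI := infinite_place (K := k) (F := F)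
    exact exists_ne Q
  obtain ⟨s, hs⟩ := exists_finset_adjoin_eq_top o
  have hRQ : ∀ f : affRing o, (f : F) ∈ Q.toValuationSubring := fun f => f.2 Q ho.symm
  have hπm : π ∈ Q.toValuationSubring := (mem_iff_ord_nonneg' Q).mpr (by rw [hπ]; exact zero_le_one)
  let M : Submodule B (ExtField k L F) :=
    Submodule.span B (((fun f : affRing o => dev P (f : F)) '' (s : Set (affRing o))))
  let U : Submodule B (ExtField k L F) := Submodule.span B {dev P π}
  have hcst : ∀ (x : L), x ∈ c.ring → ∀ (N : Submodule B (ExtField k L F)) (v : ExtField k L F),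
      v ∈ N → algebraMap L (ExtField k L F) x * v ∈ N := fun x hx N v hv =>
    N.smul_mem (⟨_, algebraMap_mem_locRing c Q hx⟩ : B) hv
  have hfn : ∀ (f : F), f ∈ Q.toValuationSubring → ∀ (N : Submodule B (ExtField k L F))
      (v : ExtField k L F), v ∈ N → incF k L F f * v ∈ N := fun f hf N v hv =>
    N.smul_mem (⟨_, incF_mem_locRing c Q hf⟩ : B) hv
  -- generators
  have hR : ∀ f : affRing o, dev P (f : F) ∈ M := by
    intro f
    have hf : f ∈ Algebra.adjoin k (s : Set (affRing o)) := hs ▸ Algebra.mem_top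
    induction hf using Algebra.adjoin_induction with
    | mem f hf => exact Submodule.subset_span ⟨f, hf, rfl⟩
    | algebraMap a =>
      have : dev P (algebraMap k F a) = 0 := by
        rw [dev, incF_algebraMap, valueAt_algebraMap, sub_self]
      rw [show ((algebraMap k (affRing o) a : affRing o) : F) = algebraMap k F a from rfl, this]
      exact zero_mem _
    | add f g _ _ hf hg =>
      have : dev P ((f : F) + g) = dev P (f : F) + dev P (g : F) := by
        simp only [dev, map_add, valueAt_add P ((mem_redPlace_iff c).mp (hRQ f)).1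
          ((mem_redPlace_iff c).mp (hRQ g)).1]
        ring
      rw [Subalgebra.coe_add, this]
      exact add_mem hf hg
    | mul f g _ _ hf hg =>
      have : dev P ((f : F) * g) = incF k L F (f : F) * dev P (g : F) +
          algebraMap L (ExtField k L F) (valueAt P (incF k L F (g : F))) * dev P (f : F) := by
        simp only [dev, map_mul, valueAt_mul P ((mem_redPlace_iff c).mp (hRQ f)).1
          ((mem_redPlace_iff c).mp (hRQ g)).1]
        ring
      rw [Subalgebra.coe_mul, this]
      exact add_mem (hfn _ (hRQ f) _ _ hg) (hcst _ ((mem_redPlace_iff c).mp (hRQ g)).2 _ _ hf)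
  have hO : ∀ {f : F}, f ∈ Q.toValuationSubring → dev P f ∈ M := by
    intro f hf
    obtain ⟨a, b, hb0, hbo, hab⟩ := exists_affRing_frac ho.symm hf
    have hbi : (b : F)⁻¹ ∈ Q.toValuationSubring :=
      (mem_iff_ord_nonneg' Q).mpr (by rw [Q.ord_inv, hbo, neg_zero])
    have hfP := (mem_redPlace_iff c).mp hf
    have e : dev P f = incF k L F (b : F)⁻¹ * (dev P (a : F) -
        algebraMap L (ExtField k L F) (valueAt P (incF k L F f)) * dev P (b : F)) := by
      simp only [dev, ← hab, map_mul, map_inv₀,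
        valueAt_mul P ((mem_redPlace_iff c).mp (hRQ b)).1 hfP.1]
      field_simp [(_root_.map_ne_zero (incF k L F)).mpr hb0]
      ring
    rw [e]
    exact hfn _ hbi _ _ (sub_mem (hR a) (hcst _ hfP.2 _ _ (hR b)))
  have hMU : M ≤ U := by
    refine Submodule.le_of_le_smul_of_le_jacobson_bot (I := locMax c Q)
      (Submodule.fg_span (s.finite_toSet.image _)) (locMax_le_jacobson c)
      (Submodule.span_le.mpr ?_)
    rintro _ ⟨f, -, rfl⟩
    set q := valueAt Q (f : F) with hq
    have hfq : (f : F) - algebraMap k F q ∈ Q.toValuationSubring :=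
      sub_mem (hRQ f) (Q.algebraMap_mem' q)
    have ha : ((f : F) - algebraMap k F q) / π ∈ Q.toValuationSubring := by
      rcases valueAt_spec Q (hRQ f) with h | h <;> rw [← hq] at h
      · rw [show (f : F) - algebraMap k F q = 0 from sub_eq_zero.mpr h, zero_div]
        exact zero_mem _
      · refine (mem_iff_ord_nonneg' Q).mpr ?_
        rw [ord_div Q (fun e => by rw [show (f : F) - algebraMap k F q = 0 from e] at h; simp at h)
          hπ0, hπ]
        omega
    set a := ((f : F) - algebraMap k F q) / π with hadef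
    have hπP := (mem_redPlace_iff c).mp hπm
    have haP := (mem_redPlace_iff c).mp ha
    have e : dev P (f : F) = incF k L F a * dev P π +
        algebraMap L (ExtField k L F) (valueAt P (incF k L F π)) * dev P a := by
      have hfe : (f : F) = a * π + algebraMap k F q := by
        rw [hadef, div_mul_cancel₀ _ hπ0, sub_add_cancel]
      simp only [dev]
      conv_lhs => rw [hfe]
      simp only [map_add, map_mul, incF_algebraMap,
        valueAt_add P (mul_mem haP.1 hπP.1) (P.algebraMap_mem' _), valueAt_algebraMap,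
        valueAt_mul P haP.1 hπP.1]
      ring
    show dev P (f : F) ∈ U ⊔ locMax c Q • M
    rw [e]
    refine Submodule.add_mem_sup (hfn _ ha _ _ (Submodule.mem_span_singleton_self _))
      (Submodule.smul_mem_smul (r := (⟨_, algebraMap_mem_locRing c Q hπP.2⟩ : B)) ?_ (hO ha))
    show valueAt Q (redFun c (algebraMap L (ExtField k L F) (valueAt P (incF k L F π)))) = 0
    rw [redFun_algebraMap c hπP.2, valueAt_algebraMap, ← valueAt_redPlace c hπm,
      valueAt_eq_zero_iff Q hπm]
    exact Or.inr (by rw [hπ]; norm_num)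
  suffices h : intIncl c A - algebraMap L (ExtField k L F) (valueAt P (intIncl c A)) ∈ U by
    obtain ⟨b, hb⟩ := Submodule.mem_span_singleton.mp h
    exact ⟨b, b.2, hb.symm⟩
  obtain ⟨y, rfl⟩ := hA
  induction y using TensorProduct.induction_on with
  | zero =>
    simp only [map_zero]
    rw [← map_zero (algebraMap L (ExtField k L F)), valueAt_algebraMap, sub_self]
    exact zero_mem _
  | tmul x f =>
    change intIncl c (x ⊗ₜ (f : F)) -
      algebraMap L (ExtField k L F) (valueAt P (intIncl c (x ⊗ₜ (f : F)))) ∈ U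
    rw [intIncl_tmul, valueAt_mul P (P.algebraMap_mem' _) ((mem_redPlace_iff c).mp f.2).1,
      valueAt_algebraMap, map_mul, ← mul_sub]
    exact hcst _ x.2 _ _ (hMU (hO f.2))
  | add y z hy hz =>
    simp only [map_add] at *
    have h1 := (regularAt_spec c (P := P) rfl (A := _) ⟨y, rfl⟩).1
    have h2 := (regularAt_spec c (P := P) rfl (A := _) ⟨z, rfl⟩).1
    rw [valueAt_add P h1 h2, map_add, add_sub_add_comm]
    exact add_mem hy hz

end FermatAgent.AbVar.Engine
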