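import Fermat.Agent.AbVar.Engine.Descent

/-!
# The theorem of the cube for degrees on a curve
-/

set_option autoImplicit false
set_option linter.unusedSectionVars false
set_option linter.style.haveILetI false

noncomputable section

universe u

open AlgebraicCurve TensorProduct Polynomial FermatAgent.AbVar.AV

namespace FermatAgent.AbVar.Engine

open FermatAgent.Curve FermatAgent.Curve.RR

section Disjoint

variable {k L₁ F : Type u} [Field k] [IsAlgClosed k] [Field L₁] [IsAlgClosed L₁] [Algebra k L₁]
  [Field F] [Algebra k F] [IsFunctionField1 k F]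

/-- An element of `L₁` algebraic over the independent copy of `F` is a constant. -/
theorem exists_const_of_algebraic {b : L₁} {q : F[X]} (hq : q ≠ 0)
    (h : q.eval₂ (incF k L₁ F).toRingHom (algebraMap L₁ (ExtField k L₁ F) b) = 0) :
    ∃ c : k, algebraMap k L₁ c = b := by
  by_contra hb
  push Not at hb
  have htr : Transcendental k b := fun halg => by
    obtain ⟨c, hc⟩ := minpoly.mem_range_of_degree_eq_one k b
      (IsAlgClosed.degree_eq_one_of_irreducible k (minpoly.irreducible halg.isIntegral))
    exact hb c hc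
  have hli : LinearIndependent k (fun n : ℕ => b ^ n) := by
    have h := (Polynomial.basisMonomials k).linearIndependent.map'
      (Polynomial.aeval b).toLinearMap
      (LinearMap.ker_eq_bot.mpr (transcendental_iff_injective.mp htr))
    simpa [Function.comp_def] using h
  have hli' : LinearIndependent F (fun n : ℕ => (1 : F) ⊗ₜ[k] (b ^ n)) :=
    Module.Flat.linearIndependent_one_tmul hli
  rw [eval₂_eq_sum_range] at h
  have h2 : ∑ n ∈ Finset.range (q.natDegree + 1), (b ^ n) ⊗ₜ[k] q.coeff n = 0 := by
    refine toExt_injective (k := k) (L := L₁) (F := F) ?_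
    rw [map_sum, map_zero, ← h]
    refine Finset.sum_congr rfl fun n _ => ?_
    rw [toExt_tmul, map_pow, mul_comm]
    rfl
  have h3 : ∑ n ∈ Finset.range (q.natDegree + 1), q.coeff n • ((1 : F) ⊗ₜ[k] (b ^ n)) = 0 := by
    have h4 := congrArg (Algebra.TensorProduct.comm k L₁ F) h2
    rw [map_sum, map_zero] at h4
    refine Eq.trans (Finset.sum_congr rfl fun n _ => ?_) h4
    rw [Algebra.TensorProduct.comm_tmul, TensorProduct.smul_tmul', smul_eq_mul, mul_one]
  refine hq (Polynomial.ext fun n => ?_)
  rw [coeff_zero]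
  by_cases hn : n ∈ Finset.range (q.natDegree + 1)
  · exact linearIndependent_iff'.mp hli' _ (fun n => q.coeff n) h3 n hn
  · exact coeff_eq_zero_of_natDegree_lt (by simp at hn; omega)

variable {L : Type u} [Field L] [Algebra k L] [Algebra L₁ L] [IsScalarTower k L₁ L]

/-- An element algebraic over a copy of `F` inside `L₁` comes from `L₁`. -/
theorem mem_range_of_algebraic (i : F →ₐ[k] L₁) {a : L} {p : F[X]} (hp : p ≠ 0)
    (h : p.eval₂ ((algebraMap L₁ L).comp i.toRingHom) a = 0) :
    ∃ b : L₁, algebraMap L₁ L b = a := by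
  have halg : IsAlgebraic L₁ a := ⟨p.map i.toRingHom,
    (Polynomial.map_ne_zero_iff i.toRingHom.injective).mpr hp,
    by rw [aeval_def, eval₂_map]; exact h⟩
  exact minpoly.mem_range_of_degree_eq_one L₁ a
    (IsAlgClosed.degree_eq_one_of_irreducible L₁ (minpoly.irreducible halg.isIntegral))

end Disjoint

variable {K : Type u} [Field K] {G : AV K}
  {k F : Type u} [Field k] [IsAlgClosed k] [Field F] [Algebra k F] [IsFunctionField1 k F]
  [Algebra K k] [Algebra K F] [IsScalarTower K k F]

/-- The cube cocycle has degree zero on the curve. -/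
theorem finsum_ord_tauAt (T : TriCocycle G) {x y z : G.Pt F} {v₀ : Place k F}
    (hx : SpecialisesTo x v₀ 0) (hy : SpecialisesTo y v₀ 0) (hz : SpecialisesTo z v₀ 0) :
    ∑ᶠ v : Place k F, v.ord (tauAt T x y z v : F) = 0 := by
  classical
  let L₁ := AlgebraicClosure F
  let M₁ := ExtField k L₁ F
  let L := AlgebraicClosure M₁
  let e₁ : F →ₐ[k] L₁ := IsScalarTower.toAlgHom k F L₁
  let i₁ : F →ₐ[k] L := ((IsScalarTower.toAlgHom k M₁ L).comp
    (IsScalarTower.toAlgHom k L₁ M₁)).comp e₁
  let i₂ : F →ₐ[k] L := (IsScalarTower.toAlgHom k M₁ L).comp (incF k L₁ F)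
  have hinj : Function.Injective (Algebra.TensorProduct.productMap i₁ i₂) := by
    have e : Algebra.TensorProduct.productMap i₁ i₂ = (IsScalarTower.toAlgHom k M₁ L).comp
        (((toExt k L₁ F).restrictScalars k).comp
          (Algebra.TensorProduct.map e₁ (AlgHom.id k F))) := by
      refine Algebra.TensorProduct.ext' fun a b => ?_
      show _ = algebraMap M₁ L (toExt k L₁ F (e₁ a ⊗ₜ b))
      rw [Algebra.TensorProduct.productMap_apply_tmul, toExt_tmul, map_mul]
      rfl
    rw [e]
    exact (algebraMap M₁ L).injective.comp (toExt_injective.comp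
      (Module.Flat.rTensor_preserves_injective_linearMap (M := F) e₁.toLinearMap
        e₁.toRingHom.injective))
  have hdisj : ∀ a : L, (∃ p : F[X], p ≠ 0 ∧ p.eval₂ i₁.toRingHom a = 0) →
      (∃ p : F[X], p ≠ 0 ∧ p.eval₂ i₂.toRingHom a = 0) → ∃ b : k, algebraMap k L b = a := by
    rintro a ⟨p, hp, hpa⟩ ⟨q, hq, hqa⟩
    haveI : IsScalarTower k L₁ L := IsScalarTower.of_algebraMap_eq fun c => by
      rw [IsScalarTower.algebraMap_apply L₁ M₁ L, ← IsScalarTower.algebraMap_apply k L₁ M₁,
        ← IsScalarTower.algebraMap_apply k M₁ L]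
    obtain ⟨b, rfl⟩ := mem_range_of_algebraic (L := L) e₁ (a := a) hp (by
      rw [IsScalarTower.algebraMap_eq L₁ M₁ L]; exact hpa)
    have h1 : q.eval₂ (incF k L₁ F).toRingHom (algebraMap L₁ M₁ b) = 0 := by
      refine (algebraMap M₁ L).injective ?_
      rw [map_zero, Polynomial.hom_eval₂, ← IsScalarTower.algebraMap_apply L₁ M₁ L]
      exact hqa
    obtain ⟨c, hc⟩ := exists_const_of_algebraic hq h1
    exact ⟨c, by rw [IsScalarTower.algebraMap_apply k L₁ L, hc]⟩
  obtain ⟨ω, hω0, hω⟩ := exists_factor_on_closure T hx hy hz i₁ i₂ hdisj hinj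
    (IsScalarTower.toAlgHom k F (AlgebraicClosure F))
  obtain ⟨n, N, hn, -, hN⟩ := exists_descent T x y z ω hω0 hω
  have hsupp : (Function.support fun v : Place k F => v.ord (tauAt T x y z v : F)) ⊆
      ↑(divFn (K := k) N).support := fun v hv => by
    rw [Function.mem_support] at hv
    rw [Finset.mem_coe, Finsupp.mem_support_iff, divFn_apply]
    intro h
    have := hN v
    rw [h, add_zero, mul_eq_zero] at this
    exact hv (this.resolve_left (by exact_mod_cast hn.ne'))
  rw [finsum_eq_sum_of_support_subset _ hsupp]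
  have hdeg : ∑ v ∈ (divFn (K := k) N).support, v.ord N = 0 := by
    have h := degree_divFn (K := k) N
    rw [degree_eq_sum, Finsupp.sum] at h
    rw [← h]
    exact Finset.sum_congr rfl fun v _ => (divFn_apply N v).symm
  have hsum : (n : ℤ) * ∑ v ∈ (divFn (K := k) N).support, v.ord (tauAt T x y z v : F) = 0 := by
    rw [Finset.mul_sum, ← neg_eq_zero, ← Finset.sum_neg_distrib, ← hdeg]
    exact Finset.sum_congr rfl fun v _ => by linarith [hN v]
  exact (mul_eq_zero.mp hsum).resolve_left (by exact_mod_cast hn.ne')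

/-- The pullback of a line bundle along a point has finite support. -/
theorem ord_tauAt_cube (B : G.LineBundle) (x y z : G.Pt F) (v : Place k F) :
    v.ord (tauAt B.cube x y z v : F) =
      ordAt B (x + y + z) v + ordAt B x v + ordAt B y v + ordAt B z v -
        (ordAt B (x + y) v + ordAt B (x + z) v + ordAt B (y + z) v) := by
  haveI := (isVal_placeAlg (K := K) v).isLocalRing
  have e : tauAt B.cube x y z v = B.val (isVal_placeAlg v) (x + y + z) *
      B.val (isVal_placeAlg v) x * B.val (isVal_placeAlg v) y * B.val (isVal_placeAlg v) z /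
      (B.val (isVal_placeAlg v) (x + y) * B.val (isVal_placeAlg v) (x + z) *
        B.val (isVal_placeAlg v) (y + z)) := by
    simp only [LineBundle.val, lift_add]
    rfl
  have h0 : ∀ u : Fˣ, (u : F) ≠ 0 := fun u => Units.ne_zero u
  rw [e, Units.val_div_eq_div_val, ord_div v (h0 _) (h0 _)]
  simp only [Units.val_mul]
  repeat rw [v.ord_mul (by simp) (by simp)]
  rfl

/-- **The theorem of the cube for degrees.** -/
theorem degreeCube (G : AV K) : DegreeCube G := by
  intro B k F _ _ _ _ _ _ _ _ v₀ x y z hx hy hz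
  have h := finsum_ord_tauAt (G := G) B.cube hx hy hz
  have hf := fun P : G.Pt F => finite_support_ordAt (k := k) B P
  simp only [ord_tauAt_cube] at h
  have h1 := (hf (x + y + z)).union (hf x) |>.union (hf y) |>.union (hf z) |>.union (hf (x + y))
    |>.union (hf (x + z)) |>.union (hf (y + z))
  have hs : ∀ P ∈ ({x + y + z, x, y, z, x + y, x + z, y + z} : Set (G.Pt F)),
      degAlong k B P = ∑ v ∈ h1.toFinset, ordAt B P v := fun P hP => by
    refine finsum_eq_sum_of_support_subset _ fun v hv => ?_
    simp only [Set.Finite.coe_toFinset, Set.mem_union]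
    simp only [Set.mem_insert_iff, Set.mem_singleton_iff] at hP
    rcases hP with rfl | rfl | rfl | rfl | rfl | rfl | rfl <;> simp [hv]
  rw [finsum_eq_sum_of_support_subset _ (s := h1.toFinset) (fun v hv => by
    rw [Set.Finite.coe_toFinset]
    by_contra hn
    simp only [Set.mem_union, Function.mem_support, not_or, not_not] at hn
    rw [Function.mem_support] at hv
    exact hv (by omega))] at h
  rw [hs _ (by simp), hs _ (by simp), hs _ (by simp), hs _ (by simp), hs _ (by simp),
    hs _ (by simp), hs _ (by simp)]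
  simp only [Finset.sum_add_distrib, Finset.sum_sub_distrib] at h
  linarith

end FermatAgent.AbVar.Engine
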