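import Fermat.Agent.AbVar.Engine.Extend
import Fermat.Agent.AbVar.Engine.Count

/-!
# Rational valuations

Valuation subalgebras with residue field `k`: existence, the reduction of constants they define,
and the local ring of the special fibre they dominate.
-/

set_option autoImplicit false
set_option linter.unusedSectionVars false
set_option linter.style.haveILetI false

noncomputable section

universe u

open AlgebraicCurve TensorProduct FermatAgent.AbVar.AV

namespace FermatAgent.AbVar.Engine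

open FermatAgent.Curve FermatAgent.Curve.RR

section Field

variable {k M : Type u} [Field k] [Field M] [Algebra k M]

theorem inv_mem_of_apply_ne_zero {Ω : Type u} [Field Ω] [Algebra k Ω] {V : Subalgebra k M}
    (φ : V →ₐ[k] Ω) (hloc : IsLocalHom φ.toRingHom) {x : V} (hx : φ x ≠ 0) :
    (x : M)⁻¹ ∈ V := by
  obtain ⟨y, hy⟩ := isUnit_iff_exists_inv.mp
    (hloc.map_nonunit x (isUnit_iff_ne_zero.mpr hx))
  rw [inv_eq_of_mul_eq_one_right (show (x : M) * (y : M) = 1 from congrArg Subtype.val hy)]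
  exact y.2

/-- A valuation subalgebra contains one with residue field `k`, with prescribed values on a
subalgebra. -/
theorem exists_rational_le [IsAlgClosed k] {V : Subalgebra k M} (hV : IsVal V)
    (R : Subalgebra k M) (hR : R ≤ V) (ψ : R →ₐ[k] k)
    (hψ : ∀ r : R, ¬ IsUnit (⟨(r : M), hR r.2⟩ : V) → ψ r = 0) :
    ∃ (V' : Subalgebra k M) (_ : V' ≤ V) (hle : R ≤ V') (φ : V' →ₐ[k] k), IsVal V' ∧
      IsLocalHom φ.toRingHom ∧ ∀ r : R, φ ⟨(r : M), hle r.2⟩ = ψ r := by
  haveI := hV.isLocalRing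
  let π : V →ₐ[k] IsLocalRing.ResidueField V := IsScalarTower.toAlgHom k V _
  have hπ : ∀ x : V, π x = 0 ↔ ¬ IsUnit x := fun x => IsLocalRing.residue_eq_zero_iff x
  let i : R →ₐ[k] IsLocalRing.ResidueField V := π.comp (Subalgebra.inclusion hR)
  have hker : RingHom.ker i.rangeRestrict ≤ RingHom.ker ψ := fun r hr =>
    hψ r ((hπ _).mp (congrArg Subtype.val (RingHom.mem_ker.mp hr)))
  let ψ₁ : i.range →ₐ[k] k :=
    (i.rangeRestrict).liftOfSurjective (AlgHom.rangeRestrict_surjective i) ψ hker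
  obtain ⟨V₁, hle₁, φ₁, hval₁, hloc₁, hext₁⟩ := exists_extension i.range ψ₁
  let U : Subalgebra k V := V₁.comap π
  let V' : Subalgebra k M := U.map V.val
  have hmem : ∀ x : M, x ∈ V' → ∃ h : x ∈ V, π ⟨x, h⟩ ∈ V₁ := by
    rintro _ ⟨x, hx, rfl⟩
    exact ⟨x.2, hx⟩
  have hV'V : V' ≤ V := fun x hx => (hmem x hx).1
  have hle : R ≤ V' := fun x hx => ⟨⟨x, hR hx⟩, hle₁ ⟨⟨x, hx⟩, rfl⟩, rfl⟩
  let j : V' →ₐ[k] V₁ := (π.comp (Subalgebra.inclusion hV'V)).codRestrict V₁
    fun x => (hmem x.1 x.2).2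
  refine ⟨V', hV'V, hle, φ₁.comp j, fun x => ?_, ⟨fun x hx => ?_⟩, fun r => ?_⟩
  · rcases em (x ∈ V) with hx | hx
    · by_cases h1 : π ⟨x, hx⟩ ∈ V₁
      · exact Or.inl ⟨⟨x, hx⟩, h1, rfl⟩
      · have hu : IsUnit (⟨x, hx⟩ : V) := by
          by_contra hu
          exact h1 ((hπ _).mpr hu ▸ zero_mem V₁)
        obtain ⟨y, hy⟩ := isUnit_iff_exists_inv.mp hu
        refine Or.inr ⟨y, ?_,
          (inv_eq_of_mul_eq_one_right (show x * (y : M) = 1 from congrArg Subtype.val hy)).symm⟩
        show π y ∈ V₁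
        rw [← inv_eq_of_mul_eq_one_right (show π ⟨x, hx⟩ * π y = 1 by rw [← map_mul, hy, map_one])]
        exact (hval₁ _).resolve_left h1
    · have hx' : x⁻¹ ∈ V := (hV x).resolve_left hx
      refine Or.inr ⟨⟨x⁻¹, hx'⟩, ?_, rfl⟩
      show π _ ∈ V₁
      rw [(hπ _).mpr fun hu => hx ?_]
      · exact zero_mem _
      · obtain ⟨y, hy⟩ := isUnit_iff_exists_inv.mp hu
        rw [← inv_inv x,
          inv_eq_of_mul_eq_one_right (show x⁻¹ * (y : M) = 1 from congrArg Subtype.val hy)]
        exact y.2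
  · have h1 : φ₁ (j x) ≠ 0 := hx.ne_zero
    have h2 := inv_mem_of_apply_ne_zero φ₁ hloc₁ h1
    have hu : IsUnit (Subalgebra.inclusion hV'V x) := by
      by_contra hu
      refine h1 ?_
      rw [show j x = 0 from Subtype.ext ((hπ _).mpr hu), map_zero]
    obtain ⟨y, hy⟩ := isUnit_iff_exists_inv.mp hu
    have hyV : (y : M) ∈ V' := by
      refine ⟨y, ?_, rfl⟩
      show π y ∈ V₁
      rw [← inv_eq_of_mul_eq_one_right (show π (Subalgebra.inclusion hV'V x) * π y = 1 by
        rw [← map_mul, hy, map_one])]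
      exact h2
    have hy' : (x : M) * (y : M) = 1 := congrArg Subtype.val hy
    exact IsUnit.of_mul_eq_one (⟨(y : M), hyV⟩ : V') (Subtype.ext hy')
  · have h3 : φ₁ (j ⟨(r : M), hle r.2⟩) = ψ₁ (i.rangeRestrict r) :=
      (congrArg φ₁ (Subtype.ext rfl)).trans (hext₁ (i.rangeRestrict r))
    exact h3.trans (AlgHom.liftOfSurjective_apply _ _ _ _ r)

/-- A valuation subalgebra contains one with residue field `k`. -/
theorem exists_rational_le' [IsAlgClosed k] {V : Subalgebra k M} (hV : IsVal V) :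
    ∃ (V' : Subalgebra k M) (_ : V' ≤ V) (φ : V' →ₐ[k] k), IsVal V' ∧
      IsLocalHom φ.toRingHom := by
  obtain ⟨V', h1, -, φ, h2, h3, -⟩ := exists_rational_le hV ⊥ bot_le
    (Algebra.botEquiv k M).toAlgHom fun r hr => by
      obtain ⟨a, ha⟩ := Algebra.mem_bot.mp r.2
      have hr' : r = algebraMap k _ a := Subtype.ext ha.symm
      rw [hr', AlgHom.commutes, Algebra.algebraMap_self, RingHom.id_apply]
      by_contra ha0
      refine hr ?_
      have e : (⟨(r : M), (bot_le : (⊥ : Subalgebra k M) ≤ V) r.2⟩ : V) = algebraMap k V a :=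
        Subtype.ext ha.symm
      rw [e]
      exact (isUnit_iff_ne_zero.mpr ha0).map (algebraMap k V)
  exact ⟨V', h1, φ, h2, h3⟩

end Field

variable {k L F : Type u} [Field k] [IsAlgClosed k] [Field L] [IsAlgClosed L] [Algebra k L]
  [Field F] [Algebra k F] [IsFunctionField1 k F]

/-- The reduction of constants defined by a rational valuation. -/
def constRedOfHom {W : Subalgebra k L} (hW : IsVal W) (φ : W →ₐ[k] k) : ConstRed k L where
  ring := hW.toValuationSubring
  algebraMap_mem := W.algebraMap_mem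
  exists_sub x hx := by
    refine ⟨φ ⟨x, hx⟩, ?_⟩
    set a := φ ⟨x, hx⟩
    have hd : x - algebraMap k L a ∈ W := sub_mem (show x ∈ W from hx) (W.algebraMap_mem a)
    by_contra hn
    rw [ValuationSubring.mem_nonunits_iff, not_lt] at hn
    have h0 : φ (⟨_, hd⟩ : W) = 0 := by
      rw [show (⟨_, hd⟩ : W) = (⟨x, hx⟩ : W) - algebraMap k W a from rfl, map_sub,
        AlgHom.commutes, Algebra.algebraMap_self, RingHom.id_apply, sub_self]
    have hne : x - algebraMap k L a ≠ 0 := fun e => by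
      rw [e, map_zero] at hn; exact not_lt.mpr hn zero_lt_one
    have hi : (x - algebraMap k L a)⁻¹ ∈ W := by
      refine (ValuationSubring.valuation_le_one_iff hW.toValuationSubring _).mp ?_
      rw [map_inv₀]
      exact inv_le_one_of_one_le₀ hn
    have h1 : φ (⟨_, hd⟩ : W) * φ ⟨_, hi⟩ = 1 := by
      rw [← map_mul, ← map_one φ]
      exact congrArg φ (Subtype.ext (mul_inv_cancel₀ hne))
    rw [h0, zero_mul] at h1
    exact zero_ne_one h1

theorem res_constRedOfHom {W : Subalgebra k L} (hW : IsVal W) (φ : W →ₐ[k] k)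
    (hφ : IsLocalHom φ.toRingHom) (x : W) : (constRedOfHom hW φ).res (x : L) = φ x := by
  have hs := (constRedOfHom hW φ).res_spec (x := (x : L)) x.2
  set a := (constRedOfHom hW φ).res (x : L)
  by_contra hne
  have hy : φ (x - algebraMap k W a) ≠ 0 := by
    rw [map_sub, AlgHom.commutes, Algebra.algebraMap_self, RingHom.id_apply]
    exact sub_ne_zero.mpr (Ne.symm hne)
  have hi := inv_mem_of_apply_ne_zero φ hφ hy
  rw [ValuationSubring.mem_nonunits_iff] at hs
  have h1 : (constRedOfHom hW φ).ring.valuation ((x : L) - algebraMap k L a)⁻¹ ≤ 1 :=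
    (ValuationSubring.valuation_le_one_iff _ _).mpr hi
  rw [map_inv₀] at h1
  have h0 : (constRedOfHom hW φ).ring.valuation ((x : L) - algebraMap k L a) ≠ 0 :=
    (Valuation.ne_zero_iff _).mpr fun e => hy (by
      rw [show x - algebraMap k W a = 0 from Subtype.ext e, map_zero])
  exact not_lt.mpr ((inv_le_one₀ (zero_lt_iff.mpr h0)).mp h1) hs

/-- A rational valuation of the extended function field dominates the local ring at a place of
the special fibre. -/
theorem exists_centre {V : Subalgebra k (ExtField k L F)} (hV : IsVal V) (φ : V →ₐ[k] k)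
    (hφ : IsLocalHom φ.toRingHom) :
    ∃ (c : ConstRed k L) (Q : Place k F) (hle : locRing c Q ≤ V),
      IsLocalHom (Subalgebra.inclusion hle).toRingHom := by
  let iL : L →ₐ[k] ExtField k L F := IsScalarTower.toAlgHom k L _
  set W := V.comap iL with hWdef
  have hW : IsVal W := fun x => by
    rcases hV (iL x) with h | h
    · exact Or.inl h
    · refine Or.inr (show iL x⁻¹ ∈ V from ?_)
      rwa [map_inv₀]
  let jW : W →ₐ[k] V := (iL.comp W.val).codRestrict V fun x => x.2
  have hlocW : IsLocalHom (φ.comp jW).toRingHom := ⟨fun x hx => by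
    have h0 : φ (jW x) ≠ 0 := hx.ne_zero
    have h1 : iL (x : L)⁻¹ ∈ V := by
      rw [map_inv₀]; exact inv_mem_of_apply_ne_zero φ hφ h0
    exact IsUnit.of_mul_eq_one (⟨(x : L)⁻¹, h1⟩ : W) (Subtype.ext (mul_inv_cancel₀ fun e => h0 (by
      rw [show x = 0 from Subtype.ext e, map_zero, map_zero])))⟩
  set c := constRedOfHom hW (φ.comp jW) with hc
  let B : ValuationSubring F := hV.toValuationSubring.comap (incF k L F).toRingHom
  have hmemB : ∀ f : F, f ∈ B ↔ incF k L F f ∈ V := fun f => Iff.rfl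
  have hkB : ∀ a : k, algebraMap k F a ∈ B := fun a => by
    rw [hmemB, AlgHom.commutes]; exact V.algebraMap_mem a
  have hB : B ≠ ⊤ := by
    intro htop
    obtain ⟨t, ht, -⟩ := IsFunctionField1.exists_finite (K := k) (F := F)
    let jF : F →ₐ[k] V := (incF k L F).codRestrict V fun f =>
      (hmemB f).mp (htop.symm ▸ ValuationSubring.mem_top f)
    exact transcendental_iff_notMem_range.mp ht ⟨φ (jF t), (φ.comp jF).toRingHom.injective (by
      show φ (jF (algebraMap k F _)) = φ (jF t)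
      rw [AlgHom.commutes, AlgHom.commutes, Algebra.algebraMap_self, RingHom.id_apply])⟩
  set Q := placeOfValuationSubring B hkB hB with hQdef
  have hQ : ∀ f : F, f ∈ Q.toValuationSubring ↔ incF k L F f ∈ V := fun f => Iff.rfl
  let jQ : valAlg Q →ₐ[k] V := ((incF k L F).comp (valAlg Q).val).codRestrict V
    fun f => (hQ (f : F)).mp f.2
  have hval : ∀ f : valAlg Q, φ (jQ f) = valueAt Q (f : F) := by
    intro f
    rcases valueAt_spec Q (show (f : F) ∈ Q.toValuationSubring from f.2) with h | h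
    · have e : f = algebraMap k _ (valueAt Q (f : F)) := Subtype.ext h
      conv_lhs => rw [e, AlgHom.commutes, AlgHom.commutes, Algebra.algebraMap_self, RingHom.id_apply]
    · set a := valueAt Q (f : F)
      by_contra hne
      have hy : φ (jQ (f - algebraMap k _ a)) ≠ 0 := by
        rw [map_sub, map_sub, AlgHom.commutes, AlgHom.commutes, Algebra.algebraMap_self,
          RingHom.id_apply]
        exact sub_ne_zero.mpr hne
      have h1 : incF k L F ((f : F) - algebraMap k F a)⁻¹ ∈ V := by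
        rw [map_inv₀]; exact inv_mem_of_apply_ne_zero φ hφ hy
      have h2 := ord_nonneg_of_mem' Q ((hQ _).mpr h1)
      rw [Q.ord_inv] at h2
      omega
  have hreg : ∀ A ∈ regularAt c Q, ∃ hA : intIncl c A ∈ V,
      φ ⟨_, hA⟩ = valueAt Q (intRed c A) := by
    rintro _ ⟨y, rfl⟩
    induction y using TensorProduct.induction_on with
    | zero =>
      refine ⟨by simp only [map_zero]; exact zero_mem _, ?_⟩
      simp only [map_zero, valueAt_zero']
      exact map_zero φ
    | tmul x f =>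
      have hx : (x : L) ∈ W := x.2
      change ∃ hA : intIncl c (x ⊗ₜ (f : F)) ∈ V,
        φ ⟨_, hA⟩ = valueAt Q (intRed c (x ⊗ₜ (f : F)))
      refine ⟨by rw [intIncl_tmul]; exact mul_mem hx ((hQ _).mp f.2), ?_⟩
      rw [intRed_tmul, Algebra.smul_def, valueAt_mul Q (Q.algebraMap_mem' _) f.2,
        valueAt_algebraMap, ← hval f, res_constRedOfHom hW (φ.comp jW) hlocW ⟨(x : L), hx⟩,
        AlgHom.comp_apply, ← map_mul]
      exact congrArg φ (Subtype.ext (intIncl_tmul c x (f : F)))
    | add y z hy hz =>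
      obtain ⟨a1, a2⟩ := hy
      obtain ⟨b1, b2⟩ := hz
      refine ⟨by rw [map_add, map_add]; exact add_mem a1 b1, ?_⟩
      simp only [map_add]
      rw [valueAt_add Q (intRed_mem_of_regularAt c ⟨y, rfl⟩) (intRed_mem_of_regularAt c ⟨z, rfl⟩),
        ← a2, ← b2]
      refine Eq.trans ?_ (map_add φ _ _)
      exact congrArg φ (Subtype.ext rfl)
  have hle : locRing c Q ≤ V := by
    rintro f ⟨A, S, hA, hS, hS0, he⟩
    obtain ⟨hAV, -⟩ := hreg A hA
    obtain ⟨hSV, hS1⟩ := hreg S hS
    have hinv := inv_mem_of_apply_ne_zero φ hφ (x := ⟨_, hSV⟩) (hS1 ▸ hS0)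
    rw [show f = intIncl c A * (intIncl c S)⁻¹ by
      rw [← he, mul_inv_cancel_right₀ (intIncl_ne_zero c (ne_zero_of_valueAt_ne_zero hS0))]]
    exact mul_mem hAV hinv
  refine ⟨c, Q, hle, ⟨fun f hf => ?_⟩⟩
  by_contra hnu
  have hv : valueAt Q (redFun c (f : ExtField k L F)) = 0 := by
    by_contra hne
    exact hnu (IsUnit.of_mul_eq_one ⟨_, inv_mem_locRing c Q f.2 hne⟩
      (Subtype.ext (mul_inv_cancel₀ fun e => hne (by
        rw [e, ← map_zero (intIncl (F := F) c), redFun_intIncl, map_zero, valueAt_zero']))))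
  obtain ⟨A, S, hA, hS, hS0, he⟩ := f.2
  obtain ⟨hAV, hA1⟩ := hreg A hA
  obtain ⟨hSV, hS1⟩ := hreg S hS
  have h1 : φ ⟨_, hle f.2⟩ * φ ⟨_, hSV⟩ = φ ⟨_, hAV⟩ := by
    rw [← map_mul]; exact congrArg φ (Subtype.ext he)
  have hS2 : intRed c S ≠ 0 := ne_zero_of_valueAt_ne_zero hS0
  have hA2 : valueAt Q (intRed c A) = 0 := by
    rw [← div_mul_cancel₀ (intRed c A) hS2, ← redFun_eq c hS2 he,
      valueAt_mul Q (redFun_mem c Q f.2) (intRed_mem_of_regularAt c hS), hv, zero_mul]
  rw [hA1, hA2, hS1] at h1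
  exact (hf.map φ).ne_zero ((mul_eq_zero.mp h1).resolve_right hS0)

end FermatAgent.AbVar.Engine
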