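import Fermat.Agent.AbVar.Engine.Tau
import Fermat.Agent.AbVar.Engine.Rational

/-!
# Rigidity

For a point `x` of `G` over `F` and constant points `y, z` over `L`, the pullback of a cube
cocycle to the curve over `L` is principal as soon as the reductions making it trivial separate
`k` inside `L`; its equation then computes the cocycle at every valuation.
-/

set_option autoImplicit false
set_option linter.unusedSectionVars false
set_option linter.style.haveILetI false

noncomputable section

universe u

open AlgebraicCurve TensorProduct FermatAgent.AbVar.AV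

namespace FermatAgent.AbVar.Engine

open FermatAgent.Curve FermatAgent.Curve.RR

variable {K : Type u} [Field K] {G : AV K}
  {k L F : Type u} [Field k] [IsAlgClosed k] [Field L] [IsAlgClosed L] [Algebra k L]
  [Field F] [Algebra k F] [IsFunctionField1 k F]
  [Algebra K k] [Algebra K L] [IsScalarTower K k L] [Algebra K F] [IsScalarTower K k F]

variable (K k L F) in
/-- `F` inside the extension, over `K`. -/
def incFK : F →ₐ[K] ExtField k L F := (incF k L F).restrictScalars K

variable (K k L F) in
/-- The constants inside the extension, over `K`. -/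
def cstK : L →ₐ[K] ExtField k L F := IsScalarTower.toAlgHom K L (ExtField k L F)

variable (c : ConstRed k L) (Q : Place k F)

variable (K) in
/-- The valuation ring of the constants over `K`. -/
def WK : Subalgebra K L := c.alg.restrictScalars K

theorem isVal_WK : IsVal (WK K c) := c.ring.mem_or_inv_mem

instance : IsLocalRing (WK K c) := (isVal_WK c).isLocalRing

instance (P : Place k F) : IsLocalRing (placeAlg (K := K) P) := (isVal_placeAlg P).isLocalRing

instance (P : Place L (ExtField k L F)) : IsLocalRing (placeAlg (K := K) P) :=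
  (isVal_placeAlg P).isLocalRing

variable (K F) in
/-- The Gauss ring over `K`. -/
def GaussK : Subalgebra K (ExtField k L F) := (gauss (F := F) c).restrictScalars K

variable (K) in
/-- The local ring over `K`. -/
def LocK : Subalgebra K (ExtField k L F) := (locRing c Q).restrictScalars K

instance : IsLocalRing (GaussK K F c) := isLocalRing_gauss c

instance : IsLocalRing (LocK K c Q) := isLocalRing_locRing c Q

variable (K F) in
/-- `F → Γ`. -/
def fG : F →ₐ[K] GaussK K F c :=
  (incFK K k L F).codRestrict (GaussK K F c) (incF_mem_gauss c)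

variable (K F) in
/-- `W → Γ`. -/
def wG : WK K c →ₐ[K] GaussK K F c :=
  ((cstK K k L F).comp (WK K c).val).codRestrict (GaussK K F c)
    fun a => algebraMap_mem_gauss c a.2

variable (K) in
/-- `O_Q → T_Q`. -/
def oT : placeAlg (K := K) Q →ₐ[K] LocK K c Q :=
  ((incFK K k L F).comp (placeAlg (K := K) Q).val).codRestrict (LocK K c Q)
    fun a => incF_mem_locRing c Q a.2

variable (K) in
/-- `W → T_Q`. -/
def wT : WK K c →ₐ[K] LocK K c Q :=
  ((cstK K k L F).comp (WK K c).val).codRestrict (LocK K c Q)
    fun a => algebraMap_mem_locRing c Q a.2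

variable (K) in
/-- `T_Q → Γ`. -/
def iT : LocK K c Q →ₐ[K] GaussK K F c :=
  Subalgebra.inclusion fun _ h => locRing_le_gauss c Q h

variable (K F) in
/-- Reduction on `Γ`. -/
def redG : GaussK K F c →ₐ[K] F where
  toFun a := redFun c (a : ExtField k L F)
  map_one' := map_one (gaussRed (F := F) c)
  map_mul' a b := map_mul (gaussRed (F := F) c) ⟨_, a.2⟩ ⟨_, b.2⟩
  map_zero' := map_zero (gaussRed (F := F) c)
  map_add' a b := map_add (gaussRed (F := F) c) ⟨_, a.2⟩ ⟨_, b.2⟩
  commutes' a := by
    show redFun c (algebraMap K (ExtField k L F) a) = algebraMap K F a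
    rw [IsScalarTower.algebraMap_apply K k (ExtField k L F), IsScalarTower.algebraMap_apply K k F]
    exact (gaussRed (F := F) c).commutes (algebraMap K k a)

variable (K) in
/-- Reduction on `T_Q`. -/
def redT : LocK K c Q →ₐ[K] placeAlg (K := K) Q :=
  ((redG K F c).comp (iT K c Q)).codRestrict (placeAlg (K := K) Q) fun a => redFun_mem c Q a.2

variable (K) in
/-- Reduction of constants. -/
def resW : WK K c →ₐ[K] k where
  toFun a := c.res (a : L)
  map_one' := map_one c.resHom
  map_mul' a b := map_mul c.resHom ⟨_, a.2⟩ ⟨_, b.2⟩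
  map_zero' := map_zero c.resHom
  map_add' a b := map_add c.resHom ⟨_, a.2⟩ ⟨_, b.2⟩
  commutes' a := by
    show c.res (algebraMap K L a) = algebraMap K k a
    rw [IsScalarTower.algebraMap_apply K k L, c.res_algebraMap]

variable (T : TriCocycle G) (x : G.Pt F) (y z : G.Pt L)

/-- A point of `F` over `T_Q`. -/
def ptFT : G.Pt (LocK K c Q) := map (oT K c Q) (lift (isVal_placeAlg Q) x)

/-- A constant point over `T_Q`. -/
def ptLT : G.Pt (LocK K c Q) := map (wT K c Q) (lift (isVal_WK c) y)

/-- A point of `F` over `Γ`. -/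
def ptFG : G.Pt (GaussK K F c) := map (fG K F c) x

variable (F) in
/-- A constant point over `Γ`. -/
def ptLG : G.Pt (GaussK K F c) := map (wG K F c) (lift (isVal_WK c) y)

/-- The cocycle from `T_Q` to `Γ`. -/
def tp : (GaussK K F c)ˣ :=
  T.t (iT K c Q) (ptFT c Q x) (ptLT c Q y) (ptLT c Q z)

/-- Its value in the extension. -/
def tpv : ExtField k L F := ((tp c Q T x y z : GaussK K F c) : ExtField k L F)

/-- The cocycle from `Γ` to the generic point. -/
def gam : ExtField k L F :=
  (T.t (GaussK K F c).val (ptFG c x) (ptLG F c y) (ptLG F c z) : (ExtField k L F)ˣ)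

theorem map_val_oT : map (LocK K c Q).val (ptFT c Q x) = map (incFK K k L F) x := by
  unfold ptFT
  rw [AV.map_map, show (LocK K c Q).val.comp (oT K c Q) =
      (incFK K k L F).comp (placeAlg (K := K) Q).val from AlgHom.ext fun _ => rfl,
    ← AV.map_map, map_lift]

theorem map_val_wT : map (LocK K c Q).val (ptLT c Q y) = map (cstK K k L F) y := by
  unfold ptLT
  rw [AV.map_map, show (LocK K c Q).val.comp (wT K c Q) =
      (cstK K k L F).comp (WK K c).val from AlgHom.ext fun _ => rfl,
    ← AV.map_map, map_lift]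

theorem t_locVal :
    ((T.t (LocK K c Q).val (ptFT c Q x) (ptLT c Q y) (ptLT c Q z) :
        (ExtField k L F)ˣ) : ExtField k L F) = tpv c Q T x y z * gam c T x y z := by
  have e : (LocK K c Q).val = (GaussK K F c).val.comp (iT K c Q) := AlgHom.ext fun _ => rfl
  have e1 : map (iT K c Q) (ptFT c Q x) = ptFG c x := by
    unfold ptFT ptFG
    rw [AV.map_map, show (iT K c Q).comp (oT K c Q) = (fG K F c).comp (placeAlg (K := K) Q).val from
      AlgHom.ext fun _ => rfl, ← AV.map_map, map_lift]
  have e2 : ∀ w : G.Pt L, map (iT K c Q) (ptLT c Q w) = ptLG F c w := fun w => by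
    unfold ptLT ptLG
    rw [AV.map_map, show (iT K c Q).comp (wT K c Q) = wG K F c from AlgHom.ext fun _ => rfl]
  rw [e, T.t_comp, e1, e2, e2]
  rfl

theorem gam_ne_zero : gam c T x y z ≠ 0 := Units.ne_zero _

theorem tpv_mem : tpv c Q T x y z ∈ gauss c := (tp c Q T x y z : GaussK K F c).2

theorem redFun_tpv_ne_zero : redFun c (tpv c Q T x y z) ≠ 0 :=
  ((tp c Q T x y z).isUnit.map (redG K F c)).ne_zero

theorem tpv_ne_zero : tpv c Q T x y z ≠ 0 := fun e => redFun_tpv_ne_zero c Q T x y z (by
  rw [e, ← map_zero (intIncl (F := F) c), redFun_intIncl, map_zero])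

/-- A reduction is good if it makes the cocycle trivial. -/
def Good : Prop := ∀ Q : Place k F, redFun c (tpv c Q T x y z) = 1

/-- If one constant point reduces to zero the reduction is good. -/
theorem good_of_res_eq_zero
    (h : map (resW K c) (lift (isVal_WK c) y) = 0 ∨ map (resW K c) (lift (isVal_WK c) z) = 0) :
    Good c T x y z := by
  intro Q
  let cO : k →ₐ[K] placeAlg (K := K) Q :=
    (IsScalarTower.toAlgHom K k F).codRestrict _ fun a => Q.algebraMap_mem' a
  have hg : IsLocalHom (redG K F c).toRingHom := ⟨fun a ha => (isLocalHom_gaussRed c).map_nonunit a ha⟩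
  have hl : IsLocalHom (redT K c Q).toRingHom := by
    refine ⟨fun a ha => ?_⟩
    obtain ⟨b, hb⟩ := isUnit_iff_exists_inv.mp ha
    have hne : valueAt Q (redFun c (a : ExtField k L F)) ≠ 0 := fun e => by
      have h1 := congrArg (fun r : placeAlg (K := K) Q => valueAt Q (r : F)) hb
      change valueAt Q (redFun c (a : ExtField k L F) * (b : F)) = valueAt Q (1 : F) at h1
      rw [valueAt_mul Q (redFun_mem c Q a.2) b.2, e, zero_mul, ← map_one (algebraMap k F),
        valueAt_algebraMap] at h1
      exact zero_ne_one h1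
    exact IsUnit.of_mul_eq_one (⟨_, inv_mem_locRing c Q a.2 hne⟩ : LocK K c Q)
      (Subtype.ext (mul_inv_cancel₀ fun e => hne (by
        rw [e, ← map_zero (intIncl (F := F) c), redFun_intIncl, map_zero, valueAt_zero'])))
  have hw : ∀ w : G.Pt L, map (redT K c Q) (ptLT c Q w) =
      map cO (map (resW K c) (lift (isVal_WK c) w)) := fun w => by
    rw [ptLT, AV.map_map, AV.map_map, show (redT K c Q).comp (wT K c Q) = cO.comp (resW K c) from
      AlgHom.ext fun a => Subtype.ext (redFun_algebraMap c a.2)]
  set X := ptFT (K := K) c Q x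
  set Y := ptLT (K := K) c Q y
  set Z := ptLT (K := K) c Q z
  have h1 := T.t_comp (iT K c Q) (redG K F c) X Y Z
  have h2 := T.t_comp (redT K c Q) (placeAlg (K := K) Q).val X Y Z
  rw [T.t_of_isLocalHom _ hg, mul_one] at h1
  have h0 : map (redT K c Q) Y = 0 ∨ map (redT K c Q) Z = 0 := by
    rcases h with h | h
    · exact Or.inl ((hw y).trans (by rw [h, map_zero]))
    · exact Or.inr ((hw z).trans (by rw [h, map_zero]))
  rw [T.t_of_isLocalHom (redT K c Q) hl, map_one, one_mul,
    T.t_eq_one (placeAlg (K := K) Q).val (map (redT K c Q) X) (map (redT K c Q) Y)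
      (map (redT K c Q) Z) (Or.inr h0),
    show (placeAlg (K := K) Q).val.comp (redT K c Q) = (redG K F c).comp (iT K c Q) from
      AlgHom.ext fun _ => rfl, h1] at h2
  exact congrArg Units.val h2

theorem good_inv_iff : Good c T.inv x y z ↔ Good c T x y z := by
  have key : ∀ Q, redFun c (tpv c Q T.inv x y z) * redFun c (tpv c Q T x y z) = 1 := fun Q => by
    show redG K F c (tp c Q T.inv x y z : GaussK K F c) * redG K F c (tp c Q T x y z : GaussK K F c) = 1
    rw [← map_mul, show tp c Q T.inv x y z = (tp c Q T x y z)⁻¹ from rfl, Units.inv_mul, map_one]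
  constructor
  · intro h Q
    have h1 := key Q
    rwa [h Q, one_mul] at h1
  · intro h Q
    have h1 := key Q
    rwa [h Q, mul_one] at h1

/-- The order of the pullback at a place. -/
def pullOrd (P : Place L (ExtField k L F)) : ℤ :=
  P.ord ((T.val (isVal_placeAlg (K := K) P) (map (incFK K k L F) x) (map (cstK K k L F) y)
    (map (cstK K k L F) z) : (ExtField k L F)ˣ) : ExtField k L F)

theorem ord_unit_placeAlg {P : Place L (ExtField k L F)} (e : (placeAlg (K := K) P)ˣ) :
    P.ord ((e : placeAlg (K := K) P) : ExtField k L F) = 0 := by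
  have h1 := ord_nonneg_of_mem' P (e : placeAlg (K := K) P).2
  have h2 := ord_nonneg_of_mem' P (↑e⁻¹ : placeAlg (K := K) P).2
  rw [← inv_eq_of_mul_eq_one_right (show ((e : placeAlg (K := K) P) : ExtField k L F) *
    ((↑e⁻¹ : placeAlg (K := K) P) : ExtField k L F) = 1 from congrArg Subtype.val (Units.mul_inv e)),
    P.ord_inv] at h2
  omega

theorem finite_pullOrd : {P : Place L (ExtField k L F) | pullOrd T x y z P ≠ 0}.Finite := by
  obtain ⟨s, hs⟩ := T.nice (map (incFK K k L F) x) (map (cstK K k L F) y) (map (cstK K k L F) z)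
  refine Set.Finite.subset (s.finite_toSet.biUnion fun a _ => finite_setOf_notMem (K := L) a)
    fun P hP => ?_
  simp only [Set.mem_iUnion, Finset.mem_coe, Set.mem_ofPred_eq, exists_prop]
  by_contra hall
  push Not at hall
  obtain ⟨e, he⟩ := hs (placeAlg (K := K) P) (isVal_placeAlg P) hall
  refine hP ?_
  show P.ord ((T.t _ _ _ _ : (ExtField k L F)ˣ) : ExtField k L F) = 0
  rw [he]
  exact ord_unit_placeAlg e

variable (k) in
/-- The pullback as a divisor. -/
def pullDiv : Divisor L (ExtField k L F) :=
  Finsupp.ofSupportFinite (pullOrd T x y z) (finite_pullOrd T x y z)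

theorem pullDiv_apply (P : Place L (ExtField k L F)) :
    pullDiv k T x y z P = pullOrd T x y z P := rfl

theorem pullOrd_inv (P : Place L (ExtField k L F)) :
    pullOrd T.inv x y z P = -pullOrd T x y z P := by
  rw [pullOrd, T.val_inv, Units.val_inv_eq_inv_val, P.ord_inv]
  rfl

theorem locK_le_placeAlg {P : Place L (ExtField k L F)} (hP : redPlace c P = Q) :
    LocK K c Q ≤ placeAlg (K := K) P := fun _ h => (locRing_spec c hP h).1

theorem pullOrd_eq {P : Place L (ExtField k L F)} (hP : redPlace c P = Q) :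
    pullOrd T x y z P = P.ord (tpv c Q T x y z) + P.ord (gam c T x y z) := by
  have h := T.t_eq_mul_val (isVal_placeAlg (K := K) P) (LocK K c Q).val
    (Subalgebra.inclusion (locK_le_placeAlg c Q hP)) (fun _ => rfl) (map_val_oT c Q x)
    (map_val_wT c Q y) (map_val_wT c Q z)
  rw [t_locVal] at h
  rw [← P.ord_mul (tpv_ne_zero c Q T x y z) (gam_ne_zero c T x y z), h,
    P.ord_mul (fun e => mul_ne_zero (tpv_ne_zero c Q T x y z) (gam_ne_zero c T x y z)
      (by rw [h, e, zero_mul])) (Units.ne_zero _), ord_unit_placeAlg, zero_add]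
  rfl

theorem mapDomain_constPlace_apply (E : Divisor k F) {P : Place L (ExtField k L F)}
    (hP : redPlace c P = Q) {ϖ : F} (hϖ : Q.ord ϖ = 1) :
    Finsupp.mapDomain (constPlace L) E P = P.ord (incF k L F (ϖ ^ E Q)) := by
  rcases eq_or_ne P (constPlace L Q) with rfl | hne
  · rw [Finsupp.mapDomain_apply (constPlace_injective L), ord_constPlace_incF, Q.ord_zpow, hϖ,
      mul_one]
  have hno : ∀ o, P ≠ constPlace L o := fun o ho =>
    hne (by rw [ho, show o = Q by rw [← hP, ho, redPlace_constPlace]])
  rw [Finsupp.mapDomain_of_notMem_range _ _ (by rintro ⟨o, ho⟩; exact hno o ho.symm),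
    ord_incF_of_ne L hno]

/-- **Rigidity**: a good reduction pins the zeros of a section of the class plus `E` to `E`. -/
theorem le_of_good (hgood : Good c T x y z) {E : Divisor k F} (hE : 0 ≤ E) (hE1 : ell E = 1)
    {f : ExtField k L F} (hf0 : f ≠ 0)
    (hf : ∀ P, 0 ≤ P.ord f + pullDiv k T x y z P + Finsupp.mapDomain (constPlace L) E P)
    (P : Place L (ExtField k L F)) :
    P.ord f + pullDiv k T x y z P + Finsupp.mapDomain (constPlace L) E P ≤ E (redPlace c P) := by
  classical
  have hγ := gam_ne_zero c T x y z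
  obtain ⟨d, hd, hdg, hdr⟩ := exists_scale_gauss c (mul_ne_zero hf0 hγ)
  set f' := algebraMap L (ExtField k L F) d * (f * gam c T x y z) with hf'
  have hd' : algebraMap L (ExtField k L F) d ≠ 0 := (_root_.map_ne_zero _).mpr hd
  have key : ∀ Q : Place k F, 0 ≤ Q.ord (redFun c f') + E Q ∧
      ∀ P, redPlace c P = Q → P.ord f + pullDiv k T x y z P + Finsupp.mapDomain (constPlace L) E P ≤
        Q.ord (redFun c f') + E Q := by
    intro Q
    obtain ⟨ϖ, hϖ0, hϖ⟩ := Curve.exists_ord_eq Q 1
    have hϖE : ϖ ^ E Q ≠ 0 := zpow_ne_zero _ hϖ0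
    set h := f' * tpv c Q T x y z * incF k L F (ϖ ^ E Q) with hh
    have hhg : h ∈ gauss c := mul_mem (mul_mem hdg (tpv_mem c Q T x y z)) (incF_mem_gauss c _)
    have hred : redFun c h = redFun c f' * ϖ ^ E Q := by
      rw [hh, redFun_mul c (mul_mem hdg (tpv_mem c Q T x y z)) (incF_mem_gauss c _),
        redFun_mul c hdg (tpv_mem c Q T x y z), hgood Q, mul_one, redFun_incF]
    have hord : ∀ P, redPlace c P = Q → P.ord h =
        P.ord f + pullDiv k T x y z P + Finsupp.mapDomain (constPlace L) E P := fun P hP => by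
      rw [hh, P.ord_mul (mul_ne_zero (mul_ne_zero hd' (mul_ne_zero hf0 hγ))
          (tpv_ne_zero c Q T x y z)) (incF_ne_zero hϖE),
        P.ord_mul (mul_ne_zero hd' (mul_ne_zero hf0 hγ)) (tpv_ne_zero c Q T x y z),
        P.ord_mul hd' (mul_ne_zero hf0 hγ), P.ord_mul hf0 hγ, ord_algebraMap_const,
        pullDiv_apply, pullOrd_eq c Q T x y z hP, ← mapDomain_constPlace_apply c Q E hP hϖ]
      ring
    have hloc : h ∈ locRing c Q := mem_locRing_of_regular c hhg fun P hP =>
      (mem_iff_ord_nonneg' P).mpr (by rw [hord P hP]; exact hf P)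
    have hordQ : Q.ord (redFun c h) = Q.ord (redFun c f') + E Q := by
      rw [hred, Q.ord_mul hdr hϖE, Q.ord_zpow, hϖ, mul_one]
    refine ⟨hordQ ▸ ord_nonneg_of_mem' Q (redFun_mem c Q hloc), fun P hP => ?_⟩
    have h1 := sum_ord_le_of_locRing c hloc (by rw [hred]; exact mul_ne_zero hdr hϖE) {P}
      (fun P' hP' => by rw [Finset.mem_singleton.mp hP', hP])
    rw [Finset.sum_singleton, hord P hP, hordQ] at h1
    exact h1
  have hmem : redFun c f' ∈ riemannRochSpace E := mem_riemannRochSpace_iff.mpr fun v =>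
    Or.inr (by have := (key v).1; omega)
  rw [← Submodule.eq_of_le_of_finrank_eq (Curve.riemannRochSpace_mono hE) (ell_zero_eq.trans hE1.symm),
    mem_riemannRochSpace_zero_iff] at hmem
  obtain ⟨a, ha⟩ := hmem
  have := (key (redPlace c P)).2 P rfl
  rw [← ha, ord_algebraMap_const, zero_add] at this
  exact this

/-- **The pullback is principal**, if its degree is nonnegative. -/
theorem exists_divFn_of_degree_nonneg (hdeg : 0 ≤ Divisor.degree (pullDiv k T x y z))
    (hex : ∃ c : ConstRed k L, Good c T x y z)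
    (hsep : ∀ a : L, (∀ c : ConstRed k L, Good c T x y z → a ∈ c.ring) →
      ∃ b : k, algebraMap k L b = a) :
    ∃ f : ExtField k L F, f ≠ 0 ∧ ∀ P, P.ord f + pullDiv k T x y z P = 0 := by
  classical
  haveI : Infinite k := IsAlgClosed.instInfinite
  obtain ⟨s, hs, -, hs1, -⟩ := exists_nonspecial (K := k) (F := F) (S := ∅) Set.finite_empty
  set E : Divisor k F := ∑ P ∈ s, Finsupp.single P (1 : ℤ) with hEdef
  have hE : 0 ≤ E := Finset.sum_nonneg fun P _ => single_one_nonneg P
  set EM := Finsupp.mapDomain (constPlace L) E with hEM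
  have hdegE : Divisor.degree EM = genusFF k F := by
    rw [hEM, degree_eq_sum, Finsupp.sum_mapDomain_index (fun _ => rfl) fun _ _ _ => rfl,
      ← degree_eq_sum, hEdef, map_sum, Finset.sum_congr rfl (fun P _ => degree_single P 1),
      Finset.sum_const, hs, nsmul_one]
  set D := pullDiv k T x y z + EM
  have hpos : 0 < ell D := by
    have h1 := riemann_inequality D
    have h2 := genusFF_ext_le k F (L := L)
    rw [map_add, hdegE] at h1
    omega
  obtain ⟨f, hf, hf0⟩ := Submodule.exists_mem_ne_zero_of_ne_bot (p := riemannRochSpace D)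
    (fun h => by unfold ell at hpos; rw [h, finrank_bot] at hpos; omega)
  have hnn : ∀ P, 0 ≤ P.ord f + pullDiv k T x y z P + EM P := fun P => by
    have := (mem_riemannRochSpace_iff.mp hf P).resolve_left hf0
    rw [Finsupp.add_apply] at this
    omega
  have hEs : ∀ Q, 0 < E Q → Q ∈ s := fun Q hQ => by
    by_contra hn
    rw [hEdef, Finsupp.finsetSum_apply, Finset.sum_eq_zero fun P hP =>
      Finsupp.single_eq_of_ne (fun e => hn (by subst e; exact hP))] at hQ
    exact lt_irrefl _ hQ
  have hle : ∀ P, P.ord f + pullDiv k T x y z P + EM P ≤ EM P := by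
    intro P
    rcases eq_or_lt_of_le (hnn P) with h0 | hpos
    · rw [← h0, hEM]
      by_cases hr : P ∈ Set.range (constPlace L)
      · obtain ⟨o, rfl⟩ := hr
        rw [Finsupp.mapDomain_apply (constPlace_injective L)]
        exact Finsupp.le_def.mp hE o
      · rw [Finsupp.mapDomain_of_notMem_range _ _ hr]
    have hmem : ∀ c : ConstRed k L, Good c T x y z → redPlace c P ∈ s := fun c hc =>
      hEs _ (lt_of_lt_of_le hpos (le_of_good c T x y z hc hE hs1 hf0 hnn P))
    haveI := infinite_place (K := k) (F := F)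
    obtain ⟨o, ho⟩ := Infinite.exists_notMem_finset s
    obtain ⟨t, ht0, hto, htv⟩ :=
      exists_single_pole o (n := 2 * genusFF k F + 1) (by omega) (by omega)
    have hgood : ∀ c : ConstRed k L, Good c T x y z →
        incF k L F t ∈ P.toValuationSubring ∧ valueAt P (incF k L F t) ∈ c.ring := fun c hc =>
      (mem_redPlace_iff c).mp ((mem_iff_ord_nonneg' _).mpr
        (htv _ fun e => ho (e ▸ hmem c hc)))
    obtain ⟨c₀, hc₀⟩ := hex
    obtain ⟨b, hb⟩ := hsep _ fun c hc => (hgood c hc).2
    have htb : t - algebraMap k F b ≠ 0 := fun e => by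
      rw [sub_eq_zero.mp e, ord_algebraMap_const] at hto
      omega
    rcases trivial_or_liesOver P with htriv | ⟨o', ho'⟩
    · exfalso
      have hv : valueAt P (incF k L F (t - algebraMap k F b)) = 0 := by
        rw [map_sub, incF_algebraMap,
          valueAt_sub P (hgood c₀ hc₀).1 (P.algebraMap_mem' _), valueAt_algebraMap, hb, sub_self]
      have hm : incF k L F (t - algebraMap k F b) ∈ P.toValuationSubring := by
        rw [map_sub, incF_algebraMap]
        exact sub_mem (hgood c₀ hc₀).1 (P.algebraMap_mem' _)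
      have := ((valueAt_eq_zero_iff P hm).mp hv).resolve_left (incF_ne_zero htb)
      rw [htriv] at this
      exact lt_irrefl _ this
    · have h1 := le_of_good c₀ T x y z hc₀ hE hs1 hf0 hnn P
      rw [eq_constPlace L ho', redPlace_constPlace] at h1
      rw [eq_constPlace L ho', hEM, Finsupp.mapDomain_apply (constPlace_injective L)]
      rw [Finsupp.mapDomain_apply (constPlace_injective L)] at h1
      exact h1
  have hz : EM - (divFn (K := L) f + D) = 0 := by
    refine eq_zero_of_nonneg_of_degree_eq_zero (Finsupp.le_def.mpr fun P => ?_) (le_antisymm ?_ ?_)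
    · rw [Finsupp.coe_zero, Pi.zero_apply, Finsupp.sub_apply, Finsupp.add_apply, Finsupp.add_apply,
        divFn_apply]
      linarith [hle P]
    · rw [map_sub, map_add, map_add, degree_divFn]
      linarith
    · refine Curve.degree_nonneg (Finsupp.le_def.mpr fun P => ?_)
      rw [Finsupp.coe_zero, Pi.zero_apply, Finsupp.sub_apply, Finsupp.add_apply, Finsupp.add_apply,
        divFn_apply]
      linarith [hle P]
  refine ⟨f, hf0, fun P => ?_⟩
  have h := DFunLike.congr_fun hz P
  rw [Finsupp.coe_zero, Pi.zero_apply, Finsupp.sub_apply, Finsupp.add_apply, Finsupp.add_apply,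
    divFn_apply] at h
  linarith

/-- **The pullback is principal.** -/
theorem exists_divFn (hex : ∃ c : ConstRed k L, Good c T x y z)
    (hsep : ∀ a : L, (∀ c : ConstRed k L, Good c T x y z → a ∈ c.ring) →
      ∃ b : k, algebraMap k L b = a) :
    ∃ f : ExtField k L F, f ≠ 0 ∧ ∀ P, P.ord f + pullDiv k T x y z P = 0 := by
  rcases le_total 0 (Divisor.degree (pullDiv k T x y z)) with h | h
  · exact exists_divFn_of_degree_nonneg T x y z h hex hsep
  have he : pullDiv k T.inv x y z = -pullDiv k T x y z :=
    Finsupp.ext fun P => pullOrd_inv T x y z P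
  obtain ⟨c₀, hc₀⟩ := hex
  obtain ⟨f, hf0, hf⟩ := exists_divFn_of_degree_nonneg T.inv x y z
    (by rw [he, map_neg]; omega) ⟨c₀, (good_inv_iff c₀ T x y z).mpr hc₀⟩
    fun a ha => hsep a fun c hc => ha c ((good_inv_iff c T x y z).mpr hc)
  refine ⟨f⁻¹, inv_ne_zero hf0, fun P => ?_⟩
  have := hf P
  rw [he, Finsupp.neg_apply] at this
  rw [P.ord_inv]
  omega

theorem mem_locRing_of_equation {f : ExtField k L F} (hf0 : f ≠ 0)
    (hf : ∀ P, P.ord f + pullDiv k T x y z P = 0) {d : L} (hd : d ≠ 0)
    (hdg : algebraMap L (ExtField k L F) d * (f * gam c T x y z) ∈ gauss c)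
    (hdr : redFun c (algebraMap L (ExtField k L F) d * (f * gam c T x y z)) ≠ 0) (Q' : Place k F) :
    algebraMap L (ExtField k L F) d * (f * gam c T x y z) * tpv c Q' T x y z ∈ locRing c Q' ∧
      (algebraMap L (ExtField k L F) d * (f * gam c T x y z) *
        tpv c Q' T x y z)⁻¹ ∈ locRing c Q' := by
  have hd' : algebraMap L (ExtField k L F) d ≠ 0 := (_root_.map_ne_zero _).mpr hd
  have hγ := gam_ne_zero c T x y z
  set h := algebraMap L (ExtField k L F) d * (f * gam c T x y z) * tpv c Q' T x y z with hh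
  have hhg : h ∈ gauss c := mul_mem hdg (tpv_mem c Q' T x y z)
  have hhr : redFun c h ≠ 0 := by
    rw [hh, redFun_mul c hdg (tpv_mem c Q' T x y z)]
    exact mul_ne_zero hdr (redFun_tpv_ne_zero c Q' T x y z)
  have hord : ∀ P, redPlace c P = Q' → P.ord h = 0 := fun P hP => by
    have := hf P
    rw [pullDiv_apply, pullOrd_eq c Q' T x y z hP] at this
    rw [hh, P.ord_mul (mul_ne_zero hd' (mul_ne_zero hf0 hγ)) (tpv_ne_zero c Q' T x y z),
      P.ord_mul hd' (mul_ne_zero hf0 hγ), P.ord_mul hf0 hγ, ord_algebraMap_const]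
    omega
  exact ⟨mem_locRing_of_regular c hhg fun P hP =>
      (mem_iff_ord_nonneg' P).mpr (hord P hP).ge,
    mem_locRing_of_regular c (inv_mem_gauss c hhg hhr) fun P hP =>
      (mem_iff_ord_nonneg' P).mpr (by rw [P.ord_inv, hord P hP, neg_zero])⟩

/-- At the constant place over the base point the transition unit has value `1`. -/
theorem exists_transition_unit {v₀ : Place k F} (hx : SpecialisesTo x v₀ 0) :
    ∃ u : ExtField k L F, u ∈ (constPlace L v₀).toValuationSubring ∧
      valueAt (constPlace L v₀) u = 1 ∧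
      tpv c v₀ T x y z * gam c T x y z = u *
        (T.val (isVal_placeAlg (K := K) (constPlace L v₀)) (map (incFK K k L F) x)
          (map (cstK K k L F) y) (map (cstK K k L F) z) : (ExtField k L F)ˣ) := by
  set π₀ := constPlace L v₀ with hπ₀
  have hP₀ : redPlace c π₀ = v₀ := redPlace_constPlace c v₀
  let i₀ : LocK K c v₀ →ₐ[K] placeAlg (K := K) π₀ :=
    Subalgebra.inclusion (locK_le_placeAlg c v₀ hP₀)
  let ev : LocK K c v₀ →ₐ[K] WK K c :=
    { toFun := fun a => ⟨valueAt π₀ (a : ExtField k L F), (locRing_spec c hP₀ a.2).2.1⟩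
      map_one' := Subtype.ext (by
        show valueAt π₀ (1 : ExtField k L F) = 1
        rw [← map_one (algebraMap L (ExtField k L F)), valueAt_algebraMap])
      map_mul' := fun a b => Subtype.ext
        (valueAt_mul π₀ (locRing_spec c hP₀ a.2).1 (locRing_spec c hP₀ b.2).1)
      map_zero' := Subtype.ext (valueAt_zero' π₀)
      map_add' := fun a b => Subtype.ext
        (valueAt_add π₀ (locRing_spec c hP₀ a.2).1 (locRing_spec c hP₀ b.2).1)
      commutes' := fun a => Subtype.ext (by
        show valueAt π₀ (algebraMap K (ExtField k L F) a) = algebraMap K L a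
        rw [IsScalarTower.algebraMap_apply K L (ExtField k L F), valueAt_algebraMap]) }
  let rP : placeAlg (K := K) π₀ →ₐ[K] L :=
    { toFun := fun a => valueAt π₀ (a : ExtField k L F)
      map_one' := by
        show valueAt π₀ (1 : ExtField k L F) = 1
        rw [← map_one (algebraMap L (ExtField k L F)), valueAt_algebraMap]
      map_mul' := fun a b => valueAt_mul π₀ a.2 b.2
      map_zero' := valueAt_zero' π₀
      map_add' := fun a b => valueAt_add π₀ a.2 b.2
      commutes' := fun a => by
        show valueAt π₀ (algebraMap K (ExtField k L F) a) = algebraMap K L a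
        rw [IsScalarTower.algebraMap_apply K L (ExtField k L F), valueAt_algebraMap] }
  have hev : IsLocalHom ev.toRingHom := by
    refine ⟨fun a ha => ?_⟩
    obtain ⟨b, hb⟩ := isUnit_iff_exists_inv.mp ha
    have hne : valueAt v₀ (redFun c (a : ExtField k L F)) ≠ 0 := fun e => by
      have h2 := congrArg (fun r : WK K c => c.res (r : L)) hb
      change c.res (valueAt π₀ (a : ExtField k L F) * (b : L)) = c.res (1 : L) at h2
      rw [c.res_mul (locRing_spec c hP₀ a.2).2.1 b.2, (locRing_spec c hP₀ a.2).2.2, e, zero_mul,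
        ← map_one (algebraMap k L), c.res_algebraMap] at h2
      exact zero_ne_one h2
    exact IsUnit.of_mul_eq_one (⟨_, inv_mem_locRing c v₀ a.2 hne⟩ : LocK K c v₀)
      (Subtype.ext (mul_inv_cancel₀ fun e => hne (by
        rw [e, ← map_zero (intIncl (F := F) c), redFun_intIncl, map_zero, valueAt_zero'])))
  have hrP : IsLocalHom rP.toRingHom := ⟨fun a ha => by
    have hne : valueAt π₀ (a : ExtField k L F) ≠ 0 := ha.ne_zero
    exact IsUnit.of_mul_eq_one (⟨_, (mem_iff_ord_nonneg' π₀).mpr (by
      rw [π₀.ord_inv, ord_eq_zero_of_valueAt_ne_zero a.2 hne, neg_zero])⟩ :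
        placeAlg (K := K) π₀) (Subtype.ext (mul_inv_cancel₀ (ne_zero_of_valueAt_ne_zero hne)))⟩
  set X := ptFT (K := K) c v₀ x with hX
  set Y := ptLT (K := K) c v₀ y
  set Z := ptLT (K := K) c v₀ z
  have hX0 : map ev X = 0 := by
    obtain ⟨ρ, hρl, hρc, hρx⟩ := hx
    let cW : k →ₐ[K] WK K c :=
      (IsScalarTower.toAlgHom K k L).codRestrict _ fun a => c.algebraMap_mem a
    have e : ev.comp (oT K c v₀) = cW.comp ρ := AlgHom.ext fun a => Subtype.ext (by
      show valueAt π₀ (incF k L F (a : F)) = algebraMap k L (ρ a)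
      rw [hπ₀, valueAt_constPlace L a.2]
      congr 1
      set b := valueAt v₀ (a : F) with hb
      have hm : algebraMap k F b ∈ placeAlg (K := K) v₀ := v₀.algebraMap_mem' b
      by_contra hne
      have hu : IsUnit (a - ⟨_, hm⟩ : placeAlg (K := K) v₀) := by
        refine hρl.map_nonunit _ (isUnit_iff_ne_zero.mpr ?_)
        show ρ (a - ⟨_, hm⟩) ≠ 0
        rw [map_sub, hρc b hm]
        exact sub_ne_zero.mpr (Ne.symm hne)
      obtain ⟨r, hr⟩ := isUnit_iff_exists_inv.mp hu
      have h3 := congrArg (fun r : placeAlg (K := K) v₀ => valueAt v₀ (r : F)) hr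
      change valueAt v₀ (((a : F) - algebraMap k F b) * (r : F)) = valueAt v₀ (1 : F) at h3
      rw [valueAt_mul v₀ (sub_mem a.2 (v₀.algebraMap_mem' _)) r.2,
        valueAt_sub v₀ a.2 (v₀.algebraMap_mem' _), valueAt_algebraMap, ← hb, sub_self, zero_mul,
        ← map_one (algebraMap k F), valueAt_algebraMap] at h3
      exact zero_ne_one h3)
    rw [hX, ptFT, AV.map_map, e, ← AV.map_map, hρx, map_zero]
  have h1 := T.t_comp i₀ rP X Y Z
  have h2 := T.t_comp ev (WK K c).val X Y Z
  rw [T.t_of_isLocalHom _ hrP, mul_one] at h1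
  rw [T.t_of_isLocalHom ev hev, map_one, one_mul,
    T.t_eq_one (WK K c).val (map ev X) (map ev Y) (map ev Z) (Or.inl hX0),
    show (WK K c).val.comp ev = rP.comp i₀ from AlgHom.ext fun _ => rfl, h1] at h2
  set u : placeAlg (K := K) π₀ := ((T.t i₀ X Y Z : (placeAlg (K := K) π₀)ˣ) :
    placeAlg (K := K) π₀)
  have hu : valueAt π₀ (u : ExtField k L F) = 1 := congrArg Units.val h2
  have h0 := T.t_eq_mul_val (isVal_placeAlg (K := K) π₀) (LocK K c v₀).val i₀ (fun _ => rfl)
    (map_val_oT c v₀ x) (map_val_wT c v₀ y) (map_val_wT c v₀ z)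
  rw [t_locVal] at h0
  exact ⟨_, u.2, hu, h0⟩

/-- An equation of the pullback computes the cocycle at every valuation. -/
theorem exists_unit_factor {v₀ : Place k F} (hx : SpecialisesTo x v₀ 0) {f : ExtField k L F}
    (hf0 : f ≠ 0) (hf : ∀ P, P.ord f + pullDiv k T x y z P = 0) :
    ∃ w : ExtField k L F, w ≠ 0 ∧ ∀ (V : Subalgebra k (ExtField k L F))
      (hV : IsVal (V.restrictScalars K)),
      w * (T.val hV (map (incFK K k L F) x) (map (cstK K k L F) y) (map (cstK K k L F) z) :
          (ExtField k L F)ˣ) ∈ V ∧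
        (w * (T.val hV (map (incFK K k L F) x) (map (cstK K k L F) y) (map (cstK K k L F) z) :
          (ExtField k L F)ˣ))⁻¹ ∈ V := by
  set π₀ := constPlace L v₀ with hπ₀
  set v := ((T.val (isVal_placeAlg (K := K) π₀) (map (incFK K k L F) x) (map (cstK K k L F) y)
    (map (cstK K k L F) z) : (ExtField k L F)ˣ) : ExtField k L F) with hv
  have hfv : π₀.ord (f * v) = 0 := by
    rw [π₀.ord_mul hf0 (Units.ne_zero _)]; exact hf π₀
  have hfvm : f * v ∈ π₀.toValuationSubring := (mem_iff_ord_nonneg' π₀).mpr hfv.ge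
  set κ := valueAt π₀ (f * v) with hκ
  have hκ0 : κ ≠ 0 := fun e => by
    rcases (valueAt_eq_zero_iff π₀ hfvm).mp e with h | h
    · exact mul_ne_zero hf0 (Units.ne_zero _) h
    · omega
  have hκ0' : algebraMap L (ExtField k L F) κ ≠ 0 := (_root_.map_ne_zero _).mpr hκ0
  have rat : ∀ (V : Subalgebra k (ExtField k L F)) (φ : V →ₐ[k] k), IsLocalHom φ.toRingHom →
      ∀ hV : IsVal (V.restrictScalars K),
      f / algebraMap L (ExtField k L F) κ * (T.val hV (map (incFK K k L F) x)
          (map (cstK K k L F) y) (map (cstK K k L F) z) : (ExtField k L F)ˣ) ∈ V ∧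
        (f / algebraMap L (ExtField k L F) κ * (T.val hV (map (incFK K k L F) x)
          (map (cstK K k L F) y) (map (cstK K k L F) z) : (ExtField k L F)ˣ))⁻¹ ∈ V := by
    intro V φ hφ hV
    obtain ⟨c, Q, hle, hloc⟩ := exists_centre (V := V) hV φ hφ
    haveI := hV.isLocalRing
    let i : LocK K c Q →ₐ[K] V.restrictScalars K := Subalgebra.inclusion fun _ h => hle h
    have hi : IsLocalHom i.toRingHom := ⟨hloc.map_nonunit⟩
    have hval := T.t_eq_mul_val hV (LocK K c Q).val i (fun _ => rfl) (map_val_oT c Q x)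
      (map_val_wT c Q y) (map_val_wT c Q z)
    rw [t_locVal, T.t_of_isLocalHom i hi, Units.val_one, OneMemClass.coe_one, one_mul] at hval
    rw [← hval]
    have hγ := gam_ne_zero c T x y z
    obtain ⟨d, hd, hdg, hdr⟩ := exists_scale_gauss c (mul_ne_zero hf0 hγ)
    have hd' : algebraMap L (ExtField k L F) d ≠ 0 := (_root_.map_ne_zero _).mpr hd
    have hunit := mem_locRing_of_equation c T x y z hf0 hf hd hdg hdr
    -- the constant
    have hP₀ : redPlace c π₀ = v₀ := redPlace_constPlace c v₀
    obtain ⟨u, hum, hu, h0⟩ := exists_transition_unit c T x y z hx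
    rw [← hπ₀] at hum hu h0
    rw [← hv] at h0
    obtain ⟨hh0, hh0'⟩ := hunit v₀
    have heq : algebraMap L (ExtField k L F) d * (f * gam c T x y z) * tpv c v₀ T x y z =
        algebraMap L (ExtField k L F) d * (u * (f * v)) := by
      linear_combination (algebraMap L (ExtField k L F) d * f) * h0
    have hval0 : valueAt π₀ (algebraMap L (ExtField k L F) d *
        (u * (f * v))) = d * κ := by
      rw [valueAt_mul π₀ (π₀.algebraMap_mem' _) (mul_mem hum hfvm), valueAt_algebraMap,
        valueAt_mul π₀ hum hfvm, hu, one_mul]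
    rw [heq] at hh0 hh0'
    obtain ⟨m1, w1, -⟩ := locRing_spec c hP₀ hh0
    obtain ⟨m2, w2, -⟩ := locRing_spec c hP₀ hh0'
    have hord0 : π₀.ord (algebraMap L (ExtField k L F) d *
        (u * (f * v))) = 0 := by
      have a1 := ord_nonneg_of_mem' π₀ m1
      have a2 := ord_nonneg_of_mem' π₀ m2
      rw [π₀.ord_inv] at a2
      omega
    rw [hval0] at w1
    rw [valueAt_inv π₀ hord0, hval0] at w2
    have hcw : ∀ a : L, a ∈ c.ring → algebraMap L (ExtField k L F) a ∈ V := fun a ha =>
      hle (algebraMap_mem_locRing c Q ha)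
    obtain ⟨hq, hq'⟩ := hunit Q
    have e1 : f / algebraMap L (ExtField k L F) κ * (tpv c Q T x y z * gam c T x y z) =
        algebraMap L (ExtField k L F) d * (f * gam c T x y z) * tpv c Q T x y z *
          algebraMap L (ExtField k L F) (d * κ)⁻¹ := by
      rw [map_inv₀, map_mul]
      field_simp
    rw [e1]
    refine ⟨mul_mem (hle hq) (hcw _ w2), ?_⟩
    rw [mul_inv, ← map_inv₀ (algebraMap L (ExtField k L F)) ((d * κ)⁻¹), inv_inv]
    exact mul_mem (hle hq') (hcw _ w1)
  refine ⟨f / algebraMap L (ExtField k L F) κ, div_ne_zero hf0 hκ0', fun V hV => ?_⟩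
  obtain ⟨V', hle, φ, hV', hφ⟩ := exists_rational_le' (V := V) hV
  have hV'K : IsVal (V'.restrictScalars K) := hV'
  obtain ⟨h1, h2⟩ := rat V' φ hφ hV'K
  haveI := hV.isLocalRing
  haveI := hV'K.isLocalRing
  let j : V'.restrictScalars K →ₐ[K] V.restrictScalars K := Subalgebra.inclusion fun _ h => hle h
  have hval := T.t_eq_mul_val hV (V'.restrictScalars K).val j (fun _ => rfl)
    (map_lift hV'K (map (incFK K k L F) x))
    (map_lift hV'K (map (cstK K k L F) y)) (map_lift hV'K (map (cstK K k L F) z))
  set e := T.t j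
    (lift hV'K (map (incFK K k L F) x)) (lift hV'K (map (cstK K k L F) y))
    (lift hV'K (map (cstK K k L F) z))
  change ((T.val hV'K (map (incFK K k L F) x) (map (cstK K k L F) y) (map (cstK K k L F) z) :
    (ExtField k L F)ˣ) : ExtField k L F) = _ at hval
  rw [hval] at h1 h2
  have he : ((e : V.restrictScalars K) : ExtField k L F) *
      ((↑e⁻¹ : V.restrictScalars K) : ExtField k L F) = 1 := congrArg Subtype.val (Units.mul_inv e)
  set a := f / algebraMap L (ExtField k L F) κ
  set b := ((T.val hV (map (incFK K k L F) x) (map (cstK K k L F) y) (map (cstK K k L F) z) :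
    (ExtField k L F)ˣ) : ExtField k L F)
  constructor
  · have := V.mul_mem (hle h1) (↑e⁻¹ : V.restrictScalars K).2
    convert this using 1
    linear_combination (-(a * b)) * he
  · have := V.mul_mem (hle h2) (e : V.restrictScalars K).2
    convert this using 1
    have hne : ((e : V.restrictScalars K) : ExtField k L F) ≠ 0 := left_ne_zero_of_mul_eq_one he
    field_simp

end FermatAgent.AbVar.Engine
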