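import Fermat.Agent.AbVar.Engine.Rigid

/-!
# Generic constants and specialisation to the diagonal

With two independent copies of `F` among the constants the cube cocycle is principal; a valuation
specialising the three copies to one gives its equation on the curve up to a finite norm.
-/

set_option autoImplicit false
set_option linter.unusedSectionVars false
set_option linter.style.haveILetI false

noncomputable section

universe u

open AlgebraicCurve TensorProduct Polynomial FermatAgent.AbVar.AV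

namespace FermatAgent.AbVar.Engine

open FermatAgent.Curve FermatAgent.Curve.RR

variable {K : Type u} [Field K] {G : AV K}
  {k F : Type u} [Field k] [IsAlgClosed k] [Field F] [Algebra k F] [IsFunctionField1 k F]
  [Algebra K k] [Algebra K F] [IsScalarTower K k F]

/-- A specialisation map is evaluation at the place. -/
theorem specialisation_apply {v₀ : Place k F} (ρ : placeAlg (K := K) v₀ →ₐ[K] k)
    (hl : IsLocalHom ρ.toRingHom)
    (hc : ∀ c : k, ∀ h : algebraMap k F c ∈ placeAlg (K := K) v₀, ρ ⟨_, h⟩ = c)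
    (a : placeAlg (K := K) v₀) : ρ a = valueAt v₀ (a : F) := by
  set b := valueAt v₀ (a : F) with hb
  have hm : algebraMap k F b ∈ placeAlg (K := K) v₀ := v₀.algebraMap_mem' b
  by_contra hne
  have hu : IsUnit (a - ⟨_, hm⟩ : placeAlg (K := K) v₀) := by
    refine hl.map_nonunit _ (isUnit_iff_ne_zero.mpr ?_)
    show ρ (a - ⟨_, hm⟩) ≠ 0
    rw [map_sub, hc b hm]
    exact sub_ne_zero.mpr hne
  obtain ⟨r, hr⟩ := isUnit_iff_exists_inv.mp hu
  have h3 := congrArg (fun r : placeAlg (K := K) v₀ => valueAt v₀ (r : F)) hr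
  change valueAt v₀ (((a : F) - algebraMap k F b) * (r : F)) = valueAt v₀ (1 : F) at h3
  rw [valueAt_mul v₀ (sub_mem a.2 (v₀.algebraMap_mem' _)) r.2,
    valueAt_sub v₀ a.2 (v₀.algebraMap_mem' _), valueAt_algebraMap, ← hb, sub_self, zero_mul,
    ← map_one (algebraMap k F), valueAt_algebraMap] at h3
  exact zero_ne_one h3

section Const

variable {L : Type u} [Field L] [IsAlgClosed L] [Algebra k L] [Algebra K L] [IsScalarTower K k L]

/-- Below a valuation ring of the constants containing a copy of `F` some reduction sends the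
generic point of that copy to zero. -/
theorem exists_constRed {w : G.Pt F} {v₀ : Place k F} (hw : SpecialisesTo w v₀ 0)
    (i : F →ₐ[k] L) {V : Subalgebra k L} (hV : IsVal V) (hiV : ∀ a, i a ∈ V) :
    ∃ c : ConstRed k L, (∀ a ∈ c.ring, a ∈ V) ∧
      map (resW K c) (lift (isVal_WK c) (map (i.restrictScalars K) w)) = 0 := by
  let e : valAlg v₀ ≃ₐ[k] (i.comp (valAlg v₀).val).range :=
    AlgEquiv.ofInjective _ fun _ _ h => Subtype.ext (i.injective h)
  let ev : valAlg v₀ →ₐ[k] k :=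
    { toFun := fun a => valueAt v₀ (a : F)
      map_one' := by
        show valueAt v₀ (1 : F) = 1
        rw [← map_one (algebraMap k F), valueAt_algebraMap]
      map_mul' := fun a b => valueAt_mul v₀ a.2 b.2
      map_zero' := valueAt_zero' v₀
      map_add' := fun a b => valueAt_add v₀ a.2 b.2
      commutes' := fun a => valueAt_algebraMap v₀ a }
  obtain ⟨V', hV'V, hle, φ, hV', hφ, hext⟩ := exists_rational_le hV
    (i.comp (valAlg v₀).val).range (by rintro _ ⟨a, rfl⟩; exact hiV _)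
    (ev.comp e.symm.toAlgHom) (fun r hr => by
      obtain ⟨a, rfl⟩ := e.surjective r
      show ev (e.symm (e a)) = 0
      rw [AlgEquiv.symm_apply_apply]
      by_contra hne
      have ha0 : i (a : F) ≠ 0 := (_root_.map_ne_zero i).mpr (ne_zero_of_valueAt_ne_zero hne)
      refine hr (IsUnit.of_mul_eq_one (⟨i (a : F)⁻¹, hiV _⟩ : V) (Subtype.ext ?_))
      show i (a : F) * i (a : F)⁻¹ = 1
      rw [map_inv₀, mul_inv_cancel₀ ha0])
  set c := constRedOfHom hV' φ with hcdef
  have hmem : ∀ a : placeAlg (K := K) v₀, i (a : F) ∈ WK K c := fun a =>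
    hle ⟨⟨(a : F), a.2⟩, rfl⟩
  let h : placeAlg (K := K) v₀ →ₐ[K] WK K c :=
    ((i.restrictScalars K).comp (placeAlg (K := K) v₀).val).codRestrict _ hmem
  obtain ⟨ρ, hρl, hρc, hρw⟩ := hw
  refine ⟨c, fun a ha => hV'V ha, ?_⟩
  have hl : lift (isVal_WK c) (map (i.restrictScalars K) w) =
      map h (lift (isVal_placeAlg v₀) w) := lift_eq _ (by
    rw [AV.map_map, show (WK K c).val.comp h = (i.restrictScalars K).comp (placeAlg (K := K) v₀).val
      from AlgHom.ext fun _ => rfl, ← AV.map_map, map_lift])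
  have hρ : (resW K c).comp h = ρ := AlgHom.ext fun a => by
    rw [specialisation_apply ρ hρl hρc a]
    show c.res (i (a : F)) = valueAt v₀ (a : F)
    rw [res_constRedOfHom hV' φ hφ ⟨i (a : F), hmem a⟩]
    refine (hext (e ⟨(a : F), a.2⟩)).trans ?_
    show ev (e.symm (e _)) = _
    rw [AlgEquiv.symm_apply_apply]
    rfl
  rw [hl, AV.map_map, hρ, hρw]

/-- An element of every valuation ring containing a copy of `F` is algebraic over it. -/
theorem exists_poly_of_mem_all (i : F →ₐ[k] L) {a : L}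
    (ha : ∀ V : Subalgebra k L, IsVal V → (∀ b, i b ∈ V) → a ∈ V) :
    ∃ p : F[X], p ≠ 0 ∧ p.eval₂ i.toRingHom a = 0 := by
  have h1 : a ∈ (⨅ V : {V : ValuationSubring L // Set.range i ⊆ V.toSubring}, V.1.toSubring) := by
    refine Subring.mem_iInf.mpr fun V => ?_
    exact ha
      { V.1.toSubring.toSubsemiring with
        algebraMap_mem' := fun b => V.2 ⟨algebraMap k F b, i.commutes b⟩ }
      V.1.mem_or_inv_mem fun b => V.2 ⟨b, rfl⟩
  rw [iInf_valuationSubring_superset] at h1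
  obtain ⟨P, hP, hPa⟩ := h1
  have hl : P.map (Subring.closure (Set.range i)).subtype ∈ Polynomial.lifts i.toRingHom := by
    rw [Polynomial.lifts_iff_coeff_lifts]
    intro n
    have h2 : ((P.coeff n : Subring.closure (Set.range i)) : L) ∈ i.toRingHom.range :=
      Subring.closure_le.mpr (show Set.range i ⊆ i.toRingHom.range from fun _ h => h) (P.coeff n).2
    rw [coeff_map]
    exact h2
  obtain ⟨q, hq, -, hqm⟩ := Polynomial.lifts_and_degree_eq_and_monic hl (hP.map _)
  refine ⟨q, hqm.ne_zero, ?_⟩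
  rw [← eval_map, hq, eval_map]
  exact hPa

variable (T : TriCocycle G) {x y z : G.Pt F} {v₀ : Place k F}
  (hx : SpecialisesTo x v₀ 0) (hy : SpecialisesTo y v₀ 0) (hz : SpecialisesTo z v₀ 0)
  (i₁ i₂ : F →ₐ[k] L)

include hy hz in
/-- The hypotheses of rigidity for two independent generic constants. -/
theorem exists_good_and_separated
    (hdisj : ∀ a : L, (∃ p : F[X], p ≠ 0 ∧ p.eval₂ i₁.toRingHom a = 0) →
      (∃ p : F[X], p ≠ 0 ∧ p.eval₂ i₂.toRingHom a = 0) → ∃ b : k, algebraMap k L b = a) :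
    (∃ c : ConstRed k L, Good c T x (map (i₁.restrictScalars K) y) (map (i₂.restrictScalars K) z)) ∧
    ∀ a : L, (∀ c : ConstRed k L,
      Good c T x (map (i₁.restrictScalars K) y) (map (i₂.restrictScalars K) z) → a ∈ c.ring) →
      ∃ b : k, algebraMap k L b = a := by
  constructor
  · obtain ⟨c, -, hc⟩ := exists_constRed hy i₁ (V := ⊤) (fun _ => Or.inl Algebra.mem_top)
      fun _ => Algebra.mem_top
    exact ⟨c, good_of_res_eq_zero c T _ _ _ (Or.inl hc)⟩
  · intro a ha
    refine hdisj a ?_ ?_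
    · refine exists_poly_of_mem_all i₁ fun V hV hiV => ?_
      obtain ⟨c, hcV, hc⟩ := exists_constRed hy i₁ hV hiV
      exact hcV a (ha c (good_of_res_eq_zero c T _ _ _ (Or.inl hc)))
    · refine exists_poly_of_mem_all i₂ fun V hV hiV => ?_
      obtain ⟨c, hcV, hc⟩ := exists_constRed hz i₂ hV hiV
      exact hcV a (ha c (good_of_res_eq_zero c T _ _ _ (Or.inr hc)))

include hx hy hz in
/-- Specialising the generic constants gives an equation over an algebraic closure of `F`. -/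
theorem exists_factor_on_closure
    (hdisj : ∀ a : L, (∃ p : F[X], p ≠ 0 ∧ p.eval₂ i₁.toRingHom a = 0) →
      (∃ p : F[X], p ≠ 0 ∧ p.eval₂ i₂.toRingHom a = 0) → ∃ b : k, algebraMap k L b = a)
    (hj : Function.Injective (Algebra.TensorProduct.productMap i₁ i₂))
    {Ω : Type u} [Field Ω] [IsAlgClosed Ω] [Algebra k Ω] [Algebra K Ω] [IsScalarTower K k Ω]
    (ι : F →ₐ[k] Ω) :
    ∃ ω : Ω, ω ≠ 0 ∧ ∀ (V : Subalgebra k Ω) (hV : IsVal (V.restrictScalars K)),
      ω * (T.val hV (map (ι.restrictScalars K) x) (map (ι.restrictScalars K) y)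
          (map (ι.restrictScalars K) z) : Ωˣ) ∈ V ∧
        (ω * (T.val hV (map (ι.restrictScalars K) x) (map (ι.restrictScalars K) y)
          (map (ι.restrictScalars K) z) : Ωˣ))⁻¹ ∈ V := by
  obtain ⟨hex, hsep⟩ := exists_good_and_separated T (x := x) hy hz i₁ i₂ hdisj
  obtain ⟨f, hf0, hf⟩ := exists_divFn T x _ _ hex hsep
  obtain ⟨w, hw0, hw⟩ := exists_unit_factor T x _ _ hx hf0 hf
  let φ₀ : (F ⊗[k] F) ⊗[k] F →ₐ[k] ExtField k L F :=
    ((toExt k L F).restrictScalars k).comp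
      (Algebra.TensorProduct.map (Algebra.TensorProduct.productMap i₁ i₂) (AlgHom.id k F))
  have hφ₀ : Function.Injective φ₀ := toExt_injective.comp
    (Module.Flat.rTensor_preserves_injective_linearMap (M := F)
      (Algebra.TensorProduct.productMap i₁ i₂).toLinearMap hj)
  let μ : (F ⊗[k] F) ⊗[k] F →ₐ[k] Ω :=
    Algebra.TensorProduct.productMap (Algebra.TensorProduct.productMap ι ι) ι
  let e : (F ⊗[k] F) ⊗[k] F ≃ₐ[k] φ₀.range := AlgEquiv.ofInjective φ₀ hφ₀
  obtain ⟨V₀, hle, ρ, hV₀, hρ, hext⟩ := exists_extension φ₀.range (μ.comp e.symm.toAlgHom)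
  have hρφ : ∀ t, ∀ h : φ₀ t ∈ V₀, ρ ⟨φ₀ t, h⟩ = μ t := fun t h => by
    refine ((hext (e t)).trans ?_)
    show μ (e.symm (e t)) = _
    rw [AlgEquiv.symm_apply_apply]
  have hV₀K : IsVal (V₀.restrictScalars K) := hV₀
  haveI := hV₀K.isLocalRing
  let ρK : V₀.restrictScalars K →ₐ[K] Ω :=
    { toFun := fun a => ρ ⟨(a : ExtField k L F), a.2⟩
      map_one' := map_one ρ
      map_mul' := fun a b => map_mul ρ ⟨_, a.2⟩ ⟨_, b.2⟩
      map_zero' := map_zero ρ
      map_add' := fun a b => map_add ρ ⟨_, a.2⟩ ⟨_, b.2⟩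
      commutes' := fun a => by
        rw [IsScalarTower.algebraMap_apply K k Ω]
        refine Eq.trans ?_ (ρ.commutes (algebraMap K k a))
        exact congrArg ρ (Subtype.ext (IsScalarTower.algebraMap_apply K k (ExtField k L F) a)) }
  have hm0 : ∀ a : F, φ₀ ((1 ⊗ₜ 1) ⊗ₜ a) = incF k L F a := fun a => by
    show toExt k L F (Algebra.TensorProduct.productMap i₁ i₂ (1 ⊗ₜ 1) ⊗ₜ a) = _
    rw [Algebra.TensorProduct.productMap_apply_tmul, map_one, map_one, one_mul, toExt_tmul,
      map_one, one_mul]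
  have hm1 : ∀ a : F, φ₀ ((a ⊗ₜ 1) ⊗ₜ 1) = algebraMap L (ExtField k L F) (i₁ a) := fun a => by
    show toExt k L F (Algebra.TensorProduct.productMap i₁ i₂ (a ⊗ₜ 1) ⊗ₜ (1 : F)) = _
    rw [Algebra.TensorProduct.productMap_apply_tmul, map_one, mul_one, toExt_tmul, map_one, mul_one]
  have hm2 : ∀ a : F, φ₀ ((1 ⊗ₜ a) ⊗ₜ 1) = algebraMap L (ExtField k L F) (i₂ a) := fun a => by
    show toExt k L F (Algebra.TensorProduct.productMap i₁ i₂ (1 ⊗ₜ a) ⊗ₜ (1 : F)) = _
    rw [Algebra.TensorProduct.productMap_apply_tmul, map_one, one_mul, toExt_tmul, map_one, mul_one]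
  let j₀ : F →ₐ[K] V₀.restrictScalars K :=
    (incFK K k L F).codRestrict _ fun a => hm0 a ▸ hle ⟨_, rfl⟩
  let j₁ : F →ₐ[K] V₀.restrictScalars K :=
    ((cstK K k L F).comp (i₁.restrictScalars K)).codRestrict _ fun a => hm1 a ▸ hle ⟨_, rfl⟩
  let j₂ : F →ₐ[K] V₀.restrictScalars K :=
    ((cstK K k L F).comp (i₂.restrictScalars K)).codRestrict _ fun a => hm2 a ▸ hle ⟨_, rfl⟩
  have hρ0 : ρK.comp j₀ = ι.restrictScalars K := AlgHom.ext fun a => by
    refine (congrArg ρ (Subtype.ext (hm0 a).symm)).trans ((hρφ _ (hle ⟨_, rfl⟩)).trans ?_)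
    simp [μ]
  have hρ1 : ρK.comp j₁ = ι.restrictScalars K := AlgHom.ext fun a => by
    refine (congrArg ρ (Subtype.ext (hm1 a).symm)).trans ((hρφ _ (hle ⟨_, rfl⟩)).trans ?_)
    simp [μ]
  have hρ2 : ρK.comp j₂ = ι.restrictScalars K := AlgHom.ext fun a => by
    refine (congrArg ρ (Subtype.ext (hm2 a).symm)).trans ((hρφ _ (hle ⟨_, rfl⟩)).trans ?_)
    simp [μ]
  set X := map (incFK K k L F) x with hXdef
  set Y := map (cstK K k L F) (map (i₁.restrictScalars K) y) with hYdef
  set Z := map (cstK K k L F) (map (i₂.restrictScalars K) z) with hZdef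
  have hX : map ρK (lift hV₀K X) = map (ι.restrictScalars K) x := by
    rw [lift_eq hV₀K (Q := map j₀ x) (by
      rw [AV.map_map, show (V₀.restrictScalars K).val.comp j₀ = incFK K k L F from
        AlgHom.ext fun _ => rfl]), AV.map_map, hρ0]
  have hY : map ρK (lift hV₀K Y) = map (ι.restrictScalars K) y := by
    rw [lift_eq hV₀K (Q := map j₁ y) (by
      rw [hYdef, AV.map_map, AV.map_map, show (V₀.restrictScalars K).val.comp j₁ =
        (cstK K k L F).comp (i₁.restrictScalars K) from AlgHom.ext fun _ => rfl]), AV.map_map, hρ1]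
  have hZ : map ρK (lift hV₀K Z) = map (ι.restrictScalars K) z := by
    rw [lift_eq hV₀K (Q := map j₂ z) (by
      rw [hZdef, AV.map_map, AV.map_map, show (V₀.restrictScalars K).val.comp j₂ =
        (cstK K k L F).comp (i₂.restrictScalars K) from AlgHom.ext fun _ => rfl]), AV.map_map, hρ2]
  obtain ⟨h0, h0'⟩ := hw V₀ hV₀K
  set p := w * ((T.val hV₀K X Y Z : (ExtField k L F)ˣ) : ExtField k L F) with hp
  have hp0 : p ≠ 0 := mul_ne_zero hw0 (Units.ne_zero _)
  have hρp : ρ ⟨p, h0⟩ * ρ ⟨p⁻¹, h0'⟩ = 1 := by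
    rw [← map_mul, ← map_one ρ]
    exact congrArg ρ (Subtype.ext (mul_inv_cancel₀ hp0))
  refine ⟨ρ ⟨p, h0⟩, left_ne_zero_of_mul_eq_one hρp, fun V' hV' => ?_⟩
  let V : Subalgebra k (ExtField k L F) := (V'.comap ρ).map V₀.val
  have hmem : ∀ m : ExtField k L F, m ∈ V → ∃ h : m ∈ V₀, ρ ⟨m, h⟩ ∈ V' := by
    rintro _ ⟨m, hm, rfl⟩
    exact ⟨m.2, hm⟩
  have hVle : V ≤ V₀ := fun m hm => (hmem m hm).1
  have hV : IsVal (V.restrictScalars K) := fun m => by
    rcases em (m ∈ V₀) with hm | hm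
    · by_cases h1 : ρ ⟨m, hm⟩ ∈ V'
      · exact Or.inl ⟨⟨m, hm⟩, h1, rfl⟩
      · have hne : ρ ⟨m, hm⟩ ≠ 0 := fun e => h1 (e ▸ zero_mem V')
        have hi := inv_mem_of_apply_ne_zero ρ hρ hne
        refine Or.inr ⟨⟨m⁻¹, hi⟩, ?_, rfl⟩
        show ρ ⟨m⁻¹, hi⟩ ∈ V'
        have h2 : ρ ⟨m, hm⟩ * ρ ⟨m⁻¹, hi⟩ = 1 := by
          rw [← map_mul, ← map_one ρ]
          exact congrArg ρ (Subtype.ext (mul_inv_cancel₀ fun e => hne (by
            rw [show (⟨m, hm⟩ : V₀) = 0 from Subtype.ext e, map_zero])))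
        rw [← inv_eq_of_mul_eq_one_right h2]
        exact (hV' _).resolve_left h1
    · have hi : m⁻¹ ∈ V₀ := (hV₀ m).resolve_left hm
      refine Or.inr ⟨⟨m⁻¹, hi⟩, ?_, rfl⟩
      show ρ ⟨m⁻¹, hi⟩ ∈ V'
      by_cases he : ρ ⟨m⁻¹, hi⟩ = 0
      · rw [he]; exact zero_mem _
      · exact absurd (inv_inv m ▸ inv_mem_of_apply_ne_zero ρ hρ he) hm
  haveI := hV.isLocalRing
  haveI := hV'.isLocalRing
  let j : V.restrictScalars K →ₐ[K] V₀.restrictScalars K :=
    Subalgebra.inclusion fun _ h => hVle h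
  let σ : V.restrictScalars K →ₐ[K] V'.restrictScalars K :=
    (ρK.comp j).codRestrict _ fun a => (hmem a.1 a.2).2
  have hσ : IsLocalHom σ.toRingHom := ⟨fun a ha => by
    obtain ⟨b, hb⟩ := isUnit_iff_exists_inv.mp ha
    have hb' : ρ ⟨(a : ExtField k L F), hVle a.2⟩ * (b : Ω) = 1 := congrArg Subtype.val hb
    have hne := left_ne_zero_of_mul_eq_one hb'
    have hi := inv_mem_of_apply_ne_zero ρ hρ hne
    have ha0 : (a : ExtField k L F) ≠ 0 := fun e => hne (by
      rw [show (⟨(a : ExtField k L F), hVle a.2⟩ : V₀) = 0 from Subtype.ext e, map_zero])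
    have h2 : ρ ⟨(a : ExtField k L F), hVle a.2⟩ * ρ ⟨_, hi⟩ = 1 := by
      rw [← map_mul, ← map_one ρ]
      exact congrArg ρ (Subtype.ext (mul_inv_cancel₀ ha0))
    have hiV : (a : ExtField k L F)⁻¹ ∈ V.restrictScalars K := by
      refine ⟨⟨_, hi⟩, ?_, rfl⟩
      show ρ ⟨_, hi⟩ ∈ V'
      rw [← inv_eq_of_mul_eq_one_right h2, inv_eq_of_mul_eq_one_right hb']
      exact b.2
    exact IsUnit.of_mul_eq_one (⟨_, hiV⟩ : V.restrictScalars K)
      (Subtype.ext (mul_inv_cancel₀ ha0))⟩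
  have hval := T.t_eq_mul_val hV₀K (V.restrictScalars K).val j (fun _ => rfl)
    (map_lift hV X) (map_lift hV Y) (map_lift hV Z)
  have hjl : ∀ P : G.Pt (ExtField k L F), map j (lift hV P) = lift hV₀K P := fun P =>
    (lift_eq hV₀K (by
      rw [AV.map_map, show (V₀.restrictScalars K).val.comp j = (V.restrictScalars K).val from
        AlgHom.ext fun _ => rfl, map_lift])).symm
  have hσl : ∀ P : G.Pt (ExtField k L F),
      map σ (lift hV P) = lift hV' (map ρK (lift hV₀K P)) := fun P => by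
    refine (lift_eq hV' ?_).symm
    rw [AV.map_map, show (V'.restrictScalars K).val.comp σ = ρK.comp j from
      AlgHom.ext fun _ => rfl, ← AV.map_map, hjl]
  set u := T.t j (lift hV X) (lift hV Y) (lift hV Z)
  have h1 := T.t_comp j ρK (lift hV X) (lift hV Y) (lift hV Z)
  have h2 := T.t_comp σ (V'.restrictScalars K).val (lift hV X) (lift hV Y) (lift hV Z)
  rw [T.t_of_isLocalHom ρK ⟨fun a ha => by
    have hne : ρ ⟨(a : ExtField k L F), a.2⟩ ≠ 0 := ha.ne_zero
    exact IsUnit.of_mul_eq_one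
      (⟨_, inv_mem_of_apply_ne_zero ρ hρ hne⟩ : V₀.restrictScalars K)
      (Subtype.ext (mul_inv_cancel₀ fun e => hne (by
        rw [show (⟨(a : ExtField k L F), a.2⟩ : V₀) = 0 from Subtype.ext e, map_zero])))⟩,
    mul_one] at h1
  rw [T.t_of_isLocalHom σ hσ, map_one, one_mul,
    show (V'.restrictScalars K).val.comp σ = ρK.comp j from AlgHom.ext fun _ => rfl, h1,
    hσl, hσl, hσl, hX, hY, hZ] at h2
  have hu : ρK (u : V₀.restrictScalars K) = (T.val hV' (map (ι.restrictScalars K) x)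
      (map (ι.restrictScalars K) y) (map (ι.restrictScalars K) z) : Ωˣ) := congrArg Units.val h2
  obtain ⟨hq, hq'⟩ := hw V hV
  change ((T.val hV X Y Z : (ExtField k L F)ˣ) : ExtField k L F) = _ at hval
  have hq2 : w * ((T.val hV X Y Z : (ExtField k L F)ˣ) : ExtField k L F) =
      ((u : V₀.restrictScalars K) : ExtField k L F) * p := by rw [hval, hp]; ring
  rw [hq2] at hq hq'
  have hprod : ∀ h, ρ ⟨((u : V₀.restrictScalars K) : ExtField k L F) * p, h⟩ =
      (T.val hV' (map (ι.restrictScalars K) x) (map (ι.restrictScalars K) y)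
        (map (ι.restrictScalars K) z) : Ωˣ) * ρ ⟨p, h0⟩ := fun h => by
    rw [← hu]
    refine Eq.trans ?_ (map_mul ρ ⟨_, (u : V₀.restrictScalars K).2⟩ ⟨p, h0⟩)
    rfl
  obtain ⟨hm, hρm⟩ := hmem _ hq
  obtain ⟨hm', hρm'⟩ := hmem _ hq'
  constructor
  · rw [mul_comm (ρ ⟨p, h0⟩), ← hprod hm]; exact hρm
  · have hne : ((u : V₀.restrictScalars K) : ExtField k L F) * p ≠ 0 :=
      mul_ne_zero (fun e => by
        have := congrArg Subtype.val (Units.mul_inv u)
        rw [MulMemClass.coe_mul, e, zero_mul] at this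
        exact zero_ne_one this) hp0
    have h3 : ρ ⟨_, hm⟩ * ρ ⟨_, hm'⟩ = 1 := by
      rw [← map_mul, ← map_one ρ]
      exact congrArg ρ (Subtype.ext (mul_inv_cancel₀ hne))
    rw [mul_comm, ← hprod hm, inv_eq_of_mul_eq_one_right h3]
    exact hρm'

end Const

end FermatAgent.AbVar.Engine
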