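import Fermat.Agent.AbVar.Interface

/-!
# The cube cocycle of a line bundle

For three points the product of the transition units at their seven signed sums is again a
cocycle, and it is `1` whenever one of the points is zero.
-/

set_option autoImplicit false
set_option linter.style.haveILetI false

noncomputable section

universe u

namespace FermatAgent.AbVar

open AV

variable {K : Type u} [Field K] (G : AV K)

/-- A cocycle of units attached to triples of points, trivial if one of the points is zero. -/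
structure TriCocycle : Type (u + 1) where
  /-- The comparison unit of a triple of points along a map of local rings. -/
  t : ∀ {R S : Type u} [CommRing R] [IsLocalRing R] [Algebra K R] [CommRing S] [IsLocalRing S]
    [Algebra K S], (R →ₐ[K] S) → G.Pt R → G.Pt R → G.Pt R → Sˣ
  t_comp : ∀ {R S T : Type u} [CommRing R] [IsLocalRing R] [Algebra K R] [CommRing S]
    [IsLocalRing S] [Algebra K S] [CommRing T] [IsLocalRing T] [Algebra K T] (h : R →ₐ[K] S)
    (h' : S →ₐ[K] T) (x y z : G.Pt R),
    t (h'.comp h) x y z =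
      Units.map (h'.toRingHom : S →* T) (t h x y z) * t h' (map h x) (map h y) (map h z)
  t_of_isLocalHom : ∀ {R S : Type u} [CommRing R] [IsLocalRing R] [Algebra K R] [CommRing S]
    [IsLocalRing S] [Algebra K S] (h : R →ₐ[K] S), IsLocalHom h.toRingHom →
    ∀ x y z, t h x y z = 1
  t_eq_one : ∀ {R S : Type u} [CommRing R] [IsLocalRing R] [Algebra K R] [CommRing S]
    [IsLocalRing S] [Algebra K S] (h : R →ₐ[K] S) (x y z : G.Pt R),
    x = 0 ∨ y = 0 ∨ z = 0 → t h x y z = 1
  nice : ∀ {F : Type u} [Field F] [Algebra K F] (x y z : G.Pt F),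
    ∃ s : Finset F, ∀ (V : Subalgebra K F) (hV : IsVal V), (∀ a ∈ s, a ∈ V) →
      haveI := hV.isLocalRing
      ∃ e : Vˣ, ((t V.val (lift hV x) (lift hV y) (lift hV z) : Fˣ) : F) = ((e : V) : F)

namespace TriCocycle

variable {G} (T : TriCocycle G)

/-- The inverse cocycle. -/
def inv : TriCocycle G where
  t h x y z := (T.t h x y z)⁻¹
  t_comp h h' x y z := by rw [T.t_comp, map_inv, mul_inv]
  t_of_isLocalHom h hh x y z := by rw [T.t_of_isLocalHom h hh, inv_one]
  t_eq_one h x y z hz := by rw [T.t_eq_one h x y z hz, inv_one]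
  nice {F} _ _ x y z := by
    obtain ⟨s, hs⟩ := T.nice x y z
    refine ⟨s, fun V hV hsV => ?_⟩
    obtain ⟨e, he⟩ := hs V hV hsV
    refine ⟨e⁻¹, ?_⟩
    rw [Units.val_inv_eq_inv_val, he]
    refine inv_eq_of_mul_eq_one_right ?_
    exact congrArg Subtype.val (Units.mul_inv e)

variable {F : Type u} [Field F] [Algebra K F] {V : Subalgebra K F}

/-- The value at a valuation subalgebra, compared with the generic one. -/
def val (hV : IsVal V) (x y z : G.Pt F) : Fˣ :=
  haveI := hV.isLocalRing
  T.t V.val (lift hV x) (lift hV y) (lift hV z)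

theorem val_inv (hV : IsVal V) (x y z : G.Pt F) : T.inv.val hV x y z = (T.val hV x y z)⁻¹ := rfl

/-- Transition from a ring mapping into a valuation subalgebra. -/
theorem t_eq_mul_val {R : Type u} [CommRing R] [IsLocalRing R] [Algebra K R] (hV : IsVal V)
    [IsLocalRing V] (g : R →ₐ[K] F) (h : R →ₐ[K] V) (hg : ∀ r, (h r : F) = g r)
    {X Y Z : G.Pt R} {x y z : G.Pt F} (hx : map g X = x) (hy : map g Y = y) (hz : map g Z = z) :
    (T.t g X Y Z : F) = ((T.t h X Y Z : V) : F) * (T.val hV x y z : F) := by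
  have e : g = V.val.comp h := AlgHom.ext fun r => (hg r).symm
  subst e
  rw [T.t_comp]
  rw [← lift_eq hV (P := x) (Q := map h X) (by rw [map_map, hx]),
    ← lift_eq hV (P := y) (Q := map h Y) (by rw [map_map, hy]),
    ← lift_eq hV (P := z) (Q := map h Z) (by rw [map_map, hz])]
  rfl

end TriCocycle

namespace AV.LineBundle

variable {G} (B : G.LineBundle) {R S : Type u} [CommRing R] [IsLocalRing R] [Algebra K R]
  [CommRing S] [IsLocalRing S] [Algebra K S]

theorem t_zero (h : R →ₐ[K] S) : B.t h 0 = 1 := by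
  have hloc : ∀ {T : Type u} [CommRing T] [IsLocalRing T] [Algebra K T],
      IsLocalHom (Algebra.ofId K T).toRingHom := fun {T} _ _ _ => ⟨fun a ha => by
    rcases eq_or_ne a 0 with rfl | h0
    · rw [map_zero] at ha; exact absurd ha not_isUnit_zero
    · exact isUnit_iff_ne_zero.mpr h0⟩
  have h1 := B.t_comp (Algebra.ofId K R) h 0
  rw [show h.comp (Algebra.ofId K R) = Algebra.ofId K S from AlgHom.ext fun a => h.commutes a,
    B.t_of_isLocalHom _ hloc, B.t_of_isLocalHom _ hloc, map_one, one_mul, _root_.map_zero] at h1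
  exact h1.symm

/-- The product over the signed sums. -/
def cubeT (h : R →ₐ[K] S) (x y z : G.Pt R) : Sˣ :=
  B.t h (x + y + z) * B.t h x * B.t h y * B.t h z /
    (B.t h (x + y) * B.t h (x + z) * B.t h (y + z))

theorem cubeT_comp {T : Type u} [CommRing T] [IsLocalRing T] [Algebra K T] (h : R →ₐ[K] S)
    (h' : S →ₐ[K] T) (x y z : G.Pt R) :
    B.cubeT (h'.comp h) x y z =
      Units.map (h'.toRingHom : S →* T) (B.cubeT h x y z) *
        B.cubeT h' (map h x) (map h y) (map h z) := by
  unfold cubeT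
  simp only [B.t_comp h h', map_mul, map_div, map_add]
  simp only [div_eq_mul_inv, mul_inv]
  ac_rfl

theorem cubeT_eq_one (h : R →ₐ[K] S) (x y z : G.Pt R) (h0 : x = 0 ∨ y = 0 ∨ z = 0) :
    B.cubeT h x y z = 1 := by
  unfold cubeT
  rw [div_eq_one]
  rcases h0 with rfl | rfl | rfl
  · simp only [zero_add, B.t_zero, mul_one]; ac_rfl
  · simp only [add_zero, zero_add, B.t_zero, mul_one]; ac_rfl
  · simp only [add_zero, B.t_zero, mul_one]

/-- The cube cocycle. -/
def cube : TriCocycle G where
  t h x y z := B.cubeT h x y z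
  t_comp h h' x y z := B.cubeT_comp h h' x y z
  t_of_isLocalHom h hh x y z := by simp [cubeT, B.t_of_isLocalHom h hh]
  t_eq_one h x y z h0 := B.cubeT_eq_one h x y z h0
  nice {F} _ _ x y z := by
    classical
    have key : ∀ P : G.Pt F, ∃ s : Finset F, ∀ (V : Subalgebra K F) (hV : IsVal V),
        (∀ a ∈ s, a ∈ V) → haveI := hV.isLocalRing
          ∃ e : Vˣ, ((B.t V.val (lift hV P) : Fˣ) : F) = ((e : V) : F) := fun P => by
      obtain ⟨s, hs⟩ := B.nice P
      refine ⟨s, fun V hV hsV => ?_⟩
      haveI := hV.isLocalRing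
      obtain ⟨Q, hQ, e, he⟩ := hs V hsV
      exact ⟨e, by rw [lift_eq hV hQ]; exact he⟩
    choose s hs using key
    refine ⟨s (x + y + z) ∪ s x ∪ s y ∪ s z ∪ s (x + y) ∪ s (x + z) ∪ s (y + z),
      fun V hV h => ?_⟩
    haveI := hV.isLocalRing
    simp only [Finset.mem_union] at h
    obtain ⟨e1, h1⟩ := hs (x + y + z) V hV fun a ha => h a (by tauto)
    obtain ⟨e2, h2⟩ := hs x V hV fun a ha => h a (by tauto)
    obtain ⟨e3, h3⟩ := hs y V hV fun a ha => h a (by tauto)
    obtain ⟨e4, h4⟩ := hs z V hV fun a ha => h a (by tauto)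
    obtain ⟨e5, h5⟩ := hs (x + y) V hV fun a ha => h a (by tauto)
    obtain ⟨e6, h6⟩ := hs (x + z) V hV fun a ha => h a (by tauto)
    obtain ⟨e7, h7⟩ := hs (y + z) V hV fun a ha => h a (by tauto)
    refine ⟨e1 * e2 * e3 * e4 / (e5 * e6 * e7), ?_⟩
    let m : Vˣ →* Fˣ := Units.map (V.val.toRingHom : V →* F)
    have hm : ∀ (P : G.Pt F) (e : Vˣ), ((B.t V.val (lift hV P) : Fˣ) : F) = ((e : V) : F) →
        B.t V.val (lift hV P) = m e := fun P e he => Units.ext he
    show ((B.cubeT V.val (lift hV x) (lift hV y) (lift hV z) : Fˣ) : F) = _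
    rw [cubeT, ← lift_add, ← lift_add, ← lift_add, ← lift_add, hm _ _ h1, hm _ _ h2, hm _ _ h3,
      hm _ _ h4, hm _ _ h5, hm _ _ h6, hm _ _ h7]
    simp only [← map_mul, ← map_div]
    rfl

end AV.LineBundle

end FermatAgent.AbVar
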